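import Fermat.Agent.S48.H55_GroupBoundStr

/-!
# S48, leaf E (helper55): `Stmt_GroupBound` (Deligne–Serre, Prop. 7.2)

`stmt_GroupBound : Stmt_GroupBound` with `B = 2 M ^ 4 + 3 M`.

The proof does not use the classification of the subgroups of `GL₂(𝔽_ℓ)` (and not the hypotheses
on `ℓ`):

* if `G` contains a basis `b` of `M₂(k)`, the trace form makes `g ↦ (tr (g b_i))_i` injective, and
  on the set of the `g` with `g b_i ∈ H` for all `i` (whose complement has at most `4 #(G ∖ H)`
  elements) its values lie in a set with at most `M ^ 4` elements;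
* otherwise the semisimple group `G` is commutative and has at most two elements with a given
  characteristic polynomial, so `#(G ∩ H) ≤ 2 M`.
-/

set_option autoImplicit false
set_option linter.style.haveILetI false

namespace Fermat.Agent.S48.H55

open Matrix

variable {k : Type} [Field k]

/-- The spanning case. -/
theorem card_le_of_span (G : Subgroup (GL (Fin 2) k)) (H : Set (GL (Fin 2) k))
    (Y : Finset (k × k)) (Gf : Finset (GL (Fin 2) k)) (hGf : ∀ g, g ∈ Gf ↔ g ∈ G)
    (hHY : ∀ h ∈ H,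
      ((h : Matrix (Fin 2) (Fin 2) k).trace, (h : Matrix (Fin 2) (Fin 2) k).det) ∈ Y)
    (b : Fin 4 → GL (Fin 2) k) (hbG : ∀ i, b i ∈ G)
    (hb : LinearIndependent k (fun i => ((b i : GL (Fin 2) k) : Matrix (Fin 2) (Fin 2) k)))
    (Bd : Finset (GL (Fin 2) k)) (hBd : ∀ g, g ∈ Bd ↔ g ∈ G ∧ g ∉ H) :
    Gf.card ≤ Y.card ^ 4 + 4 * Bd.card := by
  classical
  have hBdeq : Bd = Gf.filter (fun g => g ∉ H) := by
    ext g
    rw [hBd, Finset.mem_filter, hGf]
  rw [hBdeq]
  set G' : Finset (GL (Fin 2) k) := Gf.filter (fun g => ∀ i, g * b i ∈ H) with hG'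
  set Bad : Fin 4 → Finset (GL (Fin 2) k) := fun i => Gf.filter (fun g => g * b i ∉ H)
    with hBad
  have hcover : Gf ⊆ G' ∪ Finset.univ.biUnion Bad := by
    intro g hg
    by_cases h : ∀ i, g * b i ∈ H
    · exact Finset.mem_union_left _ (Finset.mem_filter.mpr ⟨hg, h⟩)
    · obtain ⟨i, hi⟩ := not_forall.mp h
      exact Finset.mem_union_right _ (Finset.mem_biUnion.mpr
        ⟨i, Finset.mem_univ _, Finset.mem_filter.mpr ⟨hg, hi⟩⟩)
  have hBadcard : ∀ i, (Bad i).card = (Gf.filter (fun g => g ∉ H)).card := by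
    intro i
    apply Finset.card_nbij' (fun g => g * b i) (fun g => g * (b i)⁻¹)
    · intro g hg
      have hg' := Finset.mem_filter.mp (Finset.mem_coe.mp hg)
      exact Finset.mem_coe.mpr (Finset.mem_filter.mpr
        ⟨(hGf _).mpr (G.mul_mem ((hGf _).mp hg'.1) (hbG i)), hg'.2⟩)
    · intro g hg
      have hg' := Finset.mem_filter.mp (Finset.mem_coe.mp hg)
      refine Finset.mem_coe.mpr (Finset.mem_filter.mpr
        ⟨(hGf _).mpr (G.mul_mem ((hGf _).mp hg'.1) (G.inv_mem (hbG i))), ?_⟩)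
      show g * (b i)⁻¹ * b i ∉ H
      rw [inv_mul_cancel_right]
      exact hg'.2
    · intro g _
      show g * b i * (b i)⁻¹ = g
      rw [mul_inv_cancel_right]
    · intro g _
      show g * (b i)⁻¹ * b i = g
      rw [inv_mul_cancel_right]
  have hG'card : G'.card ≤ Y.card ^ 4 := by
    have h1 : G'.card ≤ (Fintype.piFinset (fun _ : Fin 4 => Y.image Prod.fst)).card := by
      apply Finset.card_le_card_of_injOn (s := G')
        (t := Fintype.piFinset (fun _ : Fin 4 => Y.image Prod.fst))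
        (fun g => ((fun i => ((g : Matrix (Fin 2) (Fin 2) k) *
          (b i : Matrix (Fin 2) (Fin 2) k)).trace) : Fin 4 → k))
      · intro g hg
        rw [Finset.mem_coe, Fintype.mem_piFinset]
        intro i
        have h2 := hHY _ ((Finset.mem_filter.mp (Finset.mem_coe.mp hg)).2 i)
        rw [Finset.mem_image]
        exact ⟨_, h2, by rw [Units.val_mul]⟩
      · intro g _ g' _ heq
        have h3 : (g : Matrix (Fin 2) (Fin 2) k) - (g' : Matrix (Fin 2) (Fin 2) k) = 0 := by
          apply eq_zero_of_trace_mul_eq_zero _ hb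
          intro i
          have h4 := congrFun heq i
          rw [sub_mul, Matrix.trace_sub, sub_eq_zero]
          exact h4
        exact Units.ext (sub_eq_zero.mp h3)
    rw [Fintype.card_piFinset, Finset.prod_const, Finset.card_univ, Fintype.card_fin] at h1
    exact h1.trans (Nat.pow_le_pow_left Finset.card_image_le 4)
  have hsum : (Finset.univ.biUnion Bad).card ≤ 4 * (Gf.filter (fun g => g ∉ H)).card := by
    refine Finset.card_biUnion_le.trans ?_
    rw [Finset.sum_congr rfl (fun i _ => hBadcard i), Finset.sum_const, Finset.card_univ,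
      Fintype.card_fin, smul_eq_mul]
  calc Gf.card ≤ (G' ∪ Finset.univ.biUnion Bad).card := Finset.card_le_card hcover
    _ ≤ G'.card + (Finset.univ.biUnion Bad).card := Finset.card_union_le _ _
    _ ≤ Y.card ^ 4 + 4 * (Gf.filter (fun g => g ∉ H)).card := Nat.add_le_add hG'card hsum

/-- The commutative case. -/
theorem card_le_of_abelian (G : Subgroup (GL (Fin 2) k)) (hss : IsSemisimple2 G)
    (hab : ∀ g ∈ G, ∀ h ∈ G,
      (g : Matrix (Fin 2) (Fin 2) k) * (h : Matrix (Fin 2) (Fin 2) k) = h * g)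
    (H : Set (GL (Fin 2) k)) (Y : Finset (k × k)) (Gf : Finset (GL (Fin 2) k))
    (hGf : ∀ g, g ∈ Gf ↔ g ∈ G)
    (hHY : ∀ h ∈ H,
      ((h : Matrix (Fin 2) (Fin 2) k).trace, (h : Matrix (Fin 2) (Fin 2) k).det) ∈ Y)
    (Bd : Finset (GL (Fin 2) k)) (hBd : ∀ g, g ∈ Bd ↔ g ∈ G ∧ g ∉ H) :
    Gf.card ≤ 2 * Y.card + Bd.card := by
  classical
  have hBdeq : Bd = Gf.filter (fun g => g ∉ H) := by
    ext g
    rw [hBd, Finset.mem_filter, hGf]
  rw [hBdeq]
  set Good : Finset (GL (Fin 2) k) := Gf.filter (fun g => g ∈ H) with hGood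
  have hsplit : Good.card + (Gf.filter (fun g => g ∉ H)).card = Gf.card :=
    Finset.card_filter_add_card_filter_not (s := Gf) (fun g => g ∈ H)
  let F : GL (Fin 2) k → k × k := fun g =>
    ((g : Matrix (Fin 2) (Fin 2) k).trace, (g : Matrix (Fin 2) (Fin 2) k).det)
  have h1 : Good.card ≤ 2 * (Good.image F).card := by
    apply Finset.card_le_mul_card_image
    intro y _
    by_contra hlt
    rw [not_le] at hlt
    obtain ⟨a, ha, b, hb, c, hc, hab', hac, hbc⟩ := Finset.two_lt_card.mp hlt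
    rw [Finset.mem_filter] at ha hb hc
    have haG : a ∈ G := (hGf a).mp (Finset.mem_filter.mp ha.1).1
    have hbG : b ∈ G := (hGf b).mp (Finset.mem_filter.mp hb.1).1
    have hcG : c ∈ G := (hGf c).mp (Finset.mem_filter.mp hc.1).1
    have hFa : F a = y := ha.2
    have hFb : F b = y := hb.2
    have hFc : F c = y := hc.2
    have hba : F b = F a := hFb.trans hFa.symm
    have hca : F c = F a := hFc.trans hFa.symm
    have e1 := eq_or_eq_of_charpoly_eq G hss hab a b haG hbG (congrArg Prod.fst hba)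
      (congrArg Prod.snd hba)
    have e2 := eq_or_eq_of_charpoly_eq G hss hab a c haG hcG (congrArg Prod.fst hca)
      (congrArg Prod.snd hca)
    rcases e1 with e1 | e1
    · exact hab' (Units.ext e1.symm)
    · rcases e2 with e2 | e2
      · exact hac (Units.ext e2.symm)
      · exact hbc (Units.ext (e1.trans e2.symm))
  have h2 : (Good.image F).card ≤ Y.card := by
    apply Finset.card_le_card
    intro y hy
    obtain ⟨g, hg, rfl⟩ := Finset.mem_image.mp hy
    exact hHY g (Finset.mem_filter.mp hg).2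
  have h3 : Good.card ≤ 2 * Y.card := h1.trans (Nat.mul_le_mul_left 2 h2)
  omega

/-- **(E) GroupBound.** -/
theorem stmt_GroupBound : Stmt_GroupBound := by
  intro M
  refine ⟨2 * M ^ 4 + 3 * M, ?_⟩
  intro ℓ k _ _ G H Y _ hfin hss _ hHY hY hcount
  classical
  haveI := hfin
  set Gf : Finset (GL (Fin 2) k) := (Set.toFinite (G : Set (GL (Fin 2) k))).toFinset
    with hGfdef
  have hGf : ∀ g, g ∈ Gf ↔ g ∈ G := fun g => by
    rw [hGfdef, Set.Finite.mem_toFinset]
    rfl
  have hcardG : Nat.card G = Gf.card := Nat.subtype_card Gf hGf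
  set Bd : Finset (GL (Fin 2) k) := Gf.filter (fun g => g ∉ H) with hBddef
  have hBd : ∀ g, g ∈ Bd ↔ g ∈ G ∧ g ∉ H := fun g => by
    rw [hBddef, Finset.mem_filter, hGf]
  have hcardB : Nat.card {g : GL (Fin 2) k // g ∈ G ∧ g ∉ H} = Bd.card :=
    Nat.subtype_card _ hBd
  rw [hcardG, hcardB] at hcount
  rw [hcardG]
  by_cases hsp : ∃ b : Fin 4 → GL (Fin 2) k, (∀ i, b i ∈ G) ∧
      LinearIndependent k (fun i => ((b i : GL (Fin 2) k) : Matrix (Fin 2) (Fin 2) k))
  · obtain ⟨b, hbG, hb⟩ := hsp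
    have h1 := card_le_of_span G H Y Gf hGf hHY b hbG hb Bd hBd
    have h2 : Y.card ^ 4 ≤ M ^ 4 := Nat.pow_le_pow_left hY 4
    generalize M ^ 4 = A at h2 ⊢
    generalize Y.card ^ 4 = A' at h1 h2
    omega
  · have hns : ∀ b : Fin 4 → GL (Fin 2) k, (∀ i, b i ∈ G) →
        ¬ LinearIndependent k (fun i => ((b i : GL (Fin 2) k) : Matrix (Fin 2) (Fin 2) k)) :=
      fun b hb hli => hsp ⟨b, hb, hli⟩
    have hab : ∀ g ∈ G, ∀ h ∈ G,
        (g : Matrix (Fin 2) (Fin 2) k) * (h : Matrix (Fin 2) (Fin 2) k) = h * g :=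
      fun g hg h hh => abelian_of_not_span G hss hns g h hg hh
    have h1 := card_le_of_abelian G hss hab H Y Gf hGf hHY Bd hBd
    generalize M ^ 4 = A
    omega

end Fermat.Agent.S48.H55
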