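import Mathlib
import Fermat.Prelude.Def_GaloisRep_Residual
import Fermat.Prelude.Def_Deformations_MatrixRepresentation

/-!
# S48, leaf Irr (helper55): linear algebra and finite level

* `irr_of_no_line` : a two-dimensional matrix representation without stable line is irreducible;
* `finite_range_of_finiteLevel` : a homomorphism of finite level has finite range;
* `trace_eq_of_eigen` : `tr g = c + det g / c` for an eigenvalue `c ≠ 0` of a `2 × 2` matrix.
-/

set_option autoImplicit false
set_option linter.style.haveILetI false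

namespace Fermat.Agent.S48.H55

local notation "Γℚ" => (AlgebraicClosure ℚ ≃ₐ[ℚ] AlgebraicClosure ℚ)

/-- A two-dimensional matrix representation without stable line is irreducible. -/
theorem irr_of_no_line {G : Type} [Group G] (ρ : G →* GL (Fin 2) ℂ)
    (h : ¬ ∃ v : Fin 2 → ℂ, v ≠ 0 ∧
      ∀ σ : G, ∃ c : ℂ, ((ρ σ : GL (Fin 2) ℂ) : Matrix (Fin 2) (Fin 2) ℂ).mulVec v = c • v) :
    (Deformation.matrixRepresentation ρ).IsIrreducible := by
  haveI : Nontrivial (Subrepresentation (Deformation.matrixRepresentation ρ)) := by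
    refine ⟨⊥, ⊤, ?_⟩
    intro hbt
    have h1 : (⊥ : Submodule ℂ (Fin 2 → ℂ)) = ⊤ := congrArg Subrepresentation.toSubmodule hbt
    exact bot_ne_top h1
  refine ⟨fun W => ?_⟩
  by_contra hW
  push_neg at hW
  obtain ⟨hbot, htop⟩ := hW
  have hbot' : W.toSubmodule ≠ ⊥ := fun h => hbot (Subrepresentation.toSubmodule_injective h)
  have htop' : W.toSubmodule ≠ ⊤ := fun h => htop (Subrepresentation.toSubmodule_injective h)
  obtain ⟨v, hvW, hv0⟩ := Submodule.exists_mem_ne_zero_of_ne_bot hbot'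
  have hlt : Module.finrank ℂ W.toSubmodule < 2 := by
    have := Submodule.finrank_lt htop'
    rwa [Module.finrank_fin_fun] at this
  have hpos : Module.finrank ℂ W.toSubmodule ≠ 0 := by
    intro h0
    exact hbot' (Submodule.finrank_eq_zero.mp h0)
  have hone : Module.finrank ℂ W.toSubmodule = 1 := by omega
  have hv0' : (⟨v, hvW⟩ : W.toSubmodule) ≠ 0 := fun h0 => hv0 (congrArg Subtype.val h0)
  have hall := (finrank_eq_one_iff_of_nonzero' (⟨v, hvW⟩ : W.toSubmodule) hv0').mp hone
  apply h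
  refine ⟨v, hv0, fun σ => ?_⟩
  have hmem := W.apply_mem_toSubmodule σ hvW
  obtain ⟨c, hc⟩ := hall ⟨_, hmem⟩
  refine ⟨c, ?_⟩
  have h2 := congrArg Subtype.val hc
  simp only [Submodule.coe_smul] at h2
  rw [h2, Deformation.matrixRepresentation_apply]
  rfl

/-- `tr g = c + det g / c` for an eigenvalue `c ≠ 0` of a `2 × 2` matrix. -/
theorem trace_eq_of_eigen (g : Matrix (Fin 2) (Fin 2) ℂ) (v : Fin 2 → ℂ) (hv : v ≠ 0) (c : ℂ)
    (hc : c ≠ 0) (h : g.mulVec v = c • v) : g.trace = c + g.det / c := by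
  have h1 : (g - Matrix.scalar (Fin 2) c).det = 0 := by
    rw [← Matrix.exists_mulVec_eq_zero_iff]
    refine ⟨v, hv, ?_⟩
    rw [Matrix.sub_mulVec, h]
    ext i
    fin_cases i <;> simp [Matrix.scalar, Matrix.diagonal]
  rw [Matrix.det_fin_two] at h1
  simp only [Matrix.sub_apply, Matrix.scalar_apply, Matrix.diagonal_apply_eq,
    Matrix.diagonal_apply_ne, ne_eq, Fin.zero_eq_one_iff, Fin.one_eq_zero_iff,
    OfNat.ofNat_ne_one, not_false_eq_true, sub_zero] at h1
  rw [Matrix.trace_fin_two, Matrix.det_fin_two]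
  field_simp
  linear_combination (-1 : ℂ) * h1

/-- A homomorphism of finite level has finite range. -/
theorem finite_range_of_finiteLevel {M : Type} [Group M] (r : Γℚ →* M)
    (h : GaloisFactorsThroughFiniteLevel r) : Finite r.range := by
  obtain ⟨L, hL, hr⟩ := h
  haveI := hL
  let res : Γℚ → (L →ₐ[ℚ] AlgebraicClosure ℚ) := fun σ =>
    (σ : AlgebraicClosure ℚ →ₐ[ℚ] AlgebraicClosure ℚ).comp L.val
  have key : ∀ σ τ : Γℚ, res σ = res τ → r σ = r τ := by
    intro σ τ hst
    have h1 : r (τ⁻¹ * σ) = 1 := hr _ (fun x hx => by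
      have h2 : σ x = τ x := DFunLike.congr_fun hst ⟨x, hx⟩
      show τ⁻¹ (σ x) = x
      rw [h2]
      exact τ.symm_apply_apply x)
    rw [map_mul, map_inv, inv_mul_eq_one] at h1
    exact h1.symm
  haveI : Finite (L →ₐ[ℚ] AlgebraicClosure ℚ) := Finite.algHom ℚ L (AlgebraicClosure ℚ)
  let f : Set.range res → r.range := fun x => ⟨r x.2.choose, ⟨_, rfl⟩⟩
  have hf : Function.Surjective f := by
    rintro ⟨m, σ, rfl⟩
    refine ⟨⟨res σ, ⟨σ, rfl⟩⟩, ?_⟩
    apply Subtype.ext
    show r _ = r σ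
    exact key _ _ (Exists.choose_spec (⟨σ, rfl⟩ : ∃ τ, res τ = res σ))
  exact Finite.of_surjective f hf

/-- Every value of a homomorphism of finite level has finite order. -/
theorem exists_pow_eq_one_of_finiteLevel {M : Type} [Group M] (r : Γℚ →* M)
    (h : GaloisFactorsThroughFiniteLevel r) (σ : Γℚ) : ∃ n : ℕ, 0 < n ∧ r σ ^ n = 1 := by
  haveI := finite_range_of_finiteLevel r h
  obtain ⟨n, hn, hpow⟩ := (isOfFinOrder_of_finite (r.rangeRestrict σ)).exists_pow_eq_one
  refine ⟨n, hn, ?_⟩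
  have h1 := congrArg Subtype.val hpow
  simpa using h1

end Fermat.Agent.S48.H55
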