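import Mathlib
import Fermat.Prelude.Def_GaloisRep_Residual
import Fermat.Prelude.Def_Deformations_MatrixRepresentation

/-!
# S48 (Deligne–Serre, weight one): interfaces

Owner / planner: helper43.  Plan: `NOTES/plan/W_S48.md`.

Frozen statement: `N` with `[NeZero N]`, `ε` a Dirichlet character mod `N`, `f` a weight one cusp
form on `Γ₁(N)` with `a₁ = 1` whose `q`-coefficients satisfy the Hecke relations for `ε` at all
primes `p ∤ N`; then there is `ρ : Γℚ → GL₂(ℂ)` with finite image, irreducible, unramified at all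
`p ∤ N`, with `tr ρ(Frob_p) = a_p` and `det ρ(Frob_p) = ε(p)`.

Top level: `S48 = Stmt_Core + Stmt_Irr` (`Fermat/Agent/S48/Wiring.lean`).

Leaves (all stated with Mathlib / prelude objects only, so that they can be attacked in parallel):

* `Stmt_Int`        (A) integrality of the `a_p` (`p ∤ N`), finiteness of the field they
                        generate, conjugate forms;
* `Stmt_ResRep`     (B) residual representations mod `ℓ` for all large `ℓ` (the mountain: needs
                        the geometry of `X₁(Nℓ)`);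
* `Stmt_Rankin`     (C) `∑_{p ∤ N} |a_p|² p^{-s} ≤ log (1/(s-1)) + C` on `(1, 2]`;
* `Stmt_Cheb`       (D) Chebotarev, lower bound form, Dirichlet density;
* `Stmt_GroupBound` (E) Deligne–Serre Prop. 7.2 (bounded image);
* `Stmt_Lift`       (F) lifting a representation of a group of order prime to `ℓ` to `ℂ`;
* `Stmt_DegOne`         infinitely many `ℓ` with a residue map under which the coefficient field
                        lands in the prime field.
-/

set_option autoImplicit false

open CongruenceSubgroup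
open scoped MatrixGroups

namespace Fermat.Agent.S48

local notation "Γℚ" => (AlgebraicClosure ℚ ≃ₐ[ℚ] AlgebraicClosure ℚ)

/-- The hypotheses of S48 on `(N, ε, f)`. -/
structure IsDSForm (N : ℕ) [NeZero N] (ε : DirichletCharacter ℂ N)
    (f : CuspForm (Gamma1 N) 1) : Prop where
  one : ModularFormClass.qCoeff f 1 = 1
  hecke : ∀ p : ℕ, p.Prime → ¬ p ∣ N → ∀ n : ℕ,
    ModularFormClass.qCoeff f (p * n) +
        ε (p : ZMod N) * (if p ∣ n then ModularFormClass.qCoeff f (n / p) else 0) =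
      ModularFormClass.qCoeff f p * ModularFormClass.qCoeff f n

/-- `ρ` is unramified at `p` and every Frobenius at `p` has trace `a` and determinant `e`. -/
def HasFrobCharpolyAt {k : Type} [Field k] (ρ : Γℚ →* GL (Fin 2) k) (p : ℕ) (a e : k) : Prop :=
  ∀ A : ValuationSubring (AlgebraicClosure ℚ), A.LiesOverPrime p →
    (∀ σ ∈ A.inertiaSubgroupIn ℚ, ρ σ = 1) ∧
    ∀ σ : Γℚ, A.IsFrobeniusAt σ p →
      ((ρ σ : GL (Fin 2) k) : Matrix (Fin 2) (Fin 2) k).trace = a ∧
      ((ρ σ : GL (Fin 2) k) : Matrix (Fin 2) (Fin 2) k).det = e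

/-- `ρ` is attached to `(f, ε)`: finite image, unramified outside `N`, the right Frobenius
traces and determinants. -/
def IsAttached (N : ℕ) [NeZero N] (ε : DirichletCharacter ℂ N) (f : CuspForm (Gamma1 N) 1)
    (ρ : Γℚ →* GL (Fin 2) ℂ) : Prop :=
  GaloisFactorsThroughFiniteLevel ρ ∧
    ∀ p : ℕ, p.Prime → ¬ p ∣ N →
      HasFrobCharpolyAt ρ p (ModularFormClass.qCoeff f p) (ε (p : ZMod N))

/-- **Core**: existence of the attached representation (Deligne–Serre Thm 4.1, without the
irreducibility). -/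
def Stmt_Core : Prop :=
  ∀ (N : ℕ) [NeZero N] (ε : DirichletCharacter ℂ N) (f : CuspForm (Gamma1 N) 1),
    IsDSForm N ε f → ∃ ρ : Γℚ →* GL (Fin 2) ℂ, IsAttached N ε f ρ

/-- **Irr**: an attached representation is irreducible (`f` is a cusp form). -/
def Stmt_Irr : Prop :=
  ∀ (N : ℕ) [NeZero N] (ε : DirichletCharacter ℂ N) (f : CuspForm (Gamma1 N) 1),
    IsDSForm N ε f → ∀ ρ : Γℚ →* GL (Fin 2) ℂ, IsAttached N ε f ρ →
      (Deformation.matrixRepresentation ρ).IsIrreducible

/-- **(A) Int**: the coefficients `a_p`, `p ∤ N` prime, are algebraic integers, they generate a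
number field, and the coefficientwise conjugates of `f` are again cusp forms of weight one on
`Γ₁(N)`.

(v2, helper43: only the `a_p` with `p ∤ N` are controlled. `f` is not assumed to be an eigenform
at the primes dividing `N`, so the other coefficients can be transcendental, e.g.
`f₀(z) + c f₀(dz)`; v1 asked integrality of all `a_n` and was false.) -/
def Stmt_Int : Prop :=
  ∀ (N : ℕ) [NeZero N] (ε : DirichletCharacter ℂ N) (f : CuspForm (Gamma1 N) 1),
    IsDSForm N ε f →
      (∀ p : ℕ, p.Prime → ¬ p ∣ N → IsIntegral ℤ (ModularFormClass.qCoeff f p)) ∧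
      FiniteDimensional ℚ
        (IntermediateField.adjoin ℚ
          {x : ℂ | ∃ p : ℕ, p.Prime ∧ ¬ p ∣ N ∧ x = ModularFormClass.qCoeff f p}) ∧
      ∀ σ : ℂ →+* ℂ, ∃ f' : CuspForm (Gamma1 N) 1,
        ∀ n : ℕ, ModularFormClass.qCoeff f' n = σ (ModularFormClass.qCoeff f n)

/-- **(B) ResRep**: for every large prime `ℓ` and every residue map `φ` of `ℤ̄` to an
algebraically closed field of characteristic `ℓ` there is a representation mod `ℓ` of finite
level, unramified outside `Nℓ`, with Frobenius traces `φ(a_p)` and determinants `φ(ε(p))`.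
(No semisimplicity is asked: the assembly semisimplifies.) -/
def Stmt_ResRep : Prop :=
  ∀ (N : ℕ) [NeZero N] (ε : DirichletCharacter ℂ N) (f : CuspForm (Gamma1 N) 1),
    IsDSForm N ε f →
      ∃ ℓ₀ : ℕ, ∀ ℓ : ℕ, ℓ.Prime → ℓ₀ ≤ ℓ →
        ∀ (k : Type) [Field k] [CharP k ℓ] [IsAlgClosed k] (φ : integralClosure ℤ ℂ →+* k),
          ∃ ρ : Γℚ →* GL (Fin 2) k, GaloisFactorsThroughFiniteLevel ρ ∧
            ∀ p : ℕ, p.Prime → ¬ p ∣ N * ℓ →
              ∀ a e : integralClosure ℤ ℂ, (a : ℂ) = ModularFormClass.qCoeff f p →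
                (e : ℂ) = ε (p : ZMod N) → HasFrobCharpolyAt ρ p (φ a) (φ e)

/-- **(C) Rankin**: `∑_{p ∤ N} |a_p|² p^{-s} ≤ log (1/(s-1)) + C` for `1 < s ≤ 2` (stated for
finite partial sums). -/
def Stmt_Rankin : Prop :=
  ∀ (N : ℕ) [NeZero N] (ε : DirichletCharacter ℂ N) (f : CuspForm (Gamma1 N) 1),
    IsDSForm N ε f →
      ∃ C : ℝ, ∀ s : ℝ, 1 < s → s ≤ 2 → ∀ T : Finset ℕ, (∀ p ∈ T, p.Prime ∧ ¬ p ∣ N) →
        ∑ p ∈ T, ‖ModularFormClass.qCoeff f p‖ ^ 2 * (p : ℝ) ^ (-s) ≤
          Real.log (1 / (s - 1)) + C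

/-- The primes having a Frobenius element mapped to `g` by `r`. -/
def frobPrimes {G : Type} [Group G] (r : Γℚ →* G) (g : G) : Set ℕ :=
  {p | p.Prime ∧ ∃ (A : ValuationSubring (AlgebraicClosure ℚ)) (σ : Γℚ),
    A.LiesOverPrime p ∧ A.IsFrobeniusAt σ p ∧ r σ = g}

/-- **(D) Chebotarev**, lower bound form for the Dirichlet density, with a loss `η > 0`: for `r`
of finite level onto a finite group `G`, `g ∈ G`, a finite set `S` of primes and `η > 0`,
`∑_{p ∉ S, Frob_p = g} p^{-s} ≥ (1 - η) (#(class of g) / #G) log (1/(s-1)) - C` on `(1, 2]`.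

(v2, helper43: the factor `1 - η` is what Chebotarev's field crossing argument gives without
class field theory; every use in the assembly and in `Stmt_Irr` has room for it.) -/
def Stmt_Cheb : Prop :=
  ∀ (G : Type) [Group G] [Finite G] (r : Γℚ →* G), GaloisFactorsThroughFiniteLevel r →
    Function.Surjective r → ∀ (S : Finset ℕ) (g : G) (η : ℝ), 0 < η →
      ∃ C : ℝ, ∀ s : ℝ, 1 < s → s ≤ 2 →
        ∃ T : Finset ℕ, (∀ p ∈ T, p ∈ frobPrimes r g ∧ p ∉ S) ∧
          (1 - η) * ((Nat.card {h : G // IsConj g h} : ℝ) / (Nat.card G : ℝ)) *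
              Real.log (1 / (s - 1)) - C ≤
            ∑ p ∈ T, (p : ℝ) ^ (-s)

/-- Every stable line has a stable complement (semisimplicity in dimension two). -/
def IsSemisimple2 {k : Type} [Field k] (G : Subgroup (GL (Fin 2) k)) : Prop :=
  ∀ v : Fin 2 → k, v ≠ 0 →
    (∀ g ∈ G, ∃ c : k, (g : Matrix (Fin 2) (Fin 2) k).mulVec v = c • v) →
    ∃ w : Fin 2 → k, LinearIndependent k ![v, w] ∧
      ∀ g ∈ G, ∃ c : k, (g : Matrix (Fin 2) (Fin 2) k).mulVec w = c • w

/-- **(E) GroupBound** (Deligne–Serre Prop. 7.2, with `η = 1/120`): a finite semisimple subgroup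
`G` of `GL₂(k)`, `char k = ℓ`, all of whose traces and determinants lie in the prime field, such
that the elements outside a subset of density `≤ 1/120` have at most `M` characteristic
polynomials, has order bounded in terms of `M` only. -/
def Stmt_GroupBound : Prop :=
  ∀ M : ℕ, ∃ B : ℕ, ∀ (ℓ : ℕ) (k : Type) [Field k] [CharP k ℓ]
    (G : Subgroup (GL (Fin 2) k)) (H : Set (GL (Fin 2) k)) (Y : Finset (k × k)),
    ℓ.Prime → Finite G → IsSemisimple2 G →
    (∀ g ∈ G, (g : Matrix (Fin 2) (Fin 2) k).trace ^ ℓ = (g : Matrix (Fin 2) (Fin 2) k).trace ∧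
      (g : Matrix (Fin 2) (Fin 2) k).det ^ ℓ = (g : Matrix (Fin 2) (Fin 2) k).det) →
    (∀ h ∈ H, ((h : Matrix (Fin 2) (Fin 2) k).trace, (h : Matrix (Fin 2) (Fin 2) k).det) ∈ Y) →
    Y.card ≤ M →
    120 * Nat.card {g : GL (Fin 2) k // g ∈ G ∧ g ∉ H} ≤ Nat.card G →
    Nat.card G ≤ B

/-- **(F) Lift**: a two-dimensional representation over an algebraically closed field of
characteristic `ℓ ≠ 2` of a finite group of order prime to `ℓ` lifts to `ℂ`: there is a complex
representation whose traces and determinants are algebraic integers reducing (under any given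
residue map `φ`) to those of the given one. -/
def Stmt_Lift : Prop :=
  ∀ (ℓ : ℕ) (k : Type) [Field k] [CharP k ℓ] [IsAlgClosed k] (φ : integralClosure ℤ ℂ →+* k)
    (G : Type) [Group G] [Finite G] (r : G →* GL (Fin 2) k),
    ℓ.Prime → ℓ ≠ 2 → ¬ ℓ ∣ Nat.card G →
    ∃ R : G →* GL (Fin 2) ℂ, ∀ g : G, ∃ t d : integralClosure ℤ ℂ,
      (t : ℂ) = ((R g : GL (Fin 2) ℂ) : Matrix (Fin 2) (Fin 2) ℂ).trace ∧
      (d : ℂ) = ((R g : GL (Fin 2) ℂ) : Matrix (Fin 2) (Fin 2) ℂ).det ∧
      φ t = ((r g : GL (Fin 2) k) : Matrix (Fin 2) (Fin 2) k).trace ∧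
      φ d = ((r g : GL (Fin 2) k) : Matrix (Fin 2) (Fin 2) k).det

/-- **DegOne**: for a number field `K ⊆ ℂ` there are arbitrarily large primes `ℓ` such that every
algebraically closed field `k` of characteristic `ℓ` receives a residue map of `ℤ̄` sending the
integers of `K` into the prime field. -/
def Stmt_DegOne : Prop :=
  ∀ K : IntermediateField ℚ ℂ, FiniteDimensional ℚ K → ∀ B : ℕ, ∃ ℓ : ℕ, ℓ.Prime ∧ B ≤ ℓ ∧
    ∀ (k : Type) [Field k] [CharP k ℓ] [IsAlgClosed k],
      ∃ φ : integralClosure ℤ ℂ →+* k,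
        ∀ x : integralClosure ℤ ℂ, (x : ℂ) ∈ K → φ x ^ ℓ = φ x

end Fermat.Agent.S48
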