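import Mathlib

/-!
# S48 leaf F (`Stmt_Lift`), part 2: the rank of a scaled idempotent matrix is preserved by
reduction

`rank_map_eq_of_sq` : if `M * M = c • M` over a commutative ring `S`, `ι : S →+* K` is injective
and `φ : S →+* k` with `ι c ≠ 0`, `φ c ≠ 0` (`K`, `k` fields), then
`(M.map ι).rank = (M.map φ).rank`.  (Proof: the multiplicity of `0` as a root of the
characteristic polynomial, for `M` and for `c - M`.)
-/

set_option autoImplicit false

open Matrix Polynomial

namespace Fermat.Agent.S48.H78

section field

variable {K : Type*} [Field K] {N : Type*} [Fintype N] [DecidableEq N]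

lemma maxGenEigenspace_zero_of_sq {V : Type*} [AddCommGroup V] [Module K V]
    (f : Module.End K V) (c : K) (hc : c ≠ 0) (hf : f * f = c • f) :
    f.maxGenEigenspace 0 = LinearMap.ker f := by
  have hpow : ∀ j : ℕ, f ^ (j + 1) = c ^ j • f := by
    intro j
    induction j with
    | zero => simp
    | succ j ih => rw [pow_succ, ih, smul_mul_assoc, hf, smul_smul, pow_succ]
  ext x
  rw [Module.End.mem_maxGenEigenspace, LinearMap.mem_ker]
  constructor
  · rintro ⟨j, hj⟩
    simp only [zero_smul, sub_zero] at hj
    rcases j with _ | j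
    · simp only [pow_zero, Module.End.one_apply] at hj
      rw [hj, map_zero]
    · rw [hpow, LinearMap.smul_apply] at hj
      exact (smul_eq_zero.mp hj).resolve_left (pow_ne_zero _ hc)
  · intro hx
    exact ⟨1, by simpa using hx⟩

/-- For a scaled idempotent matrix over a field, the multiplicity of `0` in the characteristic
polynomial is the dimension of the kernel. -/
lemma natTrailingDegree_charpoly_of_sq (A : Matrix N N K) (c : K) (hc : c ≠ 0)
    (hA : A * A = c • A) :
    A.charpoly.natTrailingDegree + A.rank = Fintype.card N := by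
  have h1 : Module.End.maxGenEigenspace (A.mulVecLin : Module.End K (N → K)) 0 =
      LinearMap.ker A.mulVecLin := by
    apply maxGenEigenspace_zero_of_sq _ c hc
    rw [Module.End.mul_eq_comp, ← Matrix.mulVecLin_mul, hA]
    ext v
    simp [Matrix.smul_mulVec]
  have h2 := LinearMap.finrank_maxGenEigenspace_zero_eq (A.mulVecLin : Module.End K (N → K))
  rw [h1, Matrix.charpoly_mulVecLin] at h2
  have h3 := LinearMap.finrank_range_add_finrank_ker A.mulVecLin
  rw [Module.finrank_fintype_fun_eq_card] at h3
  rw [← h2, Matrix.rank, ← h3, add_comm]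

lemma rank_compl_of_sq (A : Matrix N N K) (c : K) (hc : c ≠ 0) (hA : A * A = c • A) :
    (c • (1 : Matrix N N K) - A).rank + A.rank = Fintype.card N := by
  have h3 := LinearMap.finrank_range_add_finrank_ker (c • (1 : Matrix N N K) - A).mulVecLin
  rw [Module.finrank_fintype_fun_eq_card] at h3
  have hker : LinearMap.ker (c • (1 : Matrix N N K) - A).mulVecLin =
      LinearMap.range A.mulVecLin := by
    ext v
    simp only [LinearMap.mem_ker, Matrix.mulVecLin_apply, LinearMap.mem_range]
    constructor
    · intro hv
      refine ⟨c⁻¹ • v, ?_⟩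
      rw [Matrix.sub_mulVec, Matrix.smul_mulVec, Matrix.one_mulVec, sub_eq_zero] at hv
      rw [Matrix.mulVec_smul, ← hv, smul_smul, inv_mul_cancel₀ hc, one_smul]
    · rintro ⟨w, rfl⟩
      rw [Matrix.mulVec_mulVec, Matrix.sub_mul, Matrix.smul_mul, Matrix.one_mul, hA, sub_self,
        Matrix.zero_mulVec]
  rw [hker] at h3
  rw [Matrix.rank, Matrix.rank, h3]

lemma sq_compl_of_sq (A : Matrix N N K) (c : K) (hA : A * A = c • A) :
    (c • (1 : Matrix N N K) - A) * (c • (1 : Matrix N N K) - A) =
      c • (c • (1 : Matrix N N K) - A) := by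
  rw [Matrix.sub_mul, Matrix.mul_sub, Matrix.mul_sub, hA]
  simp only [Matrix.smul_mul, Matrix.mul_smul, Matrix.one_mul, Matrix.mul_one, smul_sub]
  abel

end field

section ring

variable {S : Type*} [CommRing S] {K k : Type*} [Field K] [Field k]
  {N : Type*} [Fintype N] [DecidableEq N]

lemma natTrailingDegree_charpoly_map_le (M : Matrix N N S) (ι : S →+* K)
    (hι : Function.Injective ι) (φ : S →+* k) :
    (M.map ι).charpoly.natTrailingDegree ≤ (M.map φ).charpoly.natTrailingDegree := by
  rw [Matrix.charpoly_map, Matrix.charpoly_map]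
  have hne : (M.charpoly.map φ) ≠ 0 := ((Matrix.charpoly_monic M).map φ).ne_zero
  apply Polynomial.le_natTrailingDegree hne
  intro m hm
  rw [Polynomial.coeff_map]
  have : M.charpoly.coeff m = 0 := by
    have h0 : (M.charpoly.map ι).coeff m = 0 :=
      Polynomial.coeff_eq_zero_of_lt_natTrailingDegree hm
    rw [Polynomial.coeff_map] at h0
    exact hι (by rw [h0, map_zero])
  rw [this, map_zero]

lemma rank_map_le_of_sq (M : Matrix N N S) (c : S) (hM : M * M = c • M) (ι : S →+* K)
    (hι : Function.Injective ι) (φ : S →+* k) (hcK : ι c ≠ 0) (hck : φ c ≠ 0) :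
    (M.map φ).rank ≤ (M.map ι).rank := by
  have hK : (M.map ι) * (M.map ι) = ι c • (M.map ι) := by
    rw [← Matrix.map_mul, hM]
    ext i j; simp [Matrix.map_apply]
  have hk : (M.map φ) * (M.map φ) = φ c • (M.map φ) := by
    rw [← Matrix.map_mul, hM]
    ext i j; simp [Matrix.map_apply]
  have h1 := natTrailingDegree_charpoly_of_sq (M.map ι) (ι c) hcK hK
  have h2 := natTrailingDegree_charpoly_of_sq (M.map φ) (φ c) hck hk
  have h3 := natTrailingDegree_charpoly_map_le M ι hι φ
  omega

/-- The rank of a scaled idempotent matrix is preserved by reduction. -/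
theorem rank_map_eq_of_sq (M : Matrix N N S) (c : S) (hM : M * M = c • M) (ι : S →+* K)
    (hι : Function.Injective ι) (φ : S →+* k) (hcK : ι c ≠ 0) (hck : φ c ≠ 0) :
    (M.map ι).rank = (M.map φ).rank := by
  apply le_antisymm
  · -- use the complementary matrix
    set M' : Matrix N N S := c • (1 : Matrix N N S) - M with hM'
    have hM'sq : M' * M' = c • M' := by
      rw [hM', Matrix.sub_mul, Matrix.mul_sub, Matrix.mul_sub, hM]
      simp only [Matrix.smul_mul, Matrix.mul_smul, Matrix.one_mul, Matrix.mul_one, smul_sub]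
      abel
    have hle := rank_map_le_of_sq M' c hM'sq ι hι φ hcK hck
    have hK : (M.map ι) * (M.map ι) = ι c • (M.map ι) := by
      rw [← Matrix.map_mul, hM]
      ext i j; simp [Matrix.map_apply]
    have hk : (M.map φ) * (M.map φ) = φ c • (M.map φ) := by
      rw [← Matrix.map_mul, hM]
      ext i j; simp [Matrix.map_apply]
    have e1 : M'.map ι = ι c • (1 : Matrix N N K) - M.map ι := by
      ext i j
      simp [hM', Matrix.map_apply, Matrix.sub_apply, Matrix.smul_apply, Matrix.one_apply,
        apply_ite]
    have e2 : M'.map φ = φ c • (1 : Matrix N N k) - M.map φ := by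
      ext i j
      simp [hM', Matrix.map_apply, Matrix.sub_apply, Matrix.smul_apply, Matrix.one_apply,
        apply_ite]
    have h1 := rank_compl_of_sq (M.map ι) (ι c) hcK hK
    have h2 := rank_compl_of_sq (M.map φ) (φ c) hck hk
    rw [e1, e2] at hle
    omega
  · exact rank_map_le_of_sq M c hM ι hι φ hcK hck

end ring

end Fermat.Agent.S48.H78
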