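import Mathlib

/-!
# S48 leaf F (`Stmt_Lift`), part 1: Schur orthogonality by finite sums

For a finite group `G`, a field `F` and a matrix representation `ρ : G →* Matrix ι ι F` with the
*Schur property* (every matrix commuting with all `ρ g` is a scalar), we prove by plain finite
sums:

* `schur_orth`     : `|ι| * ∑ g, ρ g a b * ρ g⁻¹ c e = if a = e ∧ b = c then |G| else 0`;
* `schur_fe`       : `|ι| * ∑ h, tr ρ (h g h⁻¹ x) = |G| * tr ρ g * tr ρ x`;
* `rank_charMat`   : the matrix `(tr ρ (g⁻¹ h))_{g,h}` has rank `|ι|²` (if `|ι| |G| ≠ 0` in `F`).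
-/

set_option autoImplicit false

open Matrix

namespace Fermat.Agent.S48.H78

variable {F : Type*} [Field F] {G : Type*} [Group G] [Fintype G]
  {ι : Type*} [Fintype ι] [DecidableEq ι]

/-- Schur property: the commutant of `ρ` consists of scalar matrices. -/
def SchurProp (ρ : G →* Matrix ι ι F) : Prop :=
  ∀ A : Matrix ι ι F, (∀ g, A * ρ g = ρ g * A) → ∃ c : F, A = c • (1 : Matrix ι ι F)

lemma rho_mul_inv (ρ : G →* Matrix ι ι F) (g : G) : ρ g * ρ g⁻¹ = 1 := by
  rw [← map_mul, mul_inv_cancel, map_one]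

lemma rho_inv_mul (ρ : G →* Matrix ι ι F) (g : G) : ρ g⁻¹ * ρ g = 1 := by
  rw [← map_mul, inv_mul_cancel, map_one]

lemma mul_single_mul_apply {κ : Type*} [Fintype κ] [DecidableEq κ]
    (A : Matrix ι ι F) (B : Matrix κ κ F) (a b : ι) (c e : κ) :
    (A * Matrix.single b c (1 : F) * B) a e = A a b * B c e := by
  rw [Matrix.mul_apply]
  simp only [Matrix.mul_apply, Matrix.single_apply]
  rw [Finset.sum_eq_single c]
  · rw [Finset.sum_eq_single b]
    · simp
    · intro x _ hx; simp [Ne.symm hx]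
    · simp
  · intro x _ hx
    have : ∀ x_1, ¬ (b = x_1 ∧ c = x) := fun x_1 h => hx h.2.symm
    simp [this]
  · simp

/-- The average `∑ g, ρ g * B * ρ' g⁻¹` intertwines. -/
lemma avg_intertwine {κ : Type*} [Fintype κ] [DecidableEq κ]
    (ρ : G →* Matrix ι ι F) (ρ' : G →* Matrix κ κ F) (B : Matrix ι κ F) (h : G) :
    ρ h * (∑ g, ρ g * B * ρ' g⁻¹) = (∑ g, ρ g * B * ρ' g⁻¹) * ρ' h := by
  rw [Matrix.mul_sum, Matrix.sum_mul]
  refine Fintype.sum_equiv (Equiv.mulLeft h) _ _ (fun g => ?_)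
  simp only [Equiv.coe_mulLeft]
  have : ρ' (h * g)⁻¹ * ρ' h = ρ' g⁻¹ := by
    rw [← map_mul]; congr 1; group
  rw [Matrix.mul_assoc (ρ (h * g) * B), this, map_mul]
  simp only [Matrix.mul_assoc]

/-- Schur orthogonality of matrix coefficients. -/
theorem schur_orth (ρ : G →* Matrix ι ι F) (hS : SchurProp ρ) (a b c e : ι) :
    (Fintype.card ι : F) * ∑ g, ρ g a b * ρ g⁻¹ c e =
      if a = e ∧ b = c then (Fintype.card G : F) else 0 := by
  set T : Matrix ι ι F := ∑ g, ρ g * Matrix.single b c (1 : F) * ρ g⁻¹ with hT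
  obtain ⟨t, ht⟩ := hS T (fun g => (avg_intertwine ρ ρ (Matrix.single b c (1 : F)) g).symm)
  have hentry : T a e = ∑ g, ρ g a b * ρ g⁻¹ c e := by
    rw [hT, Matrix.sum_apply]
    exact Finset.sum_congr rfl (fun g _ => mul_single_mul_apply _ _ _ _ _ _)
  have htr : T.trace = if b = c then (Fintype.card G : F) else 0 := by
    rw [hT, Matrix.trace_sum]
    have : ∀ g : G, (ρ g * Matrix.single b c (1 : F) * ρ g⁻¹).trace =
        (Matrix.single b c (1 : F)).trace := by
      intro g
      rw [Matrix.trace_mul_cycle, rho_inv_mul, Matrix.one_mul]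
    simp only [this, Finset.sum_const, Finset.card_univ, nsmul_eq_mul]
    by_cases hbc : b = c
    · subst hbc; simp
    · simp [hbc, Matrix.trace_single_eq_of_ne _ _ _ hbc]
  have htr2 : T.trace = t * (Fintype.card ι : F) := by
    rw [ht]; simp [Matrix.trace_smul, Matrix.trace_one]
  rw [← hentry, ht]
  simp only [Matrix.smul_apply, Matrix.one_apply, smul_eq_mul]
  by_cases hae : a = e
  · subst hae
    simp only [if_true, mul_one, true_and]
    rw [mul_comm, ← htr2, htr]
  · simp [hae]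

/-- Orthogonality between two representations separated by an element of the group algebra. -/
theorem schur_orth_two {κ : Type*} [Fintype κ] [DecidableEq κ]
    (ρ : G →* Matrix ι ι F) (ρ' : G →* Matrix κ κ F) (y : G → F)
    (hy : ∑ g, y g • ρ g = 1) (hy' : ∑ g, y g • ρ' g = 0) (a b : ι) (c e : κ) :
    ∑ g, ρ g a b * ρ' g⁻¹ c e = 0 := by
  set T : Matrix ι κ F := ∑ g, ρ g * Matrix.single b c (1 : F) * ρ' g⁻¹ with hT
  have hentry : T a e = ∑ g, ρ g a b * ρ' g⁻¹ c e := by
    rw [hT, Matrix.sum_apply]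
    exact Finset.sum_congr rfl (fun g _ => mul_single_mul_apply _ _ _ _ _ _)
  have h1 : (∑ g, y g • ρ g) * T = T * (∑ g, y g • ρ' g) := by
    rw [Matrix.sum_mul, Matrix.mul_sum]
    refine Finset.sum_congr rfl (fun g _ => ?_)
    rw [Matrix.smul_mul, Matrix.mul_smul, hT, avg_intertwine]
  rw [hy, hy', Matrix.one_mul, Matrix.mul_zero] at h1
  rw [← hentry, h1]; rfl

/-- The character of a matrix representation. -/
def chr (ρ : G →* Matrix ι ι F) (g : G) : F := (ρ g).trace

lemma chr_conj (ρ : G →* Matrix ι ι F) (h x : G) : chr ρ (h * x * h⁻¹) = chr ρ x := by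
  unfold chr
  rw [map_mul, map_mul, Matrix.trace_mul_cycle, rho_inv_mul, Matrix.one_mul]

lemma chr_comm (ρ : G →* Matrix ι ι F) (x y : G) : chr ρ (x * y) = chr ρ (y * x) := by
  unfold chr
  rw [map_mul, map_mul, Matrix.trace_mul_comm]

lemma chr_one (ρ : G →* Matrix ι ι F) : chr ρ 1 = (Fintype.card ι : F) := by
  unfold chr
  rw [map_one, Matrix.trace_one]

/-- The functional equation of an irreducible character. -/
theorem schur_fe (ρ : G →* Matrix ι ι F) (hS : SchurProp ρ) (g x : G) :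
    (Fintype.card ι : F) * ∑ h, chr ρ (h * g * h⁻¹ * x) =
      (Fintype.card G : F) * chr ρ g * chr ρ x := by
  set T : Matrix ι ι F := ∑ h, ρ (h * g * h⁻¹) with hT
  have hcomm : ∀ u, T * ρ u = ρ u * T := by
    intro u
    rw [hT, Matrix.sum_mul, Matrix.mul_sum]
    refine (Fintype.sum_equiv (Equiv.mulLeft u) _ _ (fun h => ?_)).symm
    simp only [Equiv.coe_mulLeft]
    rw [← map_mul, ← map_mul]; congr 1; group
  obtain ⟨t, ht⟩ := hS T hcomm
  have htr : T.trace = (Fintype.card G : F) * chr ρ g := by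
    rw [hT, Matrix.trace_sum]
    have : ∀ h : G, (ρ (h * g * h⁻¹)).trace = chr ρ g := fun h => chr_conj ρ h g
    simp only [this, Finset.sum_const, Finset.card_univ, nsmul_eq_mul]
  have htr2 : T.trace = t * (Fintype.card ι : F) := by
    rw [ht]; simp [Matrix.trace_smul, Matrix.trace_one]
  have hsum : ∑ h, chr ρ (h * g * h⁻¹ * x) = (T * ρ x).trace := by
    rw [hT, Matrix.sum_mul, Matrix.trace_sum]
    refine Finset.sum_congr rfl (fun h _ => ?_)
    unfold chr; rw [map_mul]
  rw [hsum, ht, Matrix.smul_mul, Matrix.one_mul, Matrix.trace_smul, smul_eq_mul]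
  have : chr ρ x = (ρ x).trace := rfl
  rw [this, ← mul_assoc, mul_comm _ t, ← htr2, htr]

/-- The character matrix `(χ (g⁻¹ h))_{g,h}`. -/
def charMat (ρ : G →* Matrix ι ι F) : Matrix G G F := fun g h => chr ρ (g⁻¹ * h)

/-- First factor of the character matrix. -/
def matU (ρ : G →* Matrix ι ι F) : Matrix G (ι × ι) F := fun g p => ρ g⁻¹ p.2 p.1

/-- Second factor of the character matrix. -/
def matV (ρ : G →* Matrix ι ι F) : Matrix (ι × ι) G F := fun p h => ρ h p.1 p.2

lemma matU_mul_matV (ρ : G →* Matrix ι ι F) : matU ρ * matV ρ = charMat ρ := by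
  ext g h
  rw [Matrix.mul_apply, Fintype.sum_prod_type, Finset.sum_comm]
  simp only [matU, matV, charMat, chr, map_mul, Matrix.trace, Matrix.diag_apply, Matrix.mul_apply]

lemma matV_mul_matU [DecidableEq G] (ρ : G →* Matrix ι ι F) (hS : SchurProp ρ) :
    (Fintype.card ι : F) • (matV ρ * matU ρ) = (Fintype.card G : F) • (1 : Matrix (ι × ι) (ι × ι) F) := by
  ext ⟨a, b⟩ ⟨c, e⟩
  simp only [Matrix.smul_apply, Matrix.mul_apply, matU, matV, smul_eq_mul, Matrix.one_apply,
    Prod.mk.injEq]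
  rw [schur_orth ρ hS a b e c]
  simp [eq_comm]

/-- The character matrix of a Schur representation has rank `|ι|²`. -/
theorem rank_charMat [DecidableEq G] (ρ : G →* Matrix ι ι F) (hS : SchurProp ρ)
    (hd : (Fintype.card ι : F) ≠ 0) (hn : (Fintype.card G : F) ≠ 0) :
    (charMat ρ).rank = Fintype.card ι * Fintype.card ι := by
  apply le_antisymm
  · rw [← matU_mul_matV]
    refine (Matrix.rank_mul_le_left _ _).trans ?_
    refine (Matrix.rank_le_card_width _).trans ?_
    rw [Fintype.card_prod]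
  · have hVU : matV ρ * matU ρ =
        ((Fintype.card ι : F)⁻¹ * (Fintype.card G : F)) • (1 : Matrix (ι × ι) (ι × ι) F) := by
      have := matV_mul_matU ρ hS
      rw [mul_smul, ← this, smul_smul, inv_mul_cancel₀ hd, one_smul]
    set c : F := (Fintype.card ι : F)⁻¹ * (Fintype.card G : F) with hc
    have hc0 : c ≠ 0 := mul_ne_zero (inv_ne_zero hd) hn
    have h1 : matV ρ * (charMat ρ * matU ρ) = (c * c) • (1 : Matrix (ι × ι) (ι × ι) F) := by
      rw [← matU_mul_matV, Matrix.mul_assoc, ← Matrix.mul_assoc, hVU]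
      simp [Matrix.smul_mul, smul_smul]
    have h2 : ((c * c) • (1 : Matrix (ι × ι) (ι × ι) F)).rank = Fintype.card (ι × ι) := by
      apply Matrix.rank_of_isUnit
      rw [Matrix.isUnit_iff_isUnit_det, Matrix.det_smul, Matrix.det_one, mul_one]
      exact (IsUnit.mk0 _ (mul_ne_zero hc0 hc0)).pow _
    rw [← Fintype.card_prod, ← h2, ← h1]
    exact (Matrix.rank_mul_le_right _ _).trans (Matrix.rank_mul_le_left _ _)

end Fermat.Agent.S48.H78
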