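import Mathlib
import Fermat.Agent.S48.H78_LiftSchur

/-!
# S48 leaf F (`Stmt_Lift`), part 3: the Wedderburn package of the complex group algebra

From Mathlib's Wedderburn–Artin theorem (and Maschke) we extract, for a finite group `G`,
matrix representations `R i : G →* Matrix (Fin (d i)) (Fin (d i)) ℂ` which are jointly injective
on functions `G → ℂ` and "independently surjective".  Then, by finite sums: Schur property,
regular character formula, integrality of the character values.
-/

set_option autoImplicit false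

open Matrix

namespace Fermat.Agent.S48.H78

lemma tot_coeff (G : Type) [Group G] [Fintype G] [DecidableEq G] (x : G → ℂ) (h : G) :
    (∑ g, x g • MonoidAlgebra.of ℂ G g).coeff h = x h := by
  rw [MonoidAlgebra.coeff_sum, Finsupp.finsetSum_apply]
  simp [MonoidAlgebra.of_apply, MonoidAlgebra.coeff_single, Finsupp.single_apply]

lemma tot_surj (G : Type) [Group G] [Fintype G] [DecidableEq G] (X : MonoidAlgebra ℂ G) :
    X = ∑ g, X.coeff g • MonoidAlgebra.of ℂ G g := by
  apply MonoidAlgebra.coeff_injective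
  ext h
  rw [tot_coeff]

/-- Wedderburn data for the complex group algebra of `G`, in finite-sum form. -/
structure WeddData (G : Type) [Group G] [Fintype G] where
  /-- number of blocks -/
  s : ℕ
  /-- the degrees -/
  d : Fin s → ℕ
  /-- the irreducible matrix representations -/
  R : ∀ i, G →* Matrix (Fin (d i)) (Fin (d i)) ℂ
  d_pos : ∀ i, 0 < d i
  inj : ∀ x : G → ℂ, (∀ j, ∑ g, x g • R j g = 0) → x = 0
  surj : ∀ j (Y : Matrix (Fin (d j)) (Fin (d j)) ℂ), ∃ y : G → ℂ,
    ∑ g, y g • R j g = Y ∧ ∀ i, i ≠ j → ∑ g, y g • R i g = 0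

theorem exists_weddData (G : Type) [Group G] [Fintype G] : Nonempty (WeddData G) := by
  classical
  haveI : NeZero (Nat.card G : ℂ) := ⟨by
    have : 0 < Nat.card G := Nat.card_pos
    exact_mod_cast this.ne'⟩
  obtain ⟨s, d, hd, ⟨W⟩⟩ :=
    IsSemisimpleRing.exists_algEquiv_pi_matrix_of_isAlgClosed ℂ (MonoidAlgebra ℂ G)
  let R : ∀ i, G →* Matrix (Fin (d i)) (Fin (d i)) ℂ := fun i =>
    ((Pi.evalMonoidHom (fun i => Matrix (Fin (d i)) (Fin (d i)) ℂ) i).comp
      (W : MonoidAlgebra ℂ G →* Π i, Matrix (Fin (d i)) (Fin (d i)) ℂ)).comp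
      (MonoidAlgebra.of ℂ G)
  have hR : ∀ i g, R i g = W (MonoidAlgebra.of ℂ G g) i := fun i g => rfl
  have hW : ∀ (x : G → ℂ) (j : Fin s),
      W (∑ g, x g • MonoidAlgebra.of ℂ G g) j = ∑ g, x g • R j g := by
    intro x j
    rw [map_sum, Finset.sum_apply]
    refine Finset.sum_congr rfl (fun g _ => ?_)
    rw [map_smul, Pi.smul_apply, hR]
  refine ⟨⟨s, d, R, fun i => Nat.pos_of_ne_zero (hd i).out, ?_, ?_⟩⟩
  · intro x hx
    have h0 : W (∑ g, x g • MonoidAlgebra.of ℂ G g) = 0 := by
      ext1 j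
      rw [hW, hx j]; rfl
    have h1 : (∑ g, x g • MonoidAlgebra.of ℂ G g) = 0 := by
      have := W.injective (h0.trans (map_zero W).symm)
      exact this
    funext h
    have := tot_coeff G x h
    rw [h1] at this
    simpa using this.symm
  · intro j Y
    refine ⟨fun g => (W.symm (Pi.single j Y)).coeff g, ?_, ?_⟩
    · rw [← hW, ← tot_surj, AlgEquiv.apply_symm_apply, Pi.single_eq_same]
    · intro i hij
      rw [← hW, ← tot_surj, AlgEquiv.apply_symm_apply, Pi.single_eq_of_ne hij]

variable {G : Type} [Group G] [Fintype G]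

/-- Each Wedderburn component has the Schur property. -/
theorem WeddData.schur (D : WeddData G) (i : Fin D.s) : SchurProp (D.R i) := by
  intro A hA
  have hcomm : ∀ Y : Matrix (Fin (D.d i)) (Fin (D.d i)) ℂ, A * Y = Y * A := by
    intro Y
    obtain ⟨y, hy, -⟩ := D.surj i Y
    rw [← hy, Matrix.mul_sum, Matrix.sum_mul]
    refine Finset.sum_congr rfl (fun g _ => ?_)
    rw [Matrix.mul_smul, Matrix.smul_mul, hA]
  have : A ∈ Set.range (Matrix.scalar (Fin (D.d i))) := by
    rw [Matrix.mem_range_scalar_iff_commute_single']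
    intro a b
    exact (hcomm _).symm
  obtain ⟨c, hc⟩ := this
  refine ⟨c, ?_⟩
  rw [← hc]
  ext a b
  simp [Matrix.scalar_apply, Matrix.diagonal_apply, Matrix.one_apply]

lemma WeddData.card_ne_zero (D : WeddData G) (i : Fin D.s) :
    (Fintype.card (Fin (D.d i)) : ℂ) ≠ 0 := by
  rw [Fintype.card_fin]
  exact_mod_cast (D.d_pos i).ne'

/-- `∑ g, χ_i(g⁻¹) R_j(g)` is `(|G| / d_j) δ_{ij}`. -/
lemma WeddData.sum_chr_smul (D : WeddData G) (i j : Fin D.s) :
    (D.d i : ℂ) • ∑ g, chr (D.R i) g⁻¹ • D.R j g =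
      if i = j then (Fintype.card G : ℂ) • (1 : Matrix (Fin (D.d j)) (Fin (D.d j)) ℂ) else 0 := by
  ext b c
  rw [Matrix.smul_apply, Matrix.sum_apply]
  simp only [Matrix.smul_apply, smul_eq_mul, chr, Matrix.trace, Matrix.diag_apply]
  by_cases hij : i = j
  · subst hij
    rw [if_pos rfl]
    have h1 : ∀ g : G, (∑ a, D.R i g⁻¹ a a) * D.R i g b c = ∑ a, D.R i g b c * D.R i g⁻¹ a a := by
      intro g; rw [Finset.sum_mul]; exact Finset.sum_congr rfl (fun a _ => mul_comm _ _)
    simp only [h1]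
    rw [Finset.sum_comm, Finset.mul_sum]
    have h2 : ∀ a, (D.d i : ℂ) * ∑ g, D.R i g b c * D.R i g⁻¹ a a =
        if b = a ∧ c = a then (Fintype.card G : ℂ) else 0 := by
      intro a
      have := schur_orth (D.R i) (D.schur i) b c a a
      rwa [Fintype.card_fin] at this
    simp only [h2, Matrix.smul_apply, Matrix.one_apply, smul_eq_mul]
    by_cases hbc : b = c
    · subst hbc
      simp
    · have : ∀ a, ¬ (b = a ∧ c = a) := fun a h => hbc (h.1.trans h.2.symm)
      simp [this, hbc]
  · rw [if_neg hij]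
    obtain ⟨y, hy, hy'⟩ := D.surj j 1
    have h1 : ∀ g : G, (∑ a, D.R i g⁻¹ a a) * D.R j g b c = ∑ a, D.R j g b c * D.R i g⁻¹ a a := by
      intro g; rw [Finset.sum_mul]; exact Finset.sum_congr rfl (fun a _ => mul_comm _ _)
    simp only [h1]
    rw [Finset.sum_comm]
    have h2 : ∀ a, ∑ g, D.R j g b c * D.R i g⁻¹ a a = 0 := fun a =>
      schur_orth_two (D.R j) (D.R i) y hy (hy' i hij) b c a a
    simp [h2]

/-- The regular character formula. -/
theorem WeddData.regular (D : WeddData G) [DecidableEq G] (g : G) :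
    ∑ i, (D.d i : ℂ) * chr (D.R i) g = if g = 1 then (Fintype.card G : ℂ) else 0 := by
  set x : G → ℂ := fun g => ∑ i, (D.d i : ℂ) * chr (D.R i) g⁻¹ -
    (if g = 1 then (Fintype.card G : ℂ) else 0) with hx
  have hx0 : x = 0 := by
    apply D.inj
    intro j
    have h1 : ∀ g : G, x g • D.R j g = ∑ i, (D.d i : ℂ) • (chr (D.R i) g⁻¹ • D.R j g) -
        (if g = 1 then (Fintype.card G : ℂ) else 0) • D.R j g := by
      intro g
      rw [hx]
      simp only [sub_smul, Finset.sum_smul, mul_smul]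
    simp only [h1]
    rw [Finset.sum_sub_distrib, Finset.sum_comm]
    simp only [← Finset.smul_sum]
    simp only [D.sum_chr_smul]
    rw [Finset.sum_ite_eq' Finset.univ j]
    simp only [Finset.mem_univ, if_true, ite_smul, zero_smul]
    rw [Finset.sum_ite_eq' Finset.univ (1 : G)]
    simp
  have := congrFun hx0 g⁻¹
  simp only [hx, Pi.zero_apply, inv_inv, inv_eq_one, sub_eq_zero] at this
  exact this

/-- A complex matrix of finite order has integral trace. -/
lemma isIntegral_trace_of_pow_eq_one {ι : Type*} [Fintype ι] [DecidableEq ι]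
    (A : Matrix ι ι ℂ) (n : ℕ) (hn : 0 < n) (hA : A ^ n = 1) : IsIntegral ℤ A.trace := by
  rw [Matrix.trace_eq_sum_roots_charpoly]
  apply IsIntegral.multiset_sum
  intro μ hμ
  have hroot : A.charpoly.IsRoot μ := (Polynomial.mem_roots'.mp hμ).2
  have hspec : μ ∈ spectrum ℂ A := Matrix.mem_spectrum_iff_isRoot_charpoly.mpr hroot
  have hpow : μ ^ n ∈ spectrum ℂ (A ^ n) := spectrum.pow_mem_pow A n hspec
  rw [hA] at hpow
  have h1 : μ ^ n = 1 := by
    rcases isEmpty_or_nonempty ι with h | h
    · exfalso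
      have : A.charpoly = 1 := by simp [Matrix.charpoly, Matrix.det_isEmpty]
      rw [this] at hμ
      simp at hμ
    · rw [spectrum.one_eq] at hpow
      exact hpow
  refine IsIntegral.of_pow hn ?_
  rw [h1]
  exact isIntegral_one

/-- A complex matrix of finite order has integral determinant. -/
lemma isIntegral_det_of_pow_eq_one {ι : Type*} [Fintype ι] [DecidableEq ι]
    (A : Matrix ι ι ℂ) (n : ℕ) (hn : 0 < n) (hA : A ^ n = 1) : IsIntegral ℤ A.det := by
  refine IsIntegral.of_pow hn ?_
  rw [← Matrix.det_pow, hA, Matrix.det_one]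
  exact isIntegral_one

lemma rho_pow_card {F : Type*} [Field F] {ι : Type*} [Fintype ι] [DecidableEq ι]
    (ρ : G →* Matrix ι ι F) (g : G) : ρ g ^ Fintype.card G = 1 := by
  rw [← map_pow, pow_card_eq_one, map_one]

lemma isIntegral_chr {ι : Type*} [Fintype ι] [DecidableEq ι]
    (ρ : G →* Matrix ι ι ℂ) (g : G) : IsIntegral ℤ (chr ρ g) :=
  isIntegral_trace_of_pow_eq_one (ρ g) (Fintype.card G) Fintype.card_pos (rho_pow_card ρ g)

end Fermat.Agent.S48.H78
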