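import Mathlib
import Fermat.Agent.S48.H78_LiftSchur
import Fermat.Agent.S48.H78_LiftRank
import Fermat.Agent.S48.H78_LiftWedd

/-!
# S48 leaf F (`Stmt_Lift`), part 4: the core lifting theorem

`lift_core`: let `φ : ℤ̄ →+* k` (`k` a field), `G` a finite group with `|G| ≠ 0` in `k`, and
`r : G →* Matrix m m k` a representation with the Schur property and `|m| ≠ 0` in `k`.  Then one of
the Wedderburn components `R i` of `ℂ[G]` has degree `|m|` and its character reduces (under `φ`)
to the character of `r`.
-/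

set_option autoImplicit false

open Matrix

namespace Fermat.Agent.S48.H78

local notation "Zbar" => integralClosure ℤ ℂ

variable {G : Type} [Group G] [Fintype G]

/-- The inclusion `ℤ̄ → ℂ`. -/
noncomputable def iotaS : Zbar →+* ℂ := (integralClosure ℤ ℂ).val.toRingHom

lemma iotaS_apply (x : Zbar) : iotaS x = (x : ℂ) := rfl

lemma iotaS_injective : Function.Injective iotaS := Subtype.val_injective

/-- Character values as algebraic integers. -/
noncomputable def WeddData.chiS (D : WeddData G) (i : Fin D.s) (g : G) : Zbar :=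
  ⟨chr (D.R i) g, isIntegral_chr (D.R i) g⟩

lemma WeddData.coe_chiS (D : WeddData G) (i : Fin D.s) (g : G) :
    ((D.chiS i g : Zbar) : ℂ) = chr (D.R i) g := rfl

lemma WeddData.chiS_conj (D : WeddData G) (i : Fin D.s) (h x : G) :
    D.chiS i (h * x * h⁻¹) = D.chiS i x :=
  Subtype.ext (chr_conj (D.R i) h x)

lemma WeddData.regularS (D : WeddData G) [DecidableEq G] (g : G) :
    ∑ i, (D.d i : Zbar) * D.chiS i g = if g = 1 then (Fintype.card G : Zbar) else 0 := by
  apply iotaS_injective
  have := D.regular g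
  rw [map_sum]
  simp only [map_mul, map_natCast, iotaS_apply, D.coe_chiS]
  rw [this]
  split_ifs <;> simp

lemma WeddData.feS (D : WeddData G) (i : Fin D.s) (g x : G) :
    (D.d i : Zbar) * ∑ h, D.chiS i (h * g * h⁻¹ * x) =
      (Fintype.card G : Zbar) * D.chiS i g * D.chiS i x := by
  apply iotaS_injective
  have := schur_fe (D.R i) (D.schur i) g x
  rw [Fintype.card_fin] at this
  simp only [map_mul, map_sum, map_natCast, iotaS_apply, D.coe_chiS]
  exact this

/-- The integral scaled idempotent matrix of the block `i`. -/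
noncomputable def WeddData.MS (D : WeddData G) (i : Fin D.s) : Matrix G G Zbar :=
  fun g h => (D.d i : Zbar) * D.chiS i (g⁻¹ * h)

lemma WeddData.MS_map_iota (D : WeddData G) (i : Fin D.s) :
    (D.MS i).map iotaS = (D.d i : ℂ) • charMat (D.R i) := by
  ext g h
  simp [WeddData.MS, Matrix.map_apply, iotaS_apply, D.coe_chiS, charMat]

lemma WeddData.MS_sq (D : WeddData G) [DecidableEq G] (i : Fin D.s) :
    D.MS i * D.MS i = (Fintype.card G : Zbar) • D.MS i := by
  apply Matrix.map_injective iotaS_injective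
  show (D.MS i * D.MS i).map iotaS = ((Fintype.card G : Zbar) • D.MS i).map iotaS
  rw [Matrix.map_mul, D.MS_map_iota]
  have h1 : ((Fintype.card G : Zbar) • D.MS i).map iotaS =
      (Fintype.card G : ℂ) • ((D.d i : ℂ) • charMat (D.R i)) := by
    rw [← D.MS_map_iota]
    ext g h
    simp [Matrix.map_apply, iotaS_apply]
  rw [h1]
  have h2 := matV_mul_matU (D.R i) (D.schur i)
  rw [Fintype.card_fin] at h2
  have hCC : (D.d i : ℂ) • (charMat (D.R i) * charMat (D.R i)) =
      (Fintype.card G : ℂ) • charMat (D.R i) := by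
    rw [← matU_mul_matV]
    calc (D.d i : ℂ) • (matU (D.R i) * matV (D.R i) * (matU (D.R i) * matV (D.R i)))
        = matU (D.R i) * ((D.d i : ℂ) • (matV (D.R i) * matU (D.R i))) * matV (D.R i) := by
          simp only [Matrix.mul_assoc, Matrix.mul_smul, Matrix.smul_mul]
      _ = (Fintype.card G : ℂ) • (matU (D.R i) * matV (D.R i)) := by
          rw [h2]; simp only [Matrix.mul_smul, Matrix.smul_mul, Matrix.mul_one]
  rw [Matrix.smul_mul, Matrix.mul_smul, hCC, smul_comm]

section kside

variable {k : Type} [Field k] (φ : Zbar →+* k)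
  {m : Type} [Fintype m] [DecidableEq m] (r : G →* Matrix m m k)

/-- The reduced character values. -/
noncomputable def WeddData.chib (D : WeddData G) (i : Fin D.s) (g : G) : k :=
  φ (D.chiS i g)

lemma WeddData.chib_conj (D : WeddData G) (i : Fin D.s) (h x : G) :
    D.chib φ i (h * x * h⁻¹) = D.chib φ i x := by
  unfold WeddData.chib; rw [D.chiS_conj]

lemma WeddData.regular_k (D : WeddData G) [DecidableEq G] (g : G) :
    ∑ i, (D.d i : k) * D.chib φ i g = if g = 1 then (Fintype.card G : k) else 0 := by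
  have := congrArg φ (D.regularS g)
  rw [map_sum] at this
  simp only [map_mul, map_natCast] at this
  simp only [WeddData.chib]
  rw [this]
  split_ifs <;> simp

lemma WeddData.fe_k (D : WeddData G) (i : Fin D.s) (g x : G) :
    (D.d i : k) * ∑ h, D.chib φ i (h * g * h⁻¹ * x) =
      (Fintype.card G : k) * D.chib φ i g * D.chib φ i x := by
  have := congrArg φ (D.feS i g x)
  simp only [map_mul, map_sum, map_natCast] at this
  exact this

/-- The matrix `T_i = ∑ g, χ̄_i(g⁻¹) r(g)`. -/
noncomputable def WeddData.Tmat (D : WeddData G) (i : Fin D.s) : Matrix m m k :=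
  ∑ g, D.chib φ i g⁻¹ • r g

lemma WeddData.Tmat_comm (D : WeddData G) (i : Fin D.s) (h : G) :
    D.Tmat φ r i * r h = r h * D.Tmat φ r i := by
  unfold WeddData.Tmat
  rw [Matrix.sum_mul, Matrix.mul_sum]
  refine Fintype.sum_equiv (MulAut.conj h⁻¹).toEquiv _ _ (fun g => ?_)
  simp only [MulEquiv.toEquiv_eq_coe, EquivLike.coe_coe, MulAut.conj_apply]
  rw [Matrix.smul_mul, Matrix.mul_smul, ← map_mul, ← map_mul]
  have e1 : (h⁻¹ * g * h⁻¹⁻¹)⁻¹ = h⁻¹ * g⁻¹ * h⁻¹⁻¹ := by group
  rw [e1, D.chib_conj]
  congr 2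
  group

lemma WeddData.sum_Tmat (D : WeddData G) :
    ∑ i, (D.d i : k) • D.Tmat φ r i = (Fintype.card G : k) • (1 : Matrix m m k) := by
  classical
  unfold WeddData.Tmat
  simp only [Finset.smul_sum, smul_smul]
  rw [Finset.sum_comm]
  simp only [← Finset.sum_smul]
  simp only [D.regular_k φ, inv_eq_one, ite_smul, zero_smul]
  rw [Finset.sum_ite_eq' Finset.univ (1 : G)]
  simp

/-- Key identity: `d_i t_i ψ(g) = t_i |m| χ̄_i(g)`, where `T_i = t_i`. -/
lemma WeddData.key (D : WeddData G) (hn : (Fintype.card G : k) ≠ 0)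
    (i : Fin D.s) (t : k) (ht : D.Tmat φ r i = t • (1 : Matrix m m k)) (g : G) :
    (D.d i : k) * (t * chr r g) = t * ((Fintype.card m : k) * D.chib φ i g) := by
  -- the double sum
  set Q : Matrix m m k := ∑ h, ∑ x, D.chib φ i (h * g * h⁻¹ * x⁻¹) • r x with hQ
  -- (a) via the functional equation
  have ha : (D.d i : k) • Q = ((Fintype.card G : k) * D.chib φ i g * t) • (1 : Matrix m m k) := by
    rw [hQ, Finset.sum_comm, Finset.smul_sum]
    have : ∀ x : G, (D.d i : k) • ∑ h, D.chib φ i (h * g * h⁻¹ * x⁻¹) • r x =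
        ((Fintype.card G : k) * D.chib φ i g) • (D.chib φ i x⁻¹ • r x) := by
      intro x
      rw [← Finset.sum_smul, smul_smul, D.fe_k φ i g x⁻¹, smul_smul]
    simp only [this]
    rw [← Finset.smul_sum]
    have hT : ∑ x, D.chib φ i x⁻¹ • r x = D.Tmat φ r i := rfl
    rw [hT, ht, smul_smul]
  -- (b) via the substitution
  have hb : Q = ∑ h : G, t • r (h * g * h⁻¹) := by
    rw [hQ]
    refine Finset.sum_congr rfl (fun h _ => ?_)
    have : ∑ x, D.chib φ i (h * g * h⁻¹ * x⁻¹) • r x =
        ∑ y, D.chib φ i y⁻¹ • r (y * (h * g * h⁻¹)) := by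
      refine Fintype.sum_equiv (Equiv.mulRight (h * g * h⁻¹)⁻¹) _ _ (fun x => ?_)
      simp only [Equiv.coe_mulRight]
      congr 2
      · group
      · group
    rw [this]
    simp only [map_mul r _ (h * g * h⁻¹)]
    simp only [← Matrix.smul_mul]
    rw [← Matrix.sum_mul]
    have hT : ∑ x, D.chib φ i x⁻¹ • r x = D.Tmat φ r i := rfl
    rw [hT, ht, Matrix.smul_mul, Matrix.one_mul, map_mul]
  have htr1 : ((D.d i : k) • Q).trace =
      (Fintype.card G : k) * D.chib φ i g * t * (Fintype.card m : k) := by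
    rw [ha, Matrix.trace_smul, Matrix.trace_one, smul_eq_mul]
  have htr2 : Q.trace = (Fintype.card G : k) * (t * chr r g) := by
    rw [hb, Matrix.trace_sum]
    have : ∀ h : G, (t • r (h * g * h⁻¹)).trace = t * chr r g := by
      intro h
      rw [Matrix.trace_smul, smul_eq_mul]
      congr 1
      exact chr_conj r h g
    simp only [this, Finset.sum_const, Finset.card_univ, nsmul_eq_mul]
  rw [Matrix.trace_smul, smul_eq_mul, htr2] at htr1
  have : (Fintype.card G : k) * ((D.d i : k) * (t * chr r g)) =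
      (Fintype.card G : k) * (t * ((Fintype.card m : k) * D.chib φ i g)) := by
    rw [← mul_assoc, mul_comm (Fintype.card G : k) (D.d i : k), mul_assoc, htr1]
    ring
  exact mul_left_cancel₀ hn this

/-- **Core lifting theorem.** -/
theorem lift_core (D : WeddData G) (hS : SchurProp r) (hm : (Fintype.card m : k) ≠ 0)
    (hn : (Fintype.card G : k) ≠ 0) :
    ∃ i : Fin D.s, D.d i = Fintype.card m ∧ ∀ g, φ (D.chiS i g) = chr r g := by
  classical
  -- scalars t_i
  have hT : ∀ i, ∃ t : k, D.Tmat φ r i = t • (1 : Matrix m m k) :=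
    fun i => hS _ (D.Tmat_comm φ r i)
  choose t ht using hT
  -- some `d_i t_i ≠ 0`
  have hex : ∃ i, (D.d i : k) * t i ≠ 0 := by
    by_contra hcon
    push Not at hcon
    have := D.sum_Tmat φ r
    have h0 : ∑ i, (D.d i : k) • D.Tmat φ r i = 0 := by
      refine Finset.sum_eq_zero (fun i _ => ?_)
      rw [ht i, smul_smul, hcon i, zero_smul]
    rw [h0] at this
    have h1 := congrArg Matrix.trace this
    rw [Matrix.trace_zero, Matrix.trace_smul, Matrix.trace_one, smul_eq_mul] at h1
    exact (mul_ne_zero hn hm) h1.symm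
  obtain ⟨i, hi⟩ := hex
  have hdi : (D.d i : k) ≠ 0 := left_ne_zero_of_mul hi
  have hti : t i ≠ 0 := right_ne_zero_of_mul hi
  -- key identity
  have hkey : ∀ g, (D.d i : k) * chr r g = (Fintype.card m : k) * D.chib φ i g := by
    intro g
    have := D.key φ r hn i (t i) (ht i) g
    have h2 : t i * ((D.d i : k) * chr r g) = t i * ((Fintype.card m : k) * D.chib φ i g) := by
      rw [← this]; ring
    exact mul_left_cancel₀ hti h2
  -- ranks
  have hrankC : ((D.MS i).map iotaS).rank = D.d i * D.d i := by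
    rw [D.MS_map_iota]
    have hd0 : (D.d i : ℂ) ≠ 0 := by exact_mod_cast (D.d_pos i).ne'
    have hn0 : (Fintype.card G : ℂ) ≠ 0 := by exact_mod_cast Fintype.card_ne_zero
    have h1 := rank_charMat (D.R i) (D.schur i) (by rwa [Fintype.card_fin]) hn0
    rw [Fintype.card_fin] at h1
    rw [← h1]
    have : (D.d i : ℂ) • charMat (D.R i) =
        charMat (D.R i) * ((D.d i : ℂ) • (1 : Matrix G G ℂ)) := by
      rw [Matrix.mul_smul, Matrix.mul_one]
    rw [this]
    apply Matrix.rank_mul_eq_left_of_isUnit_det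
    rw [Matrix.det_smul, Matrix.det_one, mul_one]
    exact (IsUnit.mk0 _ hd0).pow _
  have hrankk : ((D.MS i).map φ).rank = Fintype.card m * Fintype.card m := by
    have h1 := rank_charMat r hS hm hn
    rw [← h1]
    have : (D.MS i).map φ =
        charMat r * (((D.d i : k) * (D.d i : k) * (Fintype.card m : k)⁻¹) • (1 : Matrix G G k)) := by
      rw [Matrix.mul_smul, Matrix.mul_one]
      ext g h
      simp only [WeddData.MS, Matrix.map_apply, map_mul, map_natCast, Matrix.smul_apply, charMat,
        smul_eq_mul]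
      have := hkey (g⁻¹ * h)
      have e : φ (D.chiS i (g⁻¹ * h)) = D.chib φ i (g⁻¹ * h) := rfl
      rw [e]
      field_simp
      linear_combination -this
    rw [this]
    apply Matrix.rank_mul_eq_left_of_isUnit_det
    rw [Matrix.det_smul, Matrix.det_one, mul_one]
    exact (IsUnit.mk0 _ (mul_ne_zero (mul_ne_zero hdi hdi) (inv_ne_zero hm))).pow _
  have hRP := rank_map_eq_of_sq (D.MS i) (Fintype.card G : Zbar) (D.MS_sq i) iotaS
    iotaS_injective φ
    (by rw [map_natCast]; exact_mod_cast Fintype.card_ne_zero)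
    (by rw [map_natCast]; exact hn)
  rw [hrankC, hrankk] at hRP
  have hdm : D.d i = Fintype.card m := by
    have := Nat.mul_self_inj.mp hRP
    exact this
  refine ⟨i, hdm, fun g => ?_⟩
  have := hkey g
  rw [hdm] at this
  exact (mul_left_cancel₀ hm this).symm

end kside

end Fermat.Agent.S48.H78
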