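import Mathlib
import Fermat.Agent.S48.Defs
import Fermat.Agent.S48.H78_LiftCore

/-!
# S48 leaf F: `Stmt_Lift`

A two-dimensional representation `r` over an algebraically closed field `k` of characteristic
`ℓ ≠ 2` of a finite group of order prime to `ℓ` lifts to `ℂ` (on traces and determinants,
compatibly with any given residue map `φ : ℤ̄ →+* k`).

* irreducible case: `lift_core` with `m = Fin 2` (Schur property from irreducibility);
* reducible case: `lift_core` with `m = Fin 1` for the two characters on the diagonal.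
-/

set_option autoImplicit false

open Matrix

namespace Fermat.Agent.S48.H78

local notation "Zbar" => integralClosure ℤ ℂ

section linalg

variable {F : Type*} [Field F]

/-- `2 det A = (tr A)² - tr (A²)` for `2 × 2` matrices. -/
lemma two_mul_det_fin_two {S : Type*} [CommRing S] (A : Matrix (Fin 2) (Fin 2) S) :
    2 * A.det = A.trace ^ 2 - (A * A).trace := by
  simp only [Matrix.det_fin_two, Matrix.trace_fin_two, Matrix.mul_apply, Fin.sum_univ_two]
  ring

/-- Two vectors in the kernel of a nonzero `2 × 2` matrix are proportional. -/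
lemma ker_line (B : Matrix (Fin 2) (Fin 2) F) (hB : B ≠ 0) (v w : Fin 2 → F) (hv : v ≠ 0)
    (hBv : B *ᵥ v = 0) (hBw : B *ᵥ w = 0) : ∃ c : F, w = c • v := by
  have hdet : v 0 * w 1 - v 1 * w 0 = 0 := by
    by_contra hne
    apply hB
    have h1 := congrFun hBv 0
    have h2 := congrFun hBv 1
    have h3 := congrFun hBw 0
    have h4 := congrFun hBw 1
    simp only [Matrix.mulVec, dotProduct, Fin.sum_univ_two, Pi.zero_apply] at h1 h2 h3 h4
    have e00 : B 0 0 * (v 0 * w 1 - v 1 * w 0) = 0 := by linear_combination w 1 * h1 - v 1 * h3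
    have e01 : B 0 1 * (v 0 * w 1 - v 1 * w 0) = 0 := by linear_combination v 0 * h3 - w 0 * h1
    have e10 : B 1 0 * (v 0 * w 1 - v 1 * w 0) = 0 := by linear_combination w 1 * h2 - v 1 * h4
    have e11 : B 1 1 * (v 0 * w 1 - v 1 * w 0) = 0 := by linear_combination v 0 * h4 - w 0 * h2
    ext i j
    fin_cases i <;> fin_cases j
    · exact (mul_eq_zero.mp e00).resolve_right hne
    · exact (mul_eq_zero.mp e01).resolve_right hne
    · exact (mul_eq_zero.mp e10).resolve_right hne
    · exact (mul_eq_zero.mp e11).resolve_right hne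
  by_cases hv0 : v 0 = 0
  · have hv1 : v 1 ≠ 0 := by
      intro h1
      apply hv
      ext i
      fin_cases i
      · exact hv0
      · exact h1
    refine ⟨w 1 / v 1, ?_⟩
    rw [hv0] at hdet
    have hw0 : w 0 = 0 := by
      have : v 1 * w 0 = 0 := by linear_combination -hdet
      exact (mul_eq_zero.mp this).resolve_left hv1
    ext i
    fin_cases i
    · simp [hv0, hw0]
    · simp only [Fin.mk_one, Fin.isValue, Pi.smul_apply, smul_eq_mul]
      field_simp
  · refine ⟨w 0 / v 0, ?_⟩
    ext i
    fin_cases i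
    · simp only [Fin.zero_eta, Fin.isValue, Pi.smul_apply, smul_eq_mul]
      field_simp
    · simp only [Fin.mk_one, Fin.isValue, Pi.smul_apply, smul_eq_mul]
      rw [div_mul_eq_mul_div, eq_div_iff hv0]
      linear_combination hdet

/-- An eigenvalue of a `2 × 2` matrix is a root of `X² - tr X + det`. -/
lemma eig_quadratic (A : Matrix (Fin 2) (Fin 2) F) (v : Fin 2 → F) (hv : v ≠ 0) (c : F)
    (hAv : A *ᵥ v = c • v) : c * c - A.trace * c + A.det = 0 := by
  have hker : (A - c • (1 : Matrix (Fin 2) (Fin 2) F)) *ᵥ v = 0 := by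
    rw [Matrix.sub_mulVec, hAv, Matrix.smul_mulVec, Matrix.one_mulVec, sub_self]
  have hdet : (A - c • (1 : Matrix (Fin 2) (Fin 2) F)).det = 0 :=
    Matrix.exists_mulVec_eq_zero_iff.mp ⟨v, hv, hker⟩
  rw [Matrix.det_fin_two] at hdet
  simp only [Matrix.sub_apply, Matrix.smul_apply, Matrix.one_apply_eq, smul_eq_mul, mul_one,
    Matrix.one_apply_ne (show (0 : Fin 2) ≠ 1 by decide),
    Matrix.one_apply_ne (show (1 : Fin 2) ≠ 0 by decide), mul_zero, sub_zero] at hdet
  rw [Matrix.trace_fin_two, Matrix.det_fin_two]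
  linear_combination hdet

end linalg

section reducible

variable {G : Type} [Group G] {k : Type} [Field k]

/-- `r` has a common eigenvector. -/
def HasLine (r : G →* Matrix (Fin 2) (Fin 2) k) : Prop :=
  ∃ v : Fin 2 → k, v ≠ 0 ∧ ∀ g, ∃ c : k, r g *ᵥ v = c • v

/-- Without a common eigenvector, the Schur property holds (over an algebraically closed
field). -/
theorem schurProp_of_not_hasLine [IsAlgClosed k] (r : G →* Matrix (Fin 2) (Fin 2) k)
    (h : ¬ HasLine r) : SchurProp r := by
  intro A hA
  -- an eigenvalue of `A`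
  obtain ⟨lam, hlam⟩ := IsAlgClosed.exists_root A.charpoly (by
    rw [Matrix.charpoly_degree_eq_dim]; simp)
  have hdet : (lam • (1 : Matrix (Fin 2) (Fin 2) k) - A).det = 0 := by
    have := Matrix.eval_charpoly A lam
    rw [Polynomial.IsRoot.def] at hlam
    rw [hlam] at this
    have e : (Matrix.scalar (Fin 2)) lam = lam • (1 : Matrix (Fin 2) (Fin 2) k) := by
      rw [Matrix.scalar_apply, Matrix.smul_one_eq_diagonal]
    rw [← e, ← this]
  obtain ⟨v, hv, hBv⟩ := Matrix.exists_mulVec_eq_zero_iff.mpr hdet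
  set B : Matrix (Fin 2) (Fin 2) k := lam • (1 : Matrix (Fin 2) (Fin 2) k) - A with hBdef
  by_cases hB : B = 0
  · refine ⟨lam, ?_⟩
    rw [hBdef, sub_eq_zero] at hB
    exact hB.symm
  · exfalso
    apply h
    refine ⟨v, hv, fun g => ?_⟩
    have hcomm : B * r g = r g * B := by
      rw [hBdef, Matrix.sub_mul, Matrix.mul_sub, hA g]
      simp
    have hker : B *ᵥ (r g *ᵥ v) = 0 := by
      rw [Matrix.mulVec_mulVec, hcomm, ← Matrix.mulVec_mulVec, hBv, Matrix.mulVec_zero]
    exact ker_line B hB v (r g *ᵥ v) hv hBv hker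

/-- A representation with a common eigenvector has trace `ψ₁ + ψ₂` and determinant `ψ₁ ψ₂` for
two characters `ψ₁, ψ₂ : G →* k`. -/
theorem exists_chars_of_hasLine (r : G →* Matrix (Fin 2) (Fin 2) k) (h : HasLine r) :
    ∃ ψ₁ ψ₂ : G →* k, ∀ g, (r g).trace = ψ₁ g + ψ₂ g ∧ (r g).det = ψ₁ g * ψ₂ g := by
  classical
  obtain ⟨v, hv, hc⟩ := h
  choose c hc using hc
  have huniq : ∀ a b : k, a • v = b • v → a = b := by
    intro a b hab
    have : (a - b) • v = 0 := by rw [sub_smul, hab, sub_self]
    rcases smul_eq_zero.mp this with h0 | h0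
    · exact sub_eq_zero.mp h0
    · exact absurd h0 hv
  have hc1 : c 1 = 1 := by
    apply huniq
    rw [← hc 1, map_one, Matrix.one_mulVec, one_smul]
  have hcmul : ∀ g h, c (g * h) = c g * c h := by
    intro g h
    apply huniq
    rw [← hc (g * h), map_mul, ← Matrix.mulVec_mulVec, hc h, Matrix.mulVec_smul, hc g, smul_smul,
      mul_comm]
  have hcne : ∀ g, c g ≠ 0 := by
    intro g h0
    have := hcmul g g⁻¹
    rw [mul_inv_cancel, hc1, h0, zero_mul] at this
    exact one_ne_zero this
  let ψ₁ : G →* k := { toFun := c, map_one' := hc1, map_mul' := hcmul }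
  let ψ₂ : G →* k :=
    { toFun := fun g => (r g).det / c g
      map_one' := by simp [hc1]
      map_mul' := by
        intro g h
        rw [map_mul, Matrix.det_mul, hcmul]
        field_simp [hcne g, hcne h] }
  refine ⟨ψ₁, ψ₂, fun g => ?_⟩
  have hq := eig_quadratic (r g) v hv (c g) (hc g)
  have hne := hcne g
  constructor
  · show (r g).trace = c g + (r g).det / c g
    field_simp
    linear_combination -hq
  · show (r g).det = c g * ((r g).det / c g)
    field_simp

end reducible

section assemble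

variable {G : Type} [Group G] [Fintype G]

/-- Reindexing a matrix representation along an equivalence of index types. -/
def reindexRep {F : Type*} [Field F] {ι κ : Type*} [Fintype ι] [DecidableEq ι] [Fintype κ]
    [DecidableEq κ] (e : κ ≃ ι) (ρ : G →* Matrix ι ι F) : G →* Matrix κ κ F where
  toFun g := (ρ g).submatrix e e
  map_one' := by rw [map_one, Matrix.submatrix_one_equiv]
  map_mul' g h := by rw [map_mul, Matrix.submatrix_mul_equiv]

lemma reindexRep_trace {F : Type*} [Field F] {ι κ : Type*} [Fintype ι] [DecidableEq ι]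
    [Fintype κ] [DecidableEq κ] (e : κ ≃ ι) (ρ : G →* Matrix ι ι F) (g : G) :
    (reindexRep e ρ g).trace = (ρ g).trace := by
  show ((ρ g).submatrix e e).trace = (ρ g).trace
  simp only [Matrix.trace, Matrix.diag_apply, Matrix.submatrix_apply]
  exact Fintype.sum_equiv e _ _ (fun _ => rfl)

lemma reindexRep_det {F : Type*} [Field F] {ι κ : Type*} [Fintype ι] [DecidableEq ι]
    [Fintype κ] [DecidableEq κ] (e : κ ≃ ι) (ρ : G →* Matrix ι ι F) (g : G) :
    (reindexRep e ρ g).det = (ρ g).det :=
  Matrix.det_submatrix_equiv_self e (ρ g)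

/-- The character of a one-dimensional Wedderburn component, as a monoid homomorphism. -/
noncomputable def WeddData.linChar (D : WeddData G) (i : Fin D.s) (hi : D.d i = 1) : G →* Zbar where
  toFun g := D.chiS i g
  map_one' := by
    apply Subtype.ext
    show chr (D.R i) 1 = 1
    rw [chr_one, Fintype.card_fin, hi, Nat.cast_one]
  map_mul' g h := by
    apply Subtype.ext
    show chr (D.R i) (g * h) = chr (D.R i) g * chr (D.R i) h
    unfold chr
    rw [map_mul]
    have hcard : Fintype.card (Fin (D.d i)) = 1 := by rw [Fintype.card_fin, hi]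
    obtain ⟨a, ha⟩ := Fintype.card_eq_one_iff.mp hcard
    have hs : ∀ f : Fin (D.d i) → ℂ, ∑ x, f x = f a := by
      intro f
      rw [Finset.sum_eq_single a (fun b _ hb => absurd (ha b) hb)
        (fun h => absurd (Finset.mem_univ a) h)]
    simp only [Matrix.trace, Matrix.diag_apply, Matrix.mul_apply, hs]

lemma schurProp_fin_one {k : Type} [Field k] (ρ : G →* Matrix (Fin 1) (Fin 1) k) :
    SchurProp ρ := by
  intro A _
  refine ⟨A 0 0, ?_⟩
  ext i j
  have hi : i = 0 := Subsingleton.elim _ _
  have hj : j = 0 := Subsingleton.elim _ _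
  subst hi; subst hj
  simp

/-- The one-dimensional matrix representation attached to a character. -/
def charRep {k : Type} [Field k] (ψ : G →* k) : G →* Matrix (Fin 1) (Fin 1) k :=
  (Matrix.scalar (Fin 1)).toMonoidHom.comp ψ

lemma chr_charRep {k : Type} [Field k] (ψ : G →* k) (g : G) : chr (charRep ψ) g = ψ g := by
  unfold chr charRep
  simp [Matrix.trace_fin_one]

end assemble

/-- **S48 leaf F.** -/
theorem stmt_Lift : Fermat.Agent.S48.Stmt_Lift := by
  classical
  intro ℓ k _ _ _ φ G _ _ r hℓ hℓ2 hcard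
  haveI : Fintype G := Fintype.ofFinite G
  obtain ⟨D⟩ := exists_weddData G
  have hn : (Fintype.card G : k) ≠ 0 := by
    rw [← Nat.card_eq_fintype_card]
    intro h0
    exact hcard ((CharP.cast_eq_zero_iff k ℓ _).mp h0)
  have h2 : (2 : k) ≠ 0 := by
    intro h0
    have h0' : ((2 : ℕ) : k) = 0 := by exact_mod_cast h0
    have hdvd := (CharP.cast_eq_zero_iff k ℓ 2).mp h0'
    exact hℓ2 ((Nat.prime_dvd_prime_iff_eq hℓ Nat.prime_two).mp hdvd)
  set rm : G →* Matrix (Fin 2) (Fin 2) k := (Units.coeHom _).comp r with hrm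
  have hrm_apply : ∀ g, rm g = ((r g : GL (Fin 2) k) : Matrix (Fin 2) (Fin 2) k) := fun g => rfl
  by_cases hline : HasLine rm
  · -- reducible case
    obtain ⟨ψ₁, ψ₂, hψ⟩ := exists_chars_of_hasLine rm hline
    have hone : (Fintype.card (Fin 1) : k) ≠ 0 := by simp
    obtain ⟨i₁, hd₁, hχ₁⟩ := lift_core φ (charRep ψ₁) D (schurProp_fin_one _) hone hn
    obtain ⟨i₂, hd₂, hχ₂⟩ := lift_core φ (charRep ψ₂) D (schurProp_fin_one _) hone hn
    rw [Fintype.card_fin] at hd₁ hd₂
    let χ₁ : G →* ℂ := (iotaS : Zbar →* ℂ).comp (D.linChar i₁ hd₁)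
    let χ₂ : G →* ℂ := (iotaS : Zbar →* ℂ).comp (D.linChar i₂ hd₂)
    let Rm : G →* Matrix (Fin 2) (Fin 2) ℂ :=
      { toFun := fun g => Matrix.diagonal ![χ₁ g, χ₂ g]
        map_one' := by
          rw [map_one, map_one]
          ext i j
          fin_cases i <;> fin_cases j <;> simp
        map_mul' := by
          intro g h
          rw [Matrix.diagonal_mul_diagonal, map_mul, map_mul]
          congr 1
          ext i
          fin_cases i <;> simp }
    refine ⟨Rm.toHomUnits, fun g => ?_⟩
    refine ⟨D.chiS i₁ g + D.chiS i₂ g, D.chiS i₁ g * D.chiS i₂ g, ?_, ?_, ?_, ?_⟩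
    · rw [MonoidHom.coe_toHomUnits]
      show _ = (Matrix.diagonal ![χ₁ g, χ₂ g]).trace
      rw [Matrix.trace_diagonal, Fin.sum_univ_two]
      rfl
    · rw [MonoidHom.coe_toHomUnits]
      show _ = (Matrix.diagonal ![χ₁ g, χ₂ g]).det
      rw [Matrix.det_diagonal, Fin.prod_univ_two]
      rfl
    · rw [map_add, hχ₁, hχ₂, chr_charRep, chr_charRep, ← hrm_apply, (hψ g).1]
    · rw [map_mul, hχ₁, hχ₂, chr_charRep, chr_charRep, ← hrm_apply, (hψ g).2]
  · -- irreducible case
    have hS := schurProp_of_not_hasLine rm hline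
    have htwo : (Fintype.card (Fin 2) : k) ≠ 0 := by
      rw [Fintype.card_fin]; exact_mod_cast h2
    obtain ⟨i, hd, hχ⟩ := lift_core φ rm D hS htwo hn
    rw [Fintype.card_fin] at hd
    let R2 : G →* Matrix (Fin 2) (Fin 2) ℂ := reindexRep (finCongr hd.symm) (D.R i)
    have htr : ∀ g, (R2 g).trace = chr (D.R i) g := fun g => reindexRep_trace _ _ g
    have hdetint : ∀ g, IsIntegral ℤ (R2 g).det := fun g =>
      isIntegral_det_of_pow_eq_one (R2 g) (Fintype.card G) Fintype.card_pos (rho_pow_card R2 g)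
    refine ⟨R2.toHomUnits, fun g => ?_⟩
    refine ⟨D.chiS i g, ⟨(R2 g).det, hdetint g⟩, ?_, ?_, ?_, ?_⟩
    · rw [MonoidHom.coe_toHomUnits, htr]; rfl
    · rw [MonoidHom.coe_toHomUnits]
    · rw [hχ, ← hrm_apply]; rfl
    · -- determinant
      have hS2 : (2 : Zbar) * (⟨(R2 g).det, hdetint g⟩ : Zbar) =
          D.chiS i g ^ 2 - D.chiS i (g * g) := by
        apply Subtype.ext
        have := two_mul_det_fin_two (R2 g)
        rw [← map_mul, htr, htr] at this
        push_cast
        rw [D.coe_chiS, D.coe_chiS]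
        exact this
      have hk := congrArg φ hS2
      rw [map_mul, map_sub, map_pow, hχ, hχ, map_ofNat] at hk
      have hk2 := two_mul_det_fin_two (rm g)
      rw [← map_mul] at hk2
      have : (2 : k) * φ ⟨(R2 g).det, hdetint g⟩ = 2 * (rm g).det := by
        rw [hk, hk2]; rfl
      rw [← hrm_apply]
      exact mul_left_cancel₀ h2 this

end Fermat.Agent.S48.H78
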