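import Mathlib

/-!
# S48 leaf C (Rankin), part 3: from mean square to Dirichlet series

If `b ≥ 0` and `∑_{n ≤ M} b n ≤ C (M + 1)` for all `M`, then for `1 < s ≤ 2` and every finite set
`S` of positive integers, `∑_{n ∈ S} b n * n^(-s) ≤ 4 C / (s - 1)`.
-/

set_option autoImplicit false

namespace Fermat.Agent.S48.H55

open Finset

/-- Abel summation in inequality form. -/
lemma abel_le (B W : ℕ → ℝ) (C : ℝ) (hW0 : ∀ n, 0 ≤ W n)
    (hW : ∀ n, W (n + 1) ≤ W n) (hS : ∀ M, ∑ n ∈ range M, B n ≤ C * M) (M : ℕ) :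
    ∑ n ∈ range M, B n * W n ≤ C * ∑ n ∈ range M, W n := by
  have key : ∀ M, ∑ n ∈ range M, B n * W n + (C * M - ∑ n ∈ range M, B n) * W M
      ≤ C * ∑ n ∈ range M, W n := by
    intro M
    induction M with
    | zero => simp
    | succ M ih =>
        rw [Finset.sum_range_succ, Finset.sum_range_succ, Finset.sum_range_succ]
        have hD' : 0 ≤ C * ((M + 1 : ℕ) : ℝ) - (∑ n ∈ range M, B n + B M) := by
          have := hS (M + 1)
          rw [Finset.sum_range_succ] at this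
          linarith
        have h1 := mul_le_mul_of_nonneg_left (hW M) hD'
        push_cast at h1 hD' ⊢
        nlinarith
  have h1 := key M
  have h2 : 0 ≤ (C * M - ∑ n ∈ range M, B n) * W M :=
    mul_nonneg (by linarith [hS M]) (hW0 M)
  linarith

lemma sum_rpow_le {s : ℝ} (hs : 1 < s) (M : ℕ) :
    ∑ n ∈ range M, ((n + 1 : ℕ) : ℝ) ^ (-s) ≤ s / (s - 1) := by
  rcases M with _ | M
  · simp only [range_zero, sum_empty]
    exact div_nonneg (by linarith) (by linarith)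
  rw [Finset.sum_range_succ']
  have hanti : AntitoneOn (fun x : ℝ => x ^ (-s)) (Set.Icc (1:ℝ) (1 + (M : ℕ))) := by
    intro x hx y hy hxy
    have hx0 : 0 < x := by linarith [hx.1]
    exact Real.rpow_le_rpow_of_nonpos hx0 hxy (by linarith)
  have h1 := AntitoneOn.sum_le_integral (f := fun x : ℝ => x ^ (-s)) (x₀ := 1) (a := M) hanti
  have h2 : ∫ x in (1:ℝ)..1 + (M:ℕ), x ^ (-s)
      = ((1 + (M:ℝ)) ^ (-s + 1) - 1 ^ (-s + 1)) / (-s + 1) := by
    rw [integral_rpow]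
    right
    refine ⟨by linarith, ?_⟩
    rw [Set.uIcc_of_le (by linarith [(Nat.cast_nonneg M : (0:ℝ) ≤ M)] : (1:ℝ) ≤ 1 + (M:ℝ))]
    intro h0
    have := h0.1
    linarith
  have h3 : ((1 + (M:ℝ)) ^ (-s + 1) - 1 ^ (-s + 1)) / (-s + 1) ≤ 1 / (s - 1) := by
    have hpos : 0 ≤ (1 + (M:ℝ)) ^ (-s + 1) := Real.rpow_nonneg (by positivity) _
    rw [Real.one_rpow]
    have : ((1 + (M:ℝ)) ^ (-s + 1) - 1) / (-s + 1) = (1 - (1 + (M:ℝ)) ^ (-s + 1)) / (s - 1) := by
      have e1 : (-s + 1) = -(s - 1) := by ring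
      rw [e1, div_neg, ← neg_div, neg_sub]
    rw [this]
    exact div_le_div_of_nonneg_right (by linarith) (by linarith)
  have h4 : ∑ i ∈ range M, ((i + 1 + 1 : ℕ) : ℝ) ^ (-s) ≤ 1 / (s - 1) := by
    refine le_trans (le_of_eq ?_) (le_trans h1 (h2 ▸ h3))
    refine Finset.sum_congr rfl fun i _ => ?_
    push_cast
    ring_nf
  have h5 : (((0 : ℕ) + 1 : ℕ) : ℝ) ^ (-s) = 1 := by simp
  rw [h5]
  have : s / (s - 1) = 1 / (s - 1) + 1 := by
    field_simp [(by linarith : s - 1 ≠ 0)]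
    ring
  rw [this]
  linarith

/-- **Dirichlet series bound** from a linear bound on the partial sums. -/
theorem dirichlet_bound (b : ℕ → ℝ) (hb : ∀ n, 0 ≤ b n) (C : ℝ) (hC : 0 ≤ C)
    (hmean : ∀ M : ℕ, ∑ n ∈ range (M + 1), b n ≤ C * (M + 1))
    {s : ℝ} (hs : 1 < s) (hs2 : s ≤ 2) (S : Finset ℕ) (hS : ∀ n ∈ S, 0 < n) :
    ∑ n ∈ S, b n * (n : ℝ) ^ (-s) ≤ 4 * C / (s - 1) := by
  classical
  -- shifted sequences
  set B : ℕ → ℝ := fun n => b (n + 1) with hB
  set W : ℕ → ℝ := fun n => ((n + 1 : ℕ) : ℝ) ^ (-s) with hW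
  have hW0 : ∀ n, 0 ≤ W n := fun n => Real.rpow_nonneg (by positivity) _
  have hWanti : ∀ n, W (n + 1) ≤ W n := by
    intro n
    simp only [hW]
    refine Real.rpow_le_rpow_of_nonpos (by positivity) ?_ (by linarith)
    push_cast; linarith
  have hSB : ∀ M, ∑ n ∈ range M, B n ≤ (2 * C) * M := by
    intro M
    rcases M with _ | M
    · simp
    have h1 := hmean (M + 1)
    rw [Finset.sum_range_succ'] at h1
    have h2 : ∑ n ∈ range (M + 1), B n ≤ C * ((M + 1 : ℕ) + 1) := by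
      have := hb 0
      simp only [hB]
      push_cast at h1 ⊢
      linarith
    have h3 : C * (((M + 1 : ℕ) : ℝ) + 1) ≤ 2 * C * ((M + 1 : ℕ) : ℝ) := by
      push_cast
      nlinarith [(Nat.cast_nonneg M : (0:ℝ) ≤ M)]
    exact le_trans h2 h3
  -- bound S by a range
  obtain ⟨M, hM⟩ : ∃ M, ∀ n ∈ S, n < M + 1 := by
    refine ⟨S.sup id, fun n hn => ?_⟩
    exact Nat.lt_succ_of_le (Finset.le_sup (f := id) hn)
  have hsub : S ⊆ (range M).image (fun n => n + 1) := by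
    intro n hn
    rw [Finset.mem_image]
    refine ⟨n - 1, ?_, ?_⟩
    · have := hM n hn; have := hS n hn; rw [mem_range]; omega
    · have := hS n hn; omega
  have h1 : ∑ n ∈ S, b n * (n : ℝ) ^ (-s)
      ≤ ∑ n ∈ (range M).image (fun n => n + 1), b n * (n : ℝ) ^ (-s) :=
    Finset.sum_le_sum_of_subset_of_nonneg hsub
      (fun n _ _ => mul_nonneg (hb n) (Real.rpow_nonneg (Nat.cast_nonneg n) _))
  have h2 : ∑ n ∈ (range M).image (fun n => n + 1), b n * (n : ℝ) ^ (-s)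
      = ∑ n ∈ range M, B n * W n := by
    rw [Finset.sum_image (fun x _ y _ hxy => by simpa using hxy)]
  have h3 := abel_le B W (2 * C) hW0 hWanti hSB M
  have h4 := sum_rpow_le hs M
  have h5 : s / (s - 1) ≤ 2 / (s - 1) :=
    div_le_div_of_nonneg_right hs2 (by linarith)
  calc ∑ n ∈ S, b n * (n : ℝ) ^ (-s) ≤ ∑ n ∈ range M, B n * W n := h2 ▸ h1
    _ ≤ 2 * C * ∑ n ∈ range M, W n := h3
    _ ≤ 2 * C * (2 / (s - 1)) :=
        mul_le_mul_of_nonneg_left (le_trans h4 h5) (by linarith)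
    _ = 4 * C / (s - 1) := by ring

end Fermat.Agent.S48.H55
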