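import Mathlib

/-!
# S48 leaf C (Rankin), part 4: finite Euler products as finite Dirichlet sums
-/

set_option autoImplicit false

namespace Fermat.Agent.S48.H55

open Finset

lemma pow_mul_injOn {q : ℕ} (hq : q.Prime) {k k' n n' : ℕ} (hn : ¬ q ∣ n) (hn' : ¬ q ∣ n')
    (h : q ^ k * n = q ^ k' * n') : k = k' ∧ n = n' := by
  have hq0 : 0 < q := hq.pos
  have key : ∀ {k k' n n' : ℕ}, ¬ q ∣ n → ¬ q ∣ n' → k ≤ k' → q ^ k * n = q ^ k' * n' →
      k = k' ∧ n = n' := by
    intro k k' n n' hn _ hkk h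
    obtain ⟨d, rfl⟩ := Nat.exists_eq_add_of_le hkk
    rw [pow_add, mul_assoc] at h
    have h2 : n = q ^ d * n' := Nat.eq_of_mul_eq_mul_left (pow_pos hq0 k) h
    rcases d with _ | d
    · simp at h2; exact ⟨rfl, h2⟩
    · exfalso
      apply hn
      rw [h2, pow_succ, mul_assoc, mul_comm (q ^ d), mul_assoc]
      exact Dvd.intro _ rfl
  rcases le_total k k' with hkk | hkk
  · exact key hn hn' hkk h
  · obtain ⟨h1, h2⟩ := key hn' hn hkk h.symm
    exact ⟨h1.symm, h2.symm⟩

/-- A finite Euler product of truncated local factors is a finite Dirichlet sum. -/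
theorem euler_prod_eq (a : ℕ → ℂ) (ha1 : a 1 = 1) (s : ℝ) (K : ℕ) (T : Finset ℕ) :
    (∀ p ∈ T, p.Prime) →
    (∀ p ∈ T, ∀ k m : ℕ, ¬ p ∣ m → a (p ^ k * m) = a (p ^ k) * a m) →
    ∃ S : Finset ℕ, (∀ n ∈ S, 0 < n ∧ ∀ q : ℕ, q.Prime → q ∣ n → q ∈ T) ∧
      ∏ p ∈ T, ∑ k ∈ range (K + 1), ‖a (p ^ k)‖ ^ 2 * ((p : ℝ) ^ (-s)) ^ k
        = ∑ n ∈ S, ‖a n‖ ^ 2 * (n : ℝ) ^ (-s) := by
  classical
  induction T using Finset.induction_on with
  | empty =>
      intro _ _
      refine ⟨{1}, ?_, ?_⟩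
      · intro n hn
        rw [Finset.mem_singleton] at hn
        subst hn
        refine ⟨one_pos, fun q hq hq1 => ?_⟩
        exact absurd (Nat.dvd_one.mp hq1) hq.one_lt.ne'
      · simp [ha1]
  | insert q T hqT ih =>
      intro hprime hmul
      have hq : q.Prime := hprime q (Finset.mem_insert_self q T)
      obtain ⟨S, hS, hprod⟩ := ih (fun p hp => hprime p (Finset.mem_insert_of_mem hp))
        (fun p hp => hmul p (Finset.mem_insert_of_mem hp))
      have hqS : ∀ n ∈ S, ¬ q ∣ n := by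
        intro n hn hdvd
        exact hqT ((hS n hn).2 q hq hdvd)
      refine ⟨(range (K + 1) ×ˢ S).image (fun x => q ^ x.1 * x.2), ?_, ?_⟩
      · intro n hn
        rw [Finset.mem_image] at hn
        obtain ⟨⟨k, m⟩, hkm, rfl⟩ := hn
        rw [Finset.mem_product] at hkm
        refine ⟨Nat.mul_pos (pow_pos hq.pos k) (hS m hkm.2).1, fun r hr hdvd => ?_⟩
        rcases (Nat.Prime.dvd_mul hr).mp hdvd with h1 | h1
        · have : r = q := (Nat.prime_dvd_prime_iff_eq hr hq).mp (hr.dvd_of_dvd_pow h1)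
          rw [this]; exact Finset.mem_insert_self q T
        · exact Finset.mem_insert_of_mem ((hS m hkm.2).2 r hr h1)
      · rw [Finset.prod_insert hqT, hprod, Finset.sum_image]
        · rw [Finset.sum_product, Finset.sum_mul]
          refine Finset.sum_congr rfl fun k _ => ?_
          rw [Finset.mul_sum]
          refine Finset.sum_congr rfl fun m hm => ?_
          have hmq := hqS m hm
          rw [hmul q (Finset.mem_insert_self q T) k m hmq, norm_mul, mul_pow]
          have hq0 : (0 : ℝ) ≤ q := Nat.cast_nonneg q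
          have : ((q ^ k * m : ℕ) : ℝ) ^ (-s) = ((q : ℝ) ^ (-s)) ^ k * (m : ℝ) ^ (-s) := by
            push_cast
            rw [Real.mul_rpow (pow_nonneg hq0 k) (Nat.cast_nonneg m), ← Real.rpow_natCast,
              ← Real.rpow_natCast, ← Real.rpow_mul hq0, ← Real.rpow_mul hq0, mul_comm (k : ℝ)]
          rw [this]
          ring
        · rintro ⟨k, m⟩ hkm ⟨k', m'⟩ hkm' h
          simp only [Finset.coe_product, Set.mem_prod, Finset.mem_coe] at hkm hkm'
          have h' : q ^ k * m = q ^ k' * m' := h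
          obtain ⟨h1, h2⟩ := pow_mul_injOn hq (hqS m hkm.2) (hqS m' hkm'.2) h'
          rw [h1, h2]

end Fermat.Agent.S48.H55
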