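import Mathlib

/-!
# S48 leaf C (Rankin), part 1: the local inequality

For complex numbers `a, e` with `‖e‖ = 1` and a sequence `h` with
`h 0 = 1`, `h 1 = a`, `h (k+2) = a * h (k+1) - e * h k`, and `0 ≤ X ≤ 1`:

  `(1 - X^2) * ∑_{k ≤ K} (‖a‖^2 X)^k / k!  ≤  ∑_{j ≤ K} ‖h j‖^2 X^j`.

Proof: ballot numbers `c k j` (Clebsch–Gordan multiplicities), `‖a‖^k ≤ ∑_j c k j ‖h j‖`
(triangle inequality), Cauchy–Schwarz, and `∑_j (c k j)^2 ≤ k!`.
-/

set_option autoImplicit false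

namespace Fermat.Agent.S48.H55

open Finset

/-- Ballot numbers: number of nonnegative `±1`-paths of length `k` from `0` to `j`. -/
def ballot : ℕ → ℕ → ℕ
  | 0, j => if j = 0 then 1 else 0
  | (k + 1), j => (if j = 0 then 0 else ballot k (j - 1)) + ballot k (j + 1)

lemma ballot_zero (j : ℕ) : ballot 0 j = if j = 0 then 1 else 0 := rfl

lemma ballot_succ (k j : ℕ) :
    ballot (k + 1) j = (if j = 0 then 0 else ballot k (j - 1)) + ballot k (j + 1) := rfl

lemma ballot_succ_zero (k : ℕ) : ballot (k + 1) 0 = ballot k 1 := by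
  simp [ballot_succ]

lemma ballot_succ_succ (k j : ℕ) : ballot (k + 1) (j + 1) = ballot k j + ballot k (j + 2) := by
  simp [ballot_succ]

lemma ballot_eq_zero_of_lt : ∀ (k j : ℕ), k < j → ballot k j = 0
  | 0, j, h => by
      have : j ≠ 0 := by omega
      simp [ballot_zero, this]
  | (k + 1), j, h => by
      have hj : j ≠ 0 := by omega
      rw [ballot_succ, if_neg hj, ballot_eq_zero_of_lt k (j - 1) (by omega),
        ballot_eq_zero_of_lt k (j + 1) (by omega)]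

lemma ballot_eq_zero_of_odd : ∀ (k j : ℕ), (k + j) % 2 = 1 → ballot k j = 0
  | 0, j, h => by
      have : j ≠ 0 := by rintro rfl; simp at h
      simp [ballot_zero, this]
  | (k + 1), j, h => by
      rw [ballot_succ, ballot_eq_zero_of_odd k (j + 1) (by omega)]
      by_cases hj : j = 0
      · simp [hj]
      · rw [if_neg hj, ballot_eq_zero_of_odd k (j - 1) (by omega)]

/-- `B k = ∑_j (ballot k j)^2` (a Catalan number; we only need `B k ≤ k!`). -/
def ballotSq (k : ℕ) : ℕ := ∑ j ∈ range (k + 1), ballot k j ^ 2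

lemma ballotSq_eq_sum_of_le (k m : ℕ) (hm : k + 1 ≤ m) :
    ballotSq k = ∑ j ∈ range m, ballot k j ^ 2 := by
  unfold ballotSq
  refine Finset.sum_subset (fun x hx => ?_) (fun x _ hx => ?_)
  · simp only [mem_range] at hx ⊢; omega
  · simp only [mem_range, not_lt] at hx
    rw [ballot_eq_zero_of_lt k x (by omega)]; simp

lemma ballotSq_succ_le (k : ℕ) : ballotSq (k + 1) ≤ 4 * ballotSq k := by
  have h1 : ballotSq (k + 1) = ∑ j ∈ range (k + 2), ballot (k + 1) j ^ 2 := rfl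
  have hxy : ∀ x y : ℕ, (x + y) ^ 2 ≤ 2 * x ^ 2 + 2 * y ^ 2 := by
    intro x y
    zify
    nlinarith [sq_nonneg ((x : ℤ) - y)]
  have h2 : ∀ j ∈ range (k + 2), ballot (k + 1) j ^ 2 ≤
      2 * (if j = 0 then 0 else ballot k (j - 1)) ^ 2 + 2 * ballot k (j + 1) ^ 2 := by
    intro j _
    rw [ballot_succ]
    exact hxy _ _
  have h3 : ∑ j ∈ range (k + 2), (if j = 0 then 0 else ballot k (j - 1)) ^ 2 = ballotSq k := by
    rw [Finset.sum_range_succ']
    simp [ballotSq]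
  have h4 : ∑ j ∈ range (k + 2), ballot k (j + 1) ^ 2 ≤ ballotSq k := by
    rw [ballotSq_eq_sum_of_le k (k + 3) (by omega), Finset.sum_range_succ' _ (k + 2)]
    exact Nat.le_add_right _ _
  calc ballotSq (k + 1) = ∑ j ∈ range (k + 2), ballot (k + 1) j ^ 2 := h1
    _ ≤ ∑ j ∈ range (k + 2), (2 * (if j = 0 then 0 else ballot k (j - 1)) ^ 2
          + 2 * ballot k (j + 1) ^ 2) := Finset.sum_le_sum h2
    _ = 2 * ∑ j ∈ range (k + 2), (if j = 0 then 0 else ballot k (j - 1)) ^ 2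
          + 2 * ∑ j ∈ range (k + 2), ballot k (j + 1) ^ 2 := by
        rw [Finset.sum_add_distrib, Finset.mul_sum, Finset.mul_sum]
    _ ≤ 2 * ballotSq k + 2 * ballotSq k := by rw [h3]; omega
    _ = 4 * ballotSq k := by ring

lemma ballotSq_le_factorial : ∀ k : ℕ, ballotSq k ≤ k.factorial
  | 0 => by decide
  | 1 => by decide
  | 2 => by decide
  | 3 => by decide
  | (k + 4) => by
      have h := ballotSq_succ_le (k + 3)
      have ih := ballotSq_le_factorial (k + 3)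
      have : (k + 4).factorial = (k + 4) * (k + 3).factorial := Nat.factorial_succ _
      nlinarith

end Fermat.Agent.S48.H55

namespace Fermat.Agent.S48.H55

open Finset

section Local

variable {a e : ℂ} {h : ℕ → ℂ}

/-- `S k = ∑_j ballot k j * ‖h j‖`. -/
noncomputable def ballotSum (h : ℕ → ℂ) (k : ℕ) : ℝ :=
  ∑ j ∈ range (k + 1), (ballot k j : ℝ) * ‖h j‖

lemma norm_mul_le_shift (he : ‖e‖ = 1) (h1 : h 1 = a * h 0)
    (hrec : ∀ k, h (k + 2) = a * h (k + 1) - e * h k) (j : ℕ) :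
    ‖a‖ * ‖h j‖ ≤ ‖h (j + 1)‖ + (if j = 0 then 0 else ‖h (j - 1)‖) := by
  rcases j with _ | j
  · simp [h1]
  · have : a * h (j + 1) = h (j + 2) + e * h j := by rw [hrec j]; ring
    simp only [Nat.succ_ne_zero, if_false, Nat.add_sub_cancel]
    calc ‖a‖ * ‖h (j + 1)‖ = ‖a * h (j + 1)‖ := (norm_mul _ _).symm
      _ = ‖h (j + 2) + e * h j‖ := by rw [this]
      _ ≤ ‖h (j + 2)‖ + ‖e * h j‖ := norm_add_le _ _
      _ = ‖h (j + 2)‖ + ‖h j‖ := by rw [norm_mul, he, one_mul]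

lemma ballotSum_succ_ge (he : ‖e‖ = 1) (h1 : h 1 = a * h 0)
    (hrec : ∀ k, h (k + 2) = a * h (k + 1) - e * h k) (k : ℕ) :
    ‖a‖ * ballotSum h k ≤ ballotSum h (k + 1) := by
  have e1 : ∑ j ∈ range (k + 2), ((if j = 0 then 0 else ballot k (j - 1) : ℕ) : ℝ) * ‖h j‖
      = ∑ j ∈ range (k + 1), (ballot k j : ℝ) * ‖h (j + 1)‖ := by
    rw [Finset.sum_range_succ' _ (k + 1)]
    simp
  have e2 : ∑ j ∈ range (k + 2), (ballot k (j + 1) : ℝ) * ‖h j‖
      = ∑ j ∈ range (k + 1), (ballot k j : ℝ) * (if j = 0 then 0 else ‖h (j - 1)‖) := by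
    rw [Finset.sum_range_succ' _ k, Finset.sum_range_succ _ (k + 1), Finset.sum_range_succ _ k]
    rw [ballot_eq_zero_of_lt k (k + 1) (by omega), ballot_eq_zero_of_lt k (k + 1 + 1) (by omega)]
    simp
  have e3 : ballotSum h (k + 1) = ∑ j ∈ range (k + 1), (ballot k j : ℝ) * ‖h (j + 1)‖
      + ∑ j ∈ range (k + 1), (ballot k j : ℝ) * (if j = 0 then 0 else ‖h (j - 1)‖) := by
    rw [← e1, ← e2, ← Finset.sum_add_distrib]
    unfold ballotSum
    refine Finset.sum_congr rfl fun j _ => ?_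
    rw [ballot_succ]; push_cast; ring
  rw [e3, ← Finset.sum_add_distrib]
  unfold ballotSum
  rw [Finset.mul_sum]
  refine Finset.sum_le_sum fun j _ => ?_
  have := norm_mul_le_shift he h1 hrec j
  have hc : (0 : ℝ) ≤ ballot k j := Nat.cast_nonneg _
  calc ‖a‖ * ((ballot k j : ℝ) * ‖h j‖) = (ballot k j : ℝ) * (‖a‖ * ‖h j‖) := by ring
    _ ≤ (ballot k j : ℝ) * (‖h (j + 1)‖ + (if j = 0 then 0 else ‖h (j - 1)‖)) :=
        mul_le_mul_of_nonneg_left this hc
    _ = _ := by ring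

lemma norm_pow_le_ballotSum (he : ‖e‖ = 1) (h0 : h 0 = 1) (h1 : h 1 = a)
    (hrec : ∀ k, h (k + 2) = a * h (k + 1) - e * h k) (k : ℕ) :
    ‖a‖ ^ k ≤ ballotSum h k := by
  induction k with
  | zero => simp [ballotSum, ballot_zero, h0]
  | succ k ih =>
      have h1' : h 1 = a * h 0 := by rw [h1, h0, mul_one]
      calc ‖a‖ ^ (k + 1) = ‖a‖ * ‖a‖ ^ k := by ring
        _ ≤ ‖a‖ * ballotSum h k := mul_le_mul_of_nonneg_left ih (norm_nonneg _)
        _ ≤ ballotSum h (k + 1) := ballotSum_succ_ge he h1' hrec k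

/-- `U k = ∑_{j ≤ k, j ≡ k (2)} ‖h j‖^2`. -/
noncomputable def paritySum (h : ℕ → ℂ) (k : ℕ) : ℝ :=
  ∑ j ∈ range (k + 1), (if (k + j) % 2 = 0 then ‖h j‖ ^ 2 else 0)

lemma paritySum_nonneg (h : ℕ → ℂ) (k : ℕ) : 0 ≤ paritySum h k := by
  unfold paritySum
  refine Finset.sum_nonneg fun j _ => ?_
  split_ifs <;> positivity

lemma paritySum_zero (h : ℕ → ℂ) : paritySum h 0 = ‖h 0‖ ^ 2 := by
  simp [paritySum]

lemma paritySum_one (h : ℕ → ℂ) : paritySum h 1 = ‖h 1‖ ^ 2 := by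
  simp [paritySum, Finset.sum_range_succ]

lemma paritySum_add_two (h : ℕ → ℂ) (k : ℕ) :
    paritySum h (k + 2) = paritySum h k + ‖h (k + 2)‖ ^ 2 := by
  unfold paritySum
  rw [Finset.sum_range_succ _ (k + 2), Finset.sum_range_succ _ (k + 1)]
  have h1 : (k + 2 + (k + 1)) % 2 = 1 := by omega
  have h2 : (k + 2 + (k + 2)) % 2 = 0 := by omega
  simp only [h1, h2, one_ne_zero, if_false, if_true, add_zero]
  congr 1
  refine Finset.sum_congr rfl fun j _ => ?_
  have : (k + 2 + j) % 2 = (k + j) % 2 := by omega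
  rw [this]

lemma ballotSum_sq_le (h : ℕ → ℂ) (k : ℕ) :
    ballotSum h k ^ 2 ≤ (ballotSq k : ℝ) * paritySum h k := by
  have e1 : ballotSum h k = ∑ j ∈ range (k + 1),
      (ballot k j : ℝ) * (if (k + j) % 2 = 0 then ‖h j‖ else 0) := by
    unfold ballotSum
    refine Finset.sum_congr rfl fun j _ => ?_
    split_ifs with hp
    · rfl
    · rw [ballot_eq_zero_of_odd k j (by omega)]; simp
  have e2 : paritySum h k = ∑ j ∈ range (k + 1),
      (if (k + j) % 2 = 0 then ‖h j‖ else 0) ^ 2 := by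
    unfold paritySum
    refine Finset.sum_congr rfl fun j _ => ?_
    split_ifs <;> simp
  have e3 : (ballotSq k : ℝ) = ∑ j ∈ range (k + 1), (ballot k j : ℝ) ^ 2 := by
    unfold ballotSq; push_cast; rfl
  rw [e1, e2, e3]
  exact Finset.sum_mul_sq_le_sq_mul_sq _ _ _

lemma norm_sq_pow_div_factorial_le (he : ‖e‖ = 1) (h0 : h 0 = 1) (h1 : h 1 = a)
    (hrec : ∀ k, h (k + 2) = a * h (k + 1) - e * h k) (k : ℕ) :
    (‖a‖ ^ 2) ^ k / (k.factorial : ℝ) ≤ paritySum h k := by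
  have hf : (0 : ℝ) < k.factorial := by exact_mod_cast Nat.factorial_pos k
  rw [div_le_iff₀ hf]
  have h1' := norm_pow_le_ballotSum he h0 h1 hrec k
  have h2 := ballotSum_sq_le h k
  have h3 : (ballotSq k : ℝ) ≤ k.factorial := by exact_mod_cast ballotSq_le_factorial k
  have h4 : (‖a‖ ^ k) ^ 2 ≤ ballotSum h k ^ 2 :=
    pow_le_pow_left₀ (by positivity) h1' 2
  calc (‖a‖ ^ 2) ^ k = (‖a‖ ^ k) ^ 2 := by ring
    _ ≤ ballotSum h k ^ 2 := h4
    _ ≤ (ballotSq k : ℝ) * paritySum h k := h2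
    _ ≤ (k.factorial : ℝ) * paritySum h k :=
        mul_le_mul_of_nonneg_right h3 (paritySum_nonneg h k)
    _ = paritySum h k * (k.factorial : ℝ) := by ring

/-- shifted parity sum: `Um 0 = 0`, `Um (K+1) = U K`. -/
noncomputable def paritySumPrev (h : ℕ → ℂ) : ℕ → ℝ
  | 0 => 0
  | (K + 1) => paritySum h K

lemma paritySum_succ_eq (h : ℕ → ℂ) (K : ℕ) :
    paritySum h (K + 1) = paritySumPrev h K + ‖h (K + 1)‖ ^ 2 := by
  rcases K with _ | K
  · simp [paritySumPrev, paritySum_one]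
  · simp [paritySumPrev, paritySum_add_two]

lemma parity_telescope (h : ℕ → ℂ) (X : ℝ) (K : ℕ) :
    ∑ k ∈ range (K + 1), ‖h k‖ ^ 2 * X ^ k
      - (1 - X ^ 2) * ∑ k ∈ range (K + 1), X ^ k * paritySum h k
      = X ^ (K + 2) * paritySum h K + X ^ (K + 1) * paritySumPrev h K := by
  induction K with
  | zero => simp [paritySum_zero, paritySumPrev]; ring
  | succ K ih =>
      rw [Finset.sum_range_succ _ (K + 1), Finset.sum_range_succ (fun k => X ^ k * paritySum h k)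
        (K + 1)]
      have hU := paritySum_succ_eq h K
      have : paritySumPrev h (K + 1) = paritySum h K := rfl
      rw [this]
      have e : ‖h (K + 1)‖ ^ 2 = paritySum h (K + 1) - paritySumPrev h K := by linarith
      rw [e]
      linear_combination ih

lemma paritySumPrev_nonneg (h : ℕ → ℂ) (K : ℕ) : 0 ≤ paritySumPrev h K := by
  rcases K with _ | K
  · simp [paritySumPrev]
  · exact paritySum_nonneg h K

/-- **Local inequality.** -/
theorem local_ineq (he : ‖e‖ = 1) (h0 : h 0 = 1) (h1 : h 1 = a)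
    (hrec : ∀ k, h (k + 2) = a * h (k + 1) - e * h k) {X : ℝ} (hX0 : 0 ≤ X) (hX1 : X ≤ 1)
    (K : ℕ) :
    (1 - X ^ 2) * ∑ k ∈ range (K + 1), (‖a‖ ^ 2 * X) ^ k / (k.factorial : ℝ)
      ≤ ∑ k ∈ range (K + 1), ‖h k‖ ^ 2 * X ^ k := by
  have hX2 : 0 ≤ 1 - X ^ 2 := by nlinarith
  have s1 : ∑ k ∈ range (K + 1), (‖a‖ ^ 2 * X) ^ k / (k.factorial : ℝ)
      ≤ ∑ k ∈ range (K + 1), X ^ k * paritySum h k := by
    refine Finset.sum_le_sum fun k _ => ?_
    have := norm_sq_pow_div_factorial_le he h0 h1 hrec k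
    calc (‖a‖ ^ 2 * X) ^ k / (k.factorial : ℝ)
        = X ^ k * ((‖a‖ ^ 2) ^ k / (k.factorial : ℝ)) := by rw [mul_pow]; ring
      _ ≤ X ^ k * paritySum h k := mul_le_mul_of_nonneg_left this (pow_nonneg hX0 k)
  have s2 := parity_telescope h X K
  have s3 : 0 ≤ X ^ (K + 2) * paritySum h K + X ^ (K + 1) * paritySumPrev h K :=
    add_nonneg (mul_nonneg (pow_nonneg hX0 _) (paritySum_nonneg h K))
      (mul_nonneg (pow_nonneg hX0 _) (paritySumPrev_nonneg h K))
  calc (1 - X ^ 2) * ∑ k ∈ range (K + 1), (‖a‖ ^ 2 * X) ^ k / (k.factorial : ℝ)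
      ≤ (1 - X ^ 2) * ∑ k ∈ range (K + 1), X ^ k * paritySum h k :=
        mul_le_mul_of_nonneg_left s1 hX2
    _ ≤ ∑ k ∈ range (K + 1), ‖h k‖ ^ 2 * X ^ k := by linarith

end Local

end Fermat.Agent.S48.H55
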