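import Mathlib
import Fermat.Prelude.Def_FLTPrelim_Modularity

/-!
# S48 leaf C (Rankin), part 2: mean square of the coefficients of a weight one cusp form

`∑_{n ≤ M} ‖a_n‖² ≤ C (M + 1)` by Parseval on horizontal lines and the bound
`‖f τ‖ ≤ C₀ (im τ)^(-1/2)`.
-/

set_option autoImplicit false

open CongruenceSubgroup UpperHalfPlane ModularFormClass MeasureTheory
open scoped MatrixGroups Real

namespace Fermat.Agent.S48.H55

/-- The restriction of `f` to the horizontal line of height `t`. -/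
noncomputable def lineFun {N : ℕ} (f : CuspForm (Gamma1 N) 1) (t : ℝ) (ht : 0 < t) : ℝ → ℂ :=
  fun u => f ⟨(u : ℂ) + t * Complex.I, by simpa using ht⟩

lemma continuous_lineFun {N : ℕ} (f : CuspForm (Gamma1 N) 1) (t : ℝ) (ht : 0 < t) :
    Continuous (lineFun f t ht) := by
  unfold lineFun
  fun_prop

lemma qCoeff_eq_integral {N : ℕ} [NeZero N] (f : CuspForm (Gamma1 N) 1) (t : ℝ) (ht : 0 < t)
    (n : ℕ) :
    ModularFormClass.qCoeff f n = ∫ (u : ℝ) in (0:ℝ)..1,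
        1 / Function.Periodic.qParam 1 (↑u + ↑t * Complex.I) ^ n * lineFun f t ht u := by
  have := ModularFormClass.qExpansion_coeff_eq_intervalIntegral
    (Γ := ((Gamma1 N : Subgroup SL(2,ℤ)) : Subgroup (GL (Fin 2) ℝ))) (k := 1) f one_pos
    (by simp) n ht
  unfold ModularFormClass.qCoeff
  rw [this]
  simp [lineFun]

lemma one_div_qParam_pow (t u : ℝ) (n : ℕ) :
    1 / Function.Periodic.qParam 1 (↑u + ↑t * Complex.I) ^ n
      = (Real.exp (2 * π * n * t) : ℂ) * Complex.exp (2 * π * Complex.I * (-(n : ℤ) : ℤ) * u / ((1 - 0 : ℝ) : ℂ)) := by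
  unfold Function.Periodic.qParam
  rw [one_div, ← Complex.exp_nat_mul, ← Complex.exp_neg, Complex.ofReal_exp, ← Complex.exp_add]
  congr 1
  push_cast
  have : Complex.I * Complex.I = -1 := Complex.I_mul_I
  linear_combination (-(2 * (π : ℂ) * n * t)) * this

lemma fourierCoeffOn_lineFun {N : ℕ} [NeZero N] (f : CuspForm (Gamma1 N) 1) (t : ℝ) (ht : 0 < t)
    (n : ℕ) :
    (Real.exp (2 * π * n * t) : ℂ) * fourierCoeffOn (zero_lt_one' ℝ) (lineFun f t ht) (n : ℤ)
      = ModularFormClass.qCoeff f n := by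
  rw [qCoeff_eq_integral f t ht n, fourierCoeffOn_eq_integral]
  simp only [sub_zero, div_one, one_smul]
  rw [← intervalIntegral.integral_const_mul]
  refine intervalIntegral.integral_congr fun u _ => ?_
  simp only [smul_eq_mul]
  rw [one_div_qParam_pow, fourier_coe_apply]
  simp only [sub_zero]
  ring

lemma norm_lineFun_le {N : ℕ} [NeZero N] (f : CuspForm (Gamma1 N) 1) :
    ∃ C : ℝ, 0 ≤ C ∧ ∀ (t : ℝ) (ht : 0 < t) (u : ℝ), ‖lineFun f t ht u‖ ^ 2 ≤ C / t := by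
  obtain ⟨C, hC⟩ := CuspFormClass.exists_bound (k := 1)
    (Γ := ((Gamma1 N : Subgroup SL(2,ℤ)) : Subgroup (GL (Fin 2) ℝ))) f
  refine ⟨C ^ 2, sq_nonneg _, fun t ht u => ?_⟩
  have h1 := hC ⟨(u : ℂ) + t * Complex.I, by simpa using ht⟩
  have him : (⟨(u : ℂ) + t * Complex.I, by simpa using ht⟩ : ℍ).im = t := by
    simp [UpperHalfPlane.im]
  rw [him] at h1
  have h2 : ‖lineFun f t ht u‖ ≤ C / t ^ (((1:ℤ):ℝ) / 2) := h1
  have h3 : (t ^ (((1:ℤ):ℝ) / 2)) ^ 2 = t := by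
    rw [← Real.rpow_natCast, ← Real.rpow_mul ht.le]
    norm_num
  calc ‖lineFun f t ht u‖ ^ 2 ≤ (C / t ^ (((1:ℤ):ℝ) / 2)) ^ 2 :=
        pow_le_pow_left₀ (norm_nonneg _) h2 2
    _ = C ^ 2 / t := by rw [div_pow, h3]

lemma parseval_le {N : ℕ} [NeZero N] (f : CuspForm (Gamma1 N) 1) :
    ∃ C : ℝ, 0 ≤ C ∧ ∀ (t : ℝ) (_ht : 0 < t) (M : ℕ),
      ∑ n ∈ Finset.range (M + 1), Real.exp (-(4 * π * n * t)) * ‖ModularFormClass.qCoeff f n‖ ^ 2
        ≤ C / t := by
  obtain ⟨C, hC0, hC⟩ := norm_lineFun_le f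
  refine ⟨C, hC0, fun t ht M => ?_⟩
  have hcont := continuous_lineFun f t ht
  have hL2 : MemLp (lineFun f t ht) 2 (volume.restrict (Set.Ioc (0:ℝ) 1)) := by
    refine MemLp.of_bound hcont.aestronglyMeasurable (Real.sqrt (C / t)) ?_
    refine Filter.Eventually.of_forall fun u => ?_
    have := hC t ht u
    calc ‖lineFun f t ht u‖ = Real.sqrt (‖lineFun f t ht u‖ ^ 2) :=
          (Real.sqrt_sq (norm_nonneg _)).symm
      _ ≤ Real.sqrt (C / t) := Real.sqrt_le_sqrt this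
  have hsum := hasSum_sq_fourierCoeffOn (zero_lt_one' ℝ) hL2
  have hint : (1 - 0 : ℝ)⁻¹ • ∫ x in (0:ℝ)..1, ‖lineFun f t ht x‖ ^ 2 ≤ C / t := by
    simp only [sub_zero, inv_one, one_smul]
    have h1 : ∫ x in (0:ℝ)..1, ‖lineFun f t ht x‖ ^ 2 ≤ ∫ _x in (0:ℝ)..1, C / t := by
      refine intervalIntegral.integral_mono_on zero_le_one ?_ ?_ fun x _ => hC t ht x
      · exact (hcont.norm.pow 2).intervalIntegrable _ _
      · exact continuous_const.intervalIntegrable _ _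
    simpa using h1
  have hle := sum_le_hasSum ((Finset.range (M + 1)).map Nat.castEmbedding)
    (fun i _ => sq_nonneg _) hsum
  rw [Finset.sum_map] at hle
  refine le_trans (le_of_eq ?_) (le_trans hle hint)
  refine Finset.sum_congr rfl fun n _ => ?_
  have h1 := fourierCoeffOn_lineFun f t ht n
  simp only [Nat.castEmbedding_apply]
  rw [← h1, norm_mul, mul_pow, Complex.norm_real, Real.norm_eq_abs, abs_of_pos (Real.exp_pos _),
    ← mul_assoc, ← Real.exp_nat_mul, ← Real.exp_add]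
  have : -(4 * π * ↑n * t) + ((2:ℕ) : ℝ) * (2 * π * ↑n * t) = 0 := by push_cast; ring
  rw [this, Real.exp_zero, one_mul]

/-- **Mean square bound.** -/
theorem mean_square {N : ℕ} [NeZero N] (f : CuspForm (Gamma1 N) 1) :
    ∃ C : ℝ, 0 ≤ C ∧ ∀ M : ℕ,
      ∑ n ∈ Finset.range (M + 1), ‖ModularFormClass.qCoeff f n‖ ^ 2 ≤ C * (M + 1) := by
  obtain ⟨C, hC0, hC⟩ := parseval_le f
  refine ⟨Real.exp (4 * π) * C, mul_nonneg (Real.exp_pos _).le hC0, fun M => ?_⟩
  have hM : (0 : ℝ) < (M : ℝ) + 1 := by positivity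
  have h1 := hC (1 / ((M : ℝ) + 1)) (by positivity) M
  have h2 : ∀ n ∈ Finset.range (M + 1),
      Real.exp (-(4 * π)) * ‖ModularFormClass.qCoeff f n‖ ^ 2
        ≤ Real.exp (-(4 * π * n * (1 / ((M : ℝ) + 1)))) * ‖ModularFormClass.qCoeff f n‖ ^ 2 := by
    intro n hn
    refine mul_le_mul_of_nonneg_right ?_ (sq_nonneg _)
    rw [Real.exp_le_exp]
    have hn' : (n : ℝ) ≤ M := by
      have := Finset.mem_range.mp hn
      exact_mod_cast Nat.lt_succ_iff.mp this
    have : (n : ℝ) * (1 / ((M : ℝ) + 1)) ≤ 1 := by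
      rw [mul_one_div, div_le_one hM]; linarith
    have hpi : 0 < 4 * π := by positivity
    nlinarith
  have h3 : Real.exp (-(4 * π)) * ∑ n ∈ Finset.range (M + 1), ‖ModularFormClass.qCoeff f n‖ ^ 2
      ≤ C / (1 / ((M : ℝ) + 1)) := by
    rw [Finset.mul_sum]
    exact le_trans (Finset.sum_le_sum h2) h1
  have h4 : C / (1 / ((M : ℝ) + 1)) = C * (M + 1) := by field_simp
  rw [h4] at h3
  have h5 : Real.exp (4 * π) * Real.exp (-(4 * π)) = 1 := by
    rw [← Real.exp_add]; simp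
  calc ∑ n ∈ Finset.range (M + 1), ‖ModularFormClass.qCoeff f n‖ ^ 2
      = Real.exp (4 * π) * (Real.exp (-(4 * π)) *
          ∑ n ∈ Finset.range (M + 1), ‖ModularFormClass.qCoeff f n‖ ^ 2) := by
        rw [← mul_assoc, h5, one_mul]
    _ ≤ Real.exp (4 * π) * (C * (M + 1)) :=
        mul_le_mul_of_nonneg_left h3 (Real.exp_pos _).le
    _ = Real.exp (4 * π) * C * (M + 1) := by ring

end Fermat.Agent.S48.H55
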