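import Mathlib
import Fermat.Agent.S48.Defs
import Fermat.Agent.S48.H55_RankinLocal
import Fermat.Agent.S48.H55_RankinMean
import Fermat.Agent.S48.H55_RankinDir
import Fermat.Agent.S48.H55_RankinEuler

/-!
# S48 leaf C: `Stmt_Rankin`

`∑_{p ∈ T} ‖a_p‖² p^(-s) ≤ log (1/(s-1)) + C` for `1 < s ≤ 2`, `T` any finite set of primes
not dividing `N`.  Assembly of the local inequality (`local_ineq`), the mean square bound
(`mean_square`), Abel summation (`dirichlet_bound`) and the Euler product (`euler_prod_eq`).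
-/

set_option autoImplicit false

open CongruenceSubgroup Filter Topology
open scoped MatrixGroups

namespace Fermat.Agent.S48.H55

open Finset

section Hecke

variable {N : ℕ} [NeZero N] {ε : DirichletCharacter ℂ N} {f : CuspForm (Gamma1 N) 1}

omit [NeZero N] in
lemma norm_eps_eq_one (ε : DirichletCharacter ℂ N) {p : ℕ} (hp : p.Prime) (hpN : ¬ p ∣ N) :
    ‖ε (p : ZMod N)‖ = 1 := by
  have hu : IsUnit (p : ZMod N) := (ZMod.isUnit_prime_iff_not_dvd hp).mpr hpN
  have := ε.unit_norm_eq_one hu.unit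
  simpa using this

lemma qCoeff_pow_rec (hf : IsDSForm N ε f) {p : ℕ} (hp : p.Prime) (hpN : ¬ p ∣ N) (k : ℕ) :
    ModularFormClass.qCoeff f (p ^ (k + 2)) =
      ModularFormClass.qCoeff f p * ModularFormClass.qCoeff f (p ^ (k + 1))
        - ε (p : ZMod N) * ModularFormClass.qCoeff f (p ^ k) := by
  have h := hf.hecke p hp hpN (p ^ (k + 1))
  have hdvd : p ∣ p ^ (k + 1) := dvd_pow_self p (Nat.succ_ne_zero k)
  have hdiv : p ^ (k + 1) / p = p ^ k := by
    rw [pow_succ, Nat.mul_div_cancel _ hp.pos]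
  rw [if_pos hdvd, hdiv] at h
  have e : p * p ^ (k + 1) = p ^ (k + 2) := by ring
  rw [e] at h
  linear_combination h

lemma qCoeff_pow_mul (hf : IsDSForm N ε f) {p : ℕ} (hp : p.Prime) (hpN : ¬ p ∣ N) :
    ∀ (k m : ℕ), ¬ p ∣ m →
      ModularFormClass.qCoeff f (p ^ k * m) =
        ModularFormClass.qCoeff f (p ^ k) * ModularFormClass.qCoeff f m := by
  intro k m hm
  induction k using Nat.twoStepInduction with
  | zero => simp [hf.one]
  | one =>
      have h := hf.hecke p hp hpN m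
      rw [if_neg hm] at h
      simpa using h
  | more k ih0 ih1 =>
      have h := hf.hecke p hp hpN (p ^ (k + 1) * m)
      have hdvd : p ∣ p ^ (k + 1) * m := Dvd.dvd.mul_right (dvd_pow_self p (Nat.succ_ne_zero k)) m
      have hdiv : p ^ (k + 1) * m / p = p ^ k * m := by
        rw [pow_succ, mul_assoc, mul_comm p m, ← mul_assoc, Nat.mul_div_cancel _ hp.pos]
      rw [if_pos hdvd, hdiv] at h
      have e : p * (p ^ (k + 1) * m) = p ^ (k + 2) * m := by ring
      rw [e, ih0, ih1] at h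
      rw [qCoeff_pow_rec hf hp hpN k]
      linear_combination h

end Hecke

lemma one_sub_ge_exp {y : ℝ} (hy0 : 0 ≤ y) (hy1 : y ≤ 1 / 2) : Real.exp (-(2 * y)) ≤ 1 - y := by
  have h1 : 1 + 2 * y ≤ Real.exp (2 * y) := by
    have := Real.add_one_le_exp (2 * y); linarith
  have h2 : 0 < Real.exp (2 * y) := Real.exp_pos _
  rw [Real.exp_neg, inv_le_comm₀ h2 (by linarith)]
  have h3 : (1 - y)⁻¹ ≤ 1 + 2 * y := by
    rw [inv_le_iff_one_le_mul₀ (by linarith)]
    nlinarith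
  linarith

lemma tendsto_expPartial (t : ℝ) :
    Tendsto (fun K : ℕ => ∑ k ∈ Finset.range (K + 1), t ^ k / (k.factorial : ℝ)) atTop
      (𝓝 (Real.exp t)) := by
  have h := (NormedSpace.expSeries_div_hasSum_exp (𝔸 := ℝ) t)
  rw [← Real.exp_eq_exp_ℝ] at h
  exact (tendsto_add_atTop_iff_nat 1).mpr h.tendsto_sum_nat

/-- **Leaf C of S48**: Rankin's bound. -/
theorem stmt_Rankin : Stmt_Rankin := by
  intro N _ ε f hf
  obtain ⟨C₀, hC₀, hmean₀⟩ := mean_square f
  set C₁ : ℝ := max C₀ 1 with hC₁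
  have hC₁1 : 1 ≤ C₁ := le_max_right _ _
  have hmean : ∀ M : ℕ,
      ∑ n ∈ Finset.range (M + 1), ‖ModularFormClass.qCoeff f n‖ ^ 2 ≤ C₁ * (M + 1) := by
    intro M
    refine le_trans (hmean₀ M) ?_
    exact mul_le_mul_of_nonneg_right (le_max_left _ _) (by positivity)
  refine ⟨Real.log (4 * C₁) + 8, fun s hs hs2 T hT => ?_⟩
  have hs1 : 0 < s - 1 := by linarith
  -- notation
  set a : ℕ → ℂ := fun n => ModularFormClass.qCoeff f n with ha
  set X : ℕ → ℝ := fun p => (p : ℝ) ^ (-s) with hX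
  have hXpos : ∀ p ∈ T, 0 < X p := fun p hp =>
    Real.rpow_pos_of_pos (by exact_mod_cast (hT p hp).1.pos) _
  have hXhalf : ∀ p ∈ T, X p ≤ 1 / 2 := by
    intro p hp
    have hp2 : (2 : ℝ) ≤ p := by exact_mod_cast (hT p hp).1.two_le
    have h1 : (p : ℝ) ^ (-s) ≤ (p : ℝ) ^ (-(1:ℝ)) :=
      Real.rpow_le_rpow_of_exponent_le (by linarith) (by linarith)
    have h2 : (p : ℝ) ^ (-(1:ℝ)) = (p : ℝ)⁻¹ := Real.rpow_neg_one _
    have h3 : (p : ℝ)⁻¹ ≤ 1 / 2 := by
      rw [one_div]; exact inv_anti₀ (by norm_num) hp2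
    simp only [hX]; linarith
  -- Dirichlet bound
  have hD : ∀ S : Finset ℕ, (∀ n ∈ S, 0 < n) →
      ∑ n ∈ S, ‖a n‖ ^ 2 * (n : ℝ) ^ (-s) ≤ 4 * C₁ / (s - 1) := fun S hS =>
    dirichlet_bound (fun n => ‖a n‖ ^ 2) (fun n => sq_nonneg _) C₁ (by linarith) hmean hs hs2 S hS
  -- truncated products
  have hK : ∀ K : ℕ,
      ∏ p ∈ T, ((1 - X p ^ 2) * ∑ k ∈ Finset.range (K + 1),
        (‖a p‖ ^ 2 * X p) ^ k / (k.factorial : ℝ)) ≤ 4 * C₁ / (s - 1) := by
    intro K
    obtain ⟨S, hS, hprod⟩ := euler_prod_eq a hf.one s K T (fun p hp => (hT p hp).1)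
      (fun p hp => qCoeff_pow_mul hf (hT p hp).1 (hT p hp).2)
    refine le_trans ?_ (le_trans (le_of_eq hprod) (hD S fun n hn => (hS n hn).1))
    refine Finset.prod_le_prod (fun p hp => ?_) (fun p hp => ?_)
    · have hx := hXhalf p hp
      have hx0 := (hXpos p hp).le
      refine mul_nonneg (by nlinarith) (Finset.sum_nonneg fun k _ => ?_)
      exact div_nonneg (pow_nonneg (mul_nonneg (sq_nonneg _) hx0) k) (Nat.cast_nonneg _)
    · have hp' := (hT p hp).1
      have hpN := (hT p hp).2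
      have := local_ineq (a := a p) (e := ε (p : ZMod N)) (h := fun k => a (p ^ k))
        (norm_eps_eq_one ε hp' hpN) (by simp [ha, hf.one]) (by simp [ha])
        (fun k => qCoeff_pow_rec hf hp' hpN k) (hXpos p hp).le
        (le_trans (hXhalf p hp) (by norm_num)) K
      exact this
  -- limit K → ∞
  have hlim : ∏ p ∈ T, ((1 - X p ^ 2) * Real.exp (‖a p‖ ^ 2 * X p)) ≤ 4 * C₁ / (s - 1) := by
    have ht : Tendsto (fun K : ℕ => ∏ p ∈ T, ((1 - X p ^ 2) *
        ∑ k ∈ Finset.range (K + 1), (‖a p‖ ^ 2 * X p) ^ k / (k.factorial : ℝ))) atTop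
        (𝓝 (∏ p ∈ T, ((1 - X p ^ 2) * Real.exp (‖a p‖ ^ 2 * X p)))) :=
      tendsto_finsetProd T fun p _ => tendsto_const_nhds.mul (tendsto_expPartial _)
    exact le_of_tendsto' ht hK
  rw [Finset.prod_mul_distrib, ← Real.exp_sum] at hlim
  -- lower bound for the product of the `1 - X^2`
  have hsumX : ∑ p ∈ T, X p ^ 2 ≤ 4 := by
    have h1 : ∀ p ∈ T, X p ^ 2 ≤ (1:ℝ) * (p : ℝ) ^ (-(2:ℝ)) := by
      intro p hp
      have hp1 : (1 : ℝ) ≤ p := by exact_mod_cast (hT p hp).1.one_le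
      have hp0 : (0 : ℝ) ≤ p := by linarith
      simp only [hX]
      rw [← Real.rpow_natCast, ← Real.rpow_mul hp0, one_mul]
      exact Real.rpow_le_rpow_of_exponent_le hp1 (by push_cast; linarith)
    have h2 := dirichlet_bound (fun _ => (1:ℝ)) (fun _ => zero_le_one) 1 zero_le_one
      (fun M => by simp) (s := 2) (by norm_num) le_rfl T (fun p hp => (hT p hp).1.pos)
    refine le_trans (Finset.sum_le_sum h1) (le_trans h2 (by norm_num))
  have hprodX : Real.exp (-8) ≤ ∏ p ∈ T, (1 - X p ^ 2) := by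
    have h1 : ∀ p ∈ T, Real.exp (-(2 * X p ^ 2)) ≤ 1 - X p ^ 2 := by
      intro p hp
      have hx := hXhalf p hp
      have hx0 := (hXpos p hp).le
      exact one_sub_ge_exp (sq_nonneg _) (by nlinarith)
    have h2 : ∏ p ∈ T, Real.exp (-(2 * X p ^ 2)) ≤ ∏ p ∈ T, (1 - X p ^ 2) :=
      Finset.prod_le_prod (fun p _ => (Real.exp_pos _).le) h1
    rw [← Real.exp_sum] at h2
    refine le_trans ?_ h2
    rw [Real.exp_le_exp, Finset.sum_neg_distrib, ← Finset.mul_sum]
    linarith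
  -- conclusion
  have hE : 0 < Real.exp (∑ p ∈ T, ‖a p‖ ^ 2 * X p) := Real.exp_pos _
  have h8 : 0 < Real.exp (-8) := Real.exp_pos _
  have hmain : Real.exp (∑ p ∈ T, ‖a p‖ ^ 2 * X p) ≤ 4 * C₁ * Real.exp 8 * (1 / (s - 1)) := by
    have h1 : Real.exp (-8) * Real.exp (∑ p ∈ T, ‖a p‖ ^ 2 * X p) ≤ 4 * C₁ / (s - 1) :=
      le_trans (mul_le_mul_of_nonneg_right hprodX hE.le) hlim
    have h2 : Real.exp 8 * Real.exp (-8) = 1 := by rw [← Real.exp_add]; simp
    calc Real.exp (∑ p ∈ T, ‖a p‖ ^ 2 * X p)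
        = Real.exp 8 * (Real.exp (-8) * Real.exp (∑ p ∈ T, ‖a p‖ ^ 2 * X p)) := by
          rw [← mul_assoc, h2, one_mul]
      _ ≤ Real.exp 8 * (4 * C₁ / (s - 1)) :=
          mul_le_mul_of_nonneg_left h1 (Real.exp_pos _).le
      _ = 4 * C₁ * Real.exp 8 * (1 / (s - 1)) := by ring
  have hlog := Real.log_le_log hE hmain
  rw [Real.log_exp] at hlog
  have h4C : (0 : ℝ) < 4 * C₁ := by linarith
  have hinv : (0 : ℝ) < 1 / (s - 1) := by positivity
  rw [Real.log_mul (by positivity) hinv.ne', Real.log_mul h4C.ne' (Real.exp_pos _).ne',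
    Real.log_exp] at hlog
  have hgoal : ∑ p ∈ T, ‖ModularFormClass.qCoeff f p‖ ^ 2 * (p : ℝ) ^ (-s)
      = ∑ p ∈ T, ‖a p‖ ^ 2 * X p := rfl
  rw [hgoal]
  linarith

end Fermat.Agent.S48.H55
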