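import Fermat.Agent.S48.H55_Irr
import Fermat.Agent.S48.H55_Rankin

/-!
# S48, leaf Irr (helper55): `Stmt_Cheb → Stmt_Irr`

`Stmt_Rankin` is proved (`H55.stmt_Rankin`), so irreducibility only depends on Chebotarev.
-/

set_option autoImplicit false

namespace Fermat.Agent.S48.H55

/-- **Irr** from **Chebotarev** alone. -/
theorem stmt_Irr_of_cheb (hCh : Stmt_Cheb) : Stmt_Irr :=
  stmt_Irr_of stmt_Rankin hCh

end Fermat.Agent.S48.H55
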