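import Mathlib
import Fermat.Agent.S48.Defs
import Fermat.Agent.Lib.FrobDensity.H31_DegOne
import Fermat.Agent.S29.H33_AlgClosed

/-!
# S48 (Deligne–Serre), leaf DegOne (helper78)

`stmt_DegOne : Stmt_DegOne`: for a number field `K ⊆ ℂ` there are arbitrarily large primes `ℓ`
such that every algebraically closed field of characteristic `ℓ` receives a residue map of
`ℤ̄ = integralClosure ℤ ℂ` sending the integers of `K` into the prime field.

Route: a prime `v` of `𝓞 K` of absolute degree one and norm `ℓ ≥ B` (the sum over the degree one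
primes diverges: `Lib/FrobDensity/H31_DegOne`), a maximal ideal `Q` of `ℤ̄` over `v` (lying over),
`ℤ̄ ⧸ Q` is algebraic over `𝔽_ℓ`, hence embeds into `k`.
-/

set_option autoImplicit false
set_option linter.style.haveILetI false

namespace Fermat.Agent.S48.H78

open NumberField IsDedekindDomain Filter Topology

section DegOnePrime

variable (K : Type*) [Field K] [NumberField K]

/-- There are primes of absolute degree one of arbitrarily large norm. -/
theorem exists_degOne_prime (B : ℕ) :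
    ∃ v : HeightOneSpectrum (𝓞 K),
      (Ideal.absNorm v.asIdeal).Prime ∧ B ≤ Ideal.absNorm v.asIdeal := by
  classical
  set Bad : Set (HeightOneSpectrum (𝓞 K)) := {v | Ideal.absNorm v.asIdeal ≤ B} with hBaddef
  have hBad : Bad.Finite := by
    have h1 := Ideal.finite_setOfPred_absNorm_le (S := 𝓞 K) B
    refine Set.Finite.of_finite_image (f := fun v : HeightOneSpectrum (𝓞 K) => v.asIdeal)
      (h1.subset ?_) ?_
    · rintro I ⟨v, hv, rfl⟩
      exact hv
    · intro v _ w _ h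
      exact HeightOneSpectrum.ext h
  obtain ⟨C, hC⟩ := Fermat.Agent.Lib.FrobDensity.H31.exists_bound_goodDegOne K hBad
  by_contra hcon
  push Not at hcon
  have hempty : IsEmpty (Fermat.Agent.Lib.FrobDensity.H31.goodDegOne K Bad) := by
    constructor
    rintro ⟨v, hv1, hv2⟩
    exact hv2 (le_of_lt (hcon v hv1))
  have hzero : ∀ s : ℝ, ∑' v : Fermat.Agent.Lib.FrobDensity.H31.goodDegOne K Bad,
      Fermat.Agent.Lib.ZetaPrimes.primeTerm K s v = 0 := fun s => tsum_empty
  have hlarge : ∀ᶠ s in 𝓝[>] (1 : ℝ), C < Real.log (1 / (s - 1)) := by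
    have hδ : (0 : ℝ) < Real.exp (-(C + 1)) := Real.exp_pos _
    have hmem : Set.Ioo (1 : ℝ) (1 + Real.exp (-(C + 1))) ∈ 𝓝[>] (1 : ℝ) :=
      Ioo_mem_nhdsGT (by linarith)
    filter_upwards [hmem] with s hs
    obtain ⟨h1, h2⟩ := hs
    have hpos : 0 < s - 1 := by linarith
    have hlt : s - 1 < Real.exp (-(C + 1)) := by linarith
    have := Real.log_lt_log hpos hlt
    rw [Real.log_exp] at this
    rw [one_div, Real.log_inv]
    linarith
  obtain ⟨s, hs1, hs2⟩ := (hC.and hlarge).exists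
  rw [hzero, zero_sub, abs_neg] at hs1
  have := le_abs_self (Real.log (1 / (s - 1)))
  linarith

end DegOnePrime

/-- The characteristic of a field in which the prime `ℓ` vanishes. -/
theorem charP_of_prime_cast_eq_zero {F : Type*} [Field F] {ℓ : ℕ} (hℓ : ℓ.Prime)
    (h : (ℓ : F) = 0) : CharP F ℓ := by
  obtain ⟨p, hp⟩ := CharP.exists F
  have hdvd : p ∣ ℓ := (CharP.cast_eq_zero_iff F p ℓ).mp h
  rcases (Nat.dvd_prime hℓ).mp hdvd with h1 | h1
  · exfalso
    subst h1
    exact CharP.char_ne_one F 1 rfl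
  · subst h1
    exact hp

theorem stmt_DegOne : Stmt_DegOne := by
  intro K hK B
  haveI : NumberField K := { to_charZero := inferInstance, to_finiteDimensional := hK }
  obtain ⟨v, hvp, hvB⟩ := exists_degOne_prime K B
  set ℓ : ℕ := Ideal.absNorm v.asIdeal with hℓ
  refine ⟨ℓ, hvp, hvB, ?_⟩
  intro k _ _ _
  haveI : Fact ℓ.Prime := ⟨hvp⟩
  -- the inclusion `𝓞 K → ℤ̄`
  let f : 𝓞 K →ₐ[ℤ] ℂ := ((IntermediateField.val K).restrictScalars ℤ).comp
    (IsScalarTower.toAlgHom ℤ (𝓞 K) K)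
  have hfint : ∀ x : 𝓞 K, f x ∈ integralClosure ℤ ℂ := by
    intro x
    have hx : IsIntegral ℤ (algebraMap (𝓞 K) K x) := RingOfIntegers.isIntegral_coe x
    exact hx.map ((IntermediateField.val K).restrictScalars ℤ)
  let ι : 𝓞 K →ₐ[ℤ] integralClosure ℤ ℂ := f.codRestrict (integralClosure ℤ ℂ) hfint
  have hι : ∀ x : 𝓞 K, ((ι x : integralClosure ℤ ℂ) : ℂ) = ((algebraMap (𝓞 K) K x : K) : ℂ) :=
    fun x => rfl
  have hιinj : Function.Injective ι := by
    intro x y hxy
    have h1 : ((algebraMap (𝓞 K) K x : K) : ℂ) = ((algebraMap (𝓞 K) K y : K) : ℂ) := by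
      rw [← hι, ← hι, hxy]
    have h2 : algebraMap (𝓞 K) K x = algebraMap (𝓞 K) K y := Subtype.ext h1
    exact RingOfIntegers.coe_injective h2
  letI : Algebra (𝓞 K) (integralClosure ℤ ℂ) := ι.toRingHom.toAlgebra
  haveI : IsScalarTower ℤ (𝓞 K) (integralClosure ℤ ℂ) :=
    IsScalarTower.of_algebraMap_eq fun z => by
      rw [RingHom.algebraMap_toAlgebra]
      exact (ι.commutes z).symm
  haveI : Algebra.IsIntegral (𝓞 K) (integralClosure ℤ ℂ) :=
    ⟨fun x => (Algebra.IsIntegral.isIntegral (R := ℤ) x).tower_top⟩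
  haveI hvmax : v.asIdeal.IsMaximal := v.isMaximal
  have hker : RingHom.ker (algebraMap (𝓞 K) (integralClosure ℤ ℂ)) ≤ v.asIdeal := by
    intro x hx
    rw [RingHom.mem_ker] at hx
    have : x = 0 := hιinj (by rw [map_zero]; exact hx)
    rw [this]
    exact zero_mem _
  obtain ⟨Q, hQmax, hQ⟩ := Ideal.exists_ideal_over_maximal_of_isIntegral v.asIdeal hker
  haveI := hQmax
  letI : Field ((integralClosure ℤ ℂ) ⧸ Q) := Ideal.Quotient.field Q
  -- `ℓ ∈ Q`
  have hℓv : (ℓ : 𝓞 K) ∈ v.asIdeal := Ideal.absNorm_mem v.asIdeal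
  have hℓQ : ((ℓ : ℕ) : integralClosure ℤ ℂ) ∈ Q := by
    have h1 : (ℓ : 𝓞 K) ∈ Q.comap (algebraMap (𝓞 K) (integralClosure ℤ ℂ)) := by rw [hQ]; exact hℓv
    rw [Ideal.mem_comap, map_natCast] at h1
    exact h1
  haveI hchar : CharP ((integralClosure ℤ ℂ) ⧸ Q) ℓ := by
    apply charP_of_prime_cast_eq_zero hvp
    have : ((ℓ : ℕ) : (integralClosure ℤ ℂ) ⧸ Q) = Ideal.Quotient.mk Q ((ℓ : ℕ) : integralClosure ℤ ℂ) :=
      (map_natCast _ _).symm
    rw [this, Ideal.Quotient.eq_zero_iff_mem]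
    exact hℓQ
  letI : Algebra (ZMod ℓ) ((integralClosure ℤ ℂ) ⧸ Q) := ZMod.algebra _ ℓ
  letI : Algebra (ZMod ℓ) k := ZMod.algebra _ ℓ
  haveI : Algebra.IsAlgebraic (ZMod ℓ) ((integralClosure ℤ ℂ) ⧸ Q) := by
    haveI : Algebra.IsIntegral ℤ ((integralClosure ℤ ℂ) ⧸ Q) := by
      constructor
      intro x
      obtain ⟨y, rfl⟩ := Ideal.Quotient.mk_surjective x
      exact (Algebra.IsIntegral.isIntegral (R := ℤ) y).map (Ideal.Quotient.mkₐ ℤ Q)
    constructor
    intro x
    exact ((Algebra.IsIntegral.isIntegral (R := ℤ) x).tower_top (A := ZMod ℓ)).isAlgebraic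
  let j : ((integralClosure ℤ ℂ) ⧸ Q) →ₐ[ZMod ℓ] k := IsAlgClosed.lift
  refine ⟨j.toRingHom.comp (Ideal.Quotient.mk Q), ?_⟩
  intro x hx
  -- the element of `𝓞 K` under `x`
  have hxint : IsIntegral ℤ (⟨(x : ℂ), hx⟩ : K) := by
    have h1 : IsIntegral ℤ ((IntermediateField.val K).restrictScalars ℤ ⟨(x : ℂ), hx⟩) := x.2
    exact (isIntegral_algHom_iff ((IntermediateField.val K).restrictScalars ℤ)
      (by exact Subtype.val_injective)).mp h1
  let y : 𝓞 K := ⟨⟨(x : ℂ), hx⟩, hxint⟩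
  have hy : ι y = x := Subtype.ext rfl
  -- Fermat in the residue field of `v`
  have hfer : y ^ ℓ - y ∈ v.asIdeal := by
    letI : Field (𝓞 K ⧸ v.asIdeal) := Ideal.Quotient.field v.asIdeal
    have hcard : Nat.card (𝓞 K ⧸ v.asIdeal) = ℓ := by
      rw [hℓ, Ideal.absNorm_apply, Submodule.cardQuot_apply]
    haveI : Finite (𝓞 K ⧸ v.asIdeal) := Nat.finite_of_card_ne_zero (by rw [hcard]; exact hvp.ne_zero)
    letI : Fintype (𝓞 K ⧸ v.asIdeal) := Fintype.ofFinite _
    have h1 := FiniteField.pow_card (Ideal.Quotient.mk v.asIdeal y)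
    rw [← Nat.card_eq_fintype_card, hcard] at h1
    rw [← Ideal.Quotient.eq_zero_iff_mem, map_sub, map_pow, h1, sub_self]
  have hQx : x ^ ℓ - x ∈ Q := by
    have h1 : y ^ ℓ - y ∈ Q.comap (algebraMap (𝓞 K) (integralClosure ℤ ℂ)) := by rw [hQ]; exact hfer
    rw [Ideal.mem_comap] at h1
    have h2 : algebraMap (𝓞 K) (integralClosure ℤ ℂ) (y ^ ℓ - y) = x ^ ℓ - x := by
      rw [map_sub, map_pow]
      show ι y ^ ℓ - ι y = _
      rw [hy]
    rwa [h2] at h1
  have h3 : Ideal.Quotient.mk Q x ^ ℓ = Ideal.Quotient.mk Q x := by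
    have := Ideal.Quotient.eq_zero_iff_mem.mpr hQx
    rw [map_sub, map_pow, sub_eq_zero] at this
    exact this
  show j (Ideal.Quotient.mk Q x) ^ ℓ = j (Ideal.Quotient.mk Q x)
  rw [← map_pow, h3]

end Fermat.Agent.S48.H78
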