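import Fermat.Agent.S48.Asm.Main
import Fermat.Agent.S48.B.H43_Wiring2
import Fermat.Agent.S48.B.H22_DirCharL
import Fermat.Agent.S48.B.H46_SmallPieceL
import Fermat.Agent.S48.B1.H55_B1Main
import Fermat.Agent.S48.B1.H22_Eis1
import Fermat.Agent.S48.B2.H55_Asm
import Fermat.Agent.S48.B2.H19_GALH

/-!
# S48: everything that is proved, in one statement (helper43)

`s48_of_eis1_tatePiece : B1.Stmt_Eis1 → B2.Stmt_TatePieceH' → (the frozen statement of S48)`.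

Proved inputs: `Int.H55.stmt_Int` (A), `B1.H55.stmt_EisLiftNeb_of_eis1` (B1 modulo Eis1),
`B.H46.stmt_SmallPieceL` (B3), `B.H22.stmt_DirCharL` (B4), `Asm.stmt_ChebSet`.
-/

set_option autoImplicit false

open CongruenceSubgroup
open scoped MatrixGroups

namespace Fermat.Agent.S48.H43

local notation "Γℚ" => (AlgebraicClosure ℚ ≃ₐ[ℚ] AlgebraicClosure ℚ)

/-- `Stmt_ResRep` from the two open inputs. -/
theorem resRep_of_eis1_tatePiece (hE : Fermat.Agent.S48.B1.Stmt_Eis1)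
    (hT : Fermat.Agent.S48.B2.Stmt_TatePieceH') : Fermat.Agent.S48.Stmt_ResRep :=
  Fermat.Agent.S48.B.H43.resRep_of' (Fermat.Agent.S48.B1.H55.stmt_EisLiftNeb_of_eis1 hE) hT
    Fermat.Agent.S48.B.H46.stmt_SmallPieceL Fermat.Agent.S48.B.H22.stmt_DirCharL
    Fermat.Agent.S48.Asm.stmt_ChebSet

/-- **S48 from `Eis1` and `TatePieceH'`.** -/
theorem s48_of_eis1_tatePiece (hE : Fermat.Agent.S48.B1.Stmt_Eis1)
    (hTP : Fermat.Agent.S48.B2.Stmt_TatePieceH')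
    (N : ℕ) [NeZero N] (ε : DirichletCharacter ℂ N) (f : CuspForm (Gamma1 N) 1)
    (hf₁ : ModularFormClass.qCoeff f 1 = 1)
    (hT : ∀ p : ℕ, p.Prime → ¬ p ∣ N → ∀ n : ℕ,
        ModularFormClass.qCoeff f (p * n) +
            ε (p : ZMod N) * (if p ∣ n then ModularFormClass.qCoeff f (n / p) else 0) =
          ModularFormClass.qCoeff f p * ModularFormClass.qCoeff f n) :
    ∃ ρ : Γℚ →* GL (Fin 2) ℂ, GaloisFactorsThroughFiniteLevel ρ ∧
      (Deformation.matrixRepresentation ρ).IsIrreducible ∧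
      ∀ p : ℕ, p.Prime → ¬ p ∣ N →
        ∀ A : ValuationSubring (AlgebraicClosure ℚ), A.LiesOverPrime p →
          (∀ σ ∈ A.inertiaSubgroupIn ℚ, ρ σ = 1) ∧
          ∀ σ : Γℚ, A.IsFrobeniusAt σ p →
            ((ρ σ : GL (Fin 2) ℂ) : Matrix (Fin 2) (Fin 2) ℂ).trace = ModularFormClass.qCoeff f p ∧
            ((ρ σ : GL (Fin 2) ℂ) : Matrix (Fin 2) (Fin 2) ℂ).det = ε (p : ZMod N) :=
  Fermat.Agent.S48.Asm.S48_of_int_resRep Fermat.Agent.S48.Int.H55.stmt_Int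
    (resRep_of_eis1_tatePiece hE hTP) N ε f hf₁ hT

/-- `Stmt_ResRep` from `TatePieceH'` alone (`Eis1` is proved: helper22). -/
theorem resRep_of_tatePiece (hT : Fermat.Agent.S48.B2.Stmt_TatePieceH') :
    Fermat.Agent.S48.Stmt_ResRep :=
  resRep_of_eis1_tatePiece Fermat.Agent.S48.B1.H22.stmt_Eis1 hT

/-- **S48 from `TatePieceH'` alone.** -/
theorem s48_of_tatePiece (hTP : Fermat.Agent.S48.B2.Stmt_TatePieceH')
    (N : ℕ) [NeZero N] (ε : DirichletCharacter ℂ N) (f : CuspForm (Gamma1 N) 1)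
    (hf₁ : ModularFormClass.qCoeff f 1 = 1)
    (hT : ∀ p : ℕ, p.Prime → ¬ p ∣ N → ∀ n : ℕ,
        ModularFormClass.qCoeff f (p * n) +
            ε (p : ZMod N) * (if p ∣ n then ModularFormClass.qCoeff f (n / p) else 0) =
          ModularFormClass.qCoeff f p * ModularFormClass.qCoeff f n) :
    ∃ ρ : Γℚ →* GL (Fin 2) ℂ, GaloisFactorsThroughFiniteLevel ρ ∧
      (Deformation.matrixRepresentation ρ).IsIrreducible ∧
      ∀ p : ℕ, p.Prime → ¬ p ∣ N →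
        ∀ A : ValuationSubring (AlgebraicClosure ℚ), A.LiesOverPrime p →
          (∀ σ ∈ A.inertiaSubgroupIn ℚ, ρ σ = 1) ∧
          ∀ σ : Γℚ, A.IsFrobeniusAt σ p →
            ((ρ σ : GL (Fin 2) ℂ) : Matrix (Fin 2) (Fin 2) ℂ).trace = ModularFormClass.qCoeff f p ∧
            ((ρ σ : GL (Fin 2) ℂ) : Matrix (Fin 2) (Fin 2) ℂ).det = ε (p : ZMod N) :=
  s48_of_eis1_tatePiece Fermat.Agent.S48.B1.H22.stmt_Eis1 hTP N ε f hf₁ hT

/-- `TatePieceH'` from the two open slices T (`Stmt_EigH`) and R (`Stmt_TorsUnramH`,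
`Stmt_TorsESH`); G (helper19), ASM (helper55), B4 (helper22) are proved. -/
theorem tatePiece_of_slices (s s' : ℤ) (h : s' = 2 * s + 1)
    (hEig : Fermat.Agent.S48.B2.Stmt_EigH s s') (hUnr : Fermat.Agent.S48.B2.Stmt_TorsUnramH)
    (hES : Fermat.Agent.S48.B2.Stmt_TorsESH) : Fermat.Agent.S48.B2.Stmt_TatePieceH' :=
  Fermat.Agent.S48.B2.H55.asm s s' h hEig hUnr hES Fermat.Agent.S48.B2.H19.stmt_GALH
    Fermat.Agent.S48.B.H22.stmt_DirCharL

/-- **S48 from the slices T and R.** -/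
theorem s48_of_slices (s s' : ℤ) (h : s' = 2 * s + 1)
    (hEig : Fermat.Agent.S48.B2.Stmt_EigH s s') (hUnr : Fermat.Agent.S48.B2.Stmt_TorsUnramH)
    (hES : Fermat.Agent.S48.B2.Stmt_TorsESH)
    (N : ℕ) [NeZero N] (ε : DirichletCharacter ℂ N) (f : CuspForm (Gamma1 N) 1)
    (hf₁ : ModularFormClass.qCoeff f 1 = 1)
    (hT : ∀ p : ℕ, p.Prime → ¬ p ∣ N → ∀ n : ℕ,
        ModularFormClass.qCoeff f (p * n) +
            ε (p : ZMod N) * (if p ∣ n then ModularFormClass.qCoeff f (n / p) else 0) =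
          ModularFormClass.qCoeff f p * ModularFormClass.qCoeff f n) :
    ∃ ρ : Γℚ →* GL (Fin 2) ℂ, GaloisFactorsThroughFiniteLevel ρ ∧
      (Deformation.matrixRepresentation ρ).IsIrreducible ∧
      ∀ p : ℕ, p.Prime → ¬ p ∣ N →
        ∀ A : ValuationSubring (AlgebraicClosure ℚ), A.LiesOverPrime p →
          (∀ σ ∈ A.inertiaSubgroupIn ℚ, ρ σ = 1) ∧
          ∀ σ : Γℚ, A.IsFrobeniusAt σ p →
            ((ρ σ : GL (Fin 2) ℂ) : Matrix (Fin 2) (Fin 2) ℂ).trace = ModularFormClass.qCoeff f p ∧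
            ((ρ σ : GL (Fin 2) ℂ) : Matrix (Fin 2) (Fin 2) ℂ).det = ε (p : ZMod N) :=
  s48_of_tatePiece (tatePiece_of_slices s s' h hEig hUnr hES) N ε f hf₁ hT

/-- `TatePieceH'` from slice T in the form `Stmt_EigBot` (`H = ⊥`, the form helper1 proves) and
slice R. -/
theorem tatePiece_of_slices_bot (s s' : ℤ) (h : s' = 2 * s + 1)
    (hEig : Fermat.Agent.S48.B2.Stmt_EigBot s s') (hUnr : Fermat.Agent.S48.B2.Stmt_TorsUnramH)
    (hES : Fermat.Agent.S48.B2.Stmt_TorsESH) : Fermat.Agent.S48.B2.Stmt_TatePieceH' :=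
  Fermat.Agent.S48.B2.H55.asm_bot s s' h hEig hUnr hES Fermat.Agent.S48.B2.H19.stmt_GALH
    Fermat.Agent.S48.B.H22.stmt_DirCharL

/-- **S48 from the slices T (`H = ⊥`) and R.** -/
theorem s48_of_slices_bot (s s' : ℤ) (h : s' = 2 * s + 1)
    (hEig : Fermat.Agent.S48.B2.Stmt_EigBot s s') (hUnr : Fermat.Agent.S48.B2.Stmt_TorsUnramH)
    (hES : Fermat.Agent.S48.B2.Stmt_TorsESH)
    (N : ℕ) [NeZero N] (ε : DirichletCharacter ℂ N) (f : CuspForm (Gamma1 N) 1)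
    (hf₁ : ModularFormClass.qCoeff f 1 = 1)
    (hT : ∀ p : ℕ, p.Prime → ¬ p ∣ N → ∀ n : ℕ,
        ModularFormClass.qCoeff f (p * n) +
            ε (p : ZMod N) * (if p ∣ n then ModularFormClass.qCoeff f (n / p) else 0) =
          ModularFormClass.qCoeff f p * ModularFormClass.qCoeff f n) :
    ∃ ρ : Γℚ →* GL (Fin 2) ℂ, GaloisFactorsThroughFiniteLevel ρ ∧
      (Deformation.matrixRepresentation ρ).IsIrreducible ∧
      ∀ p : ℕ, p.Prime → ¬ p ∣ N →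
        ∀ A : ValuationSubring (AlgebraicClosure ℚ), A.LiesOverPrime p →
          (∀ σ ∈ A.inertiaSubgroupIn ℚ, ρ σ = 1) ∧
          ∀ σ : Γℚ, A.IsFrobeniusAt σ p →
            ((ρ σ : GL (Fin 2) ℂ) : Matrix (Fin 2) (Fin 2) ℂ).trace = ModularFormClass.qCoeff f p ∧
            ((ρ σ : GL (Fin 2) ℂ) : Matrix (Fin 2) (Fin 2) ℂ).det = ε (p : ZMod N) :=
  s48_of_tatePiece (tatePiece_of_slices_bot s s' h hEig hUnr hES) N ε f hf₁ hT

end Fermat.Agent.S48.H43
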