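import Mathlib

/-!
# S48, leaf E (helper55): linear algebra of `2 × 2` matrices

Elementary facts used in the proof of `Stmt_GroupBound`:
* a matrix killing two independent vectors is zero;
* a nonzero matrix has a kernel of dimension at most one;
* matrices with a common eigenbasis commute; trace in an eigenbasis;
* Cayley–Hamilton;
* the trace form `x ↦ (tr (x b_i))_i` is injective for a basis `b`.
-/

set_option autoImplicit false
set_option linter.style.haveILetI false

namespace Fermat.Agent.S48.H55

open Matrix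

variable {k : Type} [Field k]

/-- A `2 × 2` matrix killing two independent vectors is zero. -/
theorem mat_eq_zero_of_pair (u : Matrix (Fin 2) (Fin 2) k) (v w : Fin 2 → k)
    (hvw : LinearIndependent k ![v, w]) (hv : u.mulVec v = 0) (hw : u.mulVec w = 0) : u = 0 := by
  have hspan : Submodule.span k (Set.range ![v, w]) = ⊤ :=
    hvw.span_eq_top_of_card_eq_finrank' (by simp)
  have h1 : Matrix.toLin' u = 0 := by
    apply LinearMap.ext_on_range hspan
    intro i
    fin_cases i
    · simpa [Matrix.toLin'_apply] using hv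
    · simpa [Matrix.toLin'_apply] using hw
  exact (LinearEquiv.map_eq_zero_iff Matrix.toLin').mp h1

/-- The kernel of a nonzero `2 × 2` matrix has dimension at most one. -/
theorem exists_smul_of_ker (u : Matrix (Fin 2) (Fin 2) k) (hu : u ≠ 0) (v v' : Fin 2 → k)
    (hv0 : v ≠ 0) (hv : u.mulVec v = 0) (hv' : u.mulVec v' = 0) : ∃ c : k, v' = c • v := by
  by_contra hcon
  rw [not_exists] at hcon
  apply hu
  refine mat_eq_zero_of_pair u v v' ?_ hv hv'
  rw [LinearIndependent.pair_iff]
  intro s t hst
  have ht : t = 0 := by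
    by_contra ht
    apply hcon (-(s / t))
    have h1 : t • v' = -(s • v) := by
      rw [eq_neg_iff_add_eq_zero, add_comm]
      exact hst
    have h2 : v' = t⁻¹ • (t • v') := by rw [smul_smul, inv_mul_cancel₀ ht, one_smul]
    rw [h2, h1, smul_neg, smul_smul, neg_smul, div_eq_inv_mul, mul_comm]
  refine ⟨?_, ht⟩
  rw [ht, zero_smul, add_zero] at hst
  exact (smul_eq_zero.mp hst).resolve_right hv0

/-- Matrices with a common eigenbasis commute. -/
theorem comm_of_common_eigenbasis (x y : Matrix (Fin 2) (Fin 2) k) (v w : Fin 2 → k)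
    (hvw : LinearIndependent k ![v, w]) (a b a' b' : k)
    (hxv : x.mulVec v = a • v) (hxw : x.mulVec w = b • w)
    (hyv : y.mulVec v = a' • v) (hyw : y.mulVec w = b' • w) : x * y = y * x := by
  rw [← sub_eq_zero]
  apply mat_eq_zero_of_pair _ v w hvw
  · rw [Matrix.sub_mulVec, ← Matrix.mulVec_mulVec, ← Matrix.mulVec_mulVec, hyv, hxv,
      Matrix.mulVec_smul, Matrix.mulVec_smul, hxv, hyv, smul_smul, smul_smul, mul_comm, sub_self]
  · rw [Matrix.sub_mulVec, ← Matrix.mulVec_mulVec, ← Matrix.mulVec_mulVec, hyw, hxw,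
      Matrix.mulVec_smul, Matrix.mulVec_smul, hxw, hyw, smul_smul, smul_smul, mul_comm, sub_self]

/-- An eigenvalue is a root of the characteristic polynomial. -/
theorem eigen_root (x : Matrix (Fin 2) (Fin 2) k) (v : Fin 2 → k) (hv : v ≠ 0) (a : k)
    (h : x.mulVec v = a • v) : a * a - x.trace * a + x.det = 0 := by
  have h1 : (x - Matrix.scalar (Fin 2) a).det = 0 := by
    rw [← Matrix.exists_mulVec_eq_zero_iff]
    refine ⟨v, hv, ?_⟩
    rw [Matrix.sub_mulVec, h]
    ext i
    fin_cases i <;> simp [Matrix.scalar, Matrix.diagonal]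
  rw [Matrix.det_fin_two] at h1
  simp only [Matrix.sub_apply, Matrix.scalar_apply, Matrix.diagonal_apply_eq,
    Matrix.diagonal_apply_ne, ne_eq, Fin.zero_eq_one_iff, Fin.one_eq_zero_iff,
    OfNat.ofNat_ne_one, not_false_eq_true, sub_zero] at h1
  rw [Matrix.trace_fin_two, Matrix.det_fin_two]
  linear_combination h1

/-- The trace in an eigenbasis. -/
theorem trace_of_eigenbasis (x : Matrix (Fin 2) (Fin 2) k) (v w : Fin 2 → k)
    (hvw : LinearIndependent k ![v, w]) (a b : k)
    (hxv : x.mulVec v = a • v) (hxw : x.mulVec w = b • w) : x.trace = a + b := by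
  have hv0 : v ≠ 0 := hvw.ne_zero 0
  have hw0 : w ≠ 0 := hvw.ne_zero 1
  by_cases hab : a = b
  · subst hab
    have h1 : x - Matrix.scalar (Fin 2) a = 0 := by
      apply mat_eq_zero_of_pair _ v w hvw
      · rw [Matrix.sub_mulVec, hxv]
        ext i
        fin_cases i <;> simp [Matrix.scalar, Matrix.diagonal]
      · rw [Matrix.sub_mulVec, hxw]
        ext i
        fin_cases i <;> simp [Matrix.scalar, Matrix.diagonal]
    have h2 : x = Matrix.scalar (Fin 2) a := sub_eq_zero.mp h1
    rw [h2, Matrix.trace_fin_two]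
    simp [Matrix.scalar]
  · have h1 := eigen_root x v hv0 a hxv
    have h2 := eigen_root x w hw0 b hxw
    have h3 : (a - b) * (a + b - x.trace) = 0 := by linear_combination h1 - h2
    rcases mul_eq_zero.mp h3 with h4 | h4
    · exact absurd (sub_eq_zero.mp h4) hab
    · exact (sub_eq_zero.mp h4).symm

/-- Cayley–Hamilton for `2 × 2` matrices. -/
theorem cayley_hamilton_two (x : Matrix (Fin 2) (Fin 2) k) :
    x * x = x.trace • x - x.det • (1 : Matrix (Fin 2) (Fin 2) k) := by
  ext i j
  fin_cases i <;> fin_cases j <;>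
    simp [Matrix.mul_apply, Fin.sum_univ_two, Matrix.trace_fin_two, Matrix.det_fin_two] <;> ring

/-- A nonzero matrix has a nonzero column. -/
theorem exists_mulVec_single_ne_zero (u : Matrix (Fin 2) (Fin 2) k) (hu : u ≠ 0) :
    ∃ j : Fin 2, u.mulVec (Pi.single j 1) ≠ 0 := by
  by_contra hcon
  simp only [not_exists, not_not] at hcon
  apply hu
  ext i j
  have h1 := congrFun (hcon j) i
  simpa using h1

/-- The trace form is nondegenerate: a matrix `x` with `tr (x * b i) = 0` for the members of a
family spanning all matrices is zero. -/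
theorem eq_zero_of_trace_mul_eq_zero (b : Fin 4 → Matrix (Fin 2) (Fin 2) k)
    (hb : LinearIndependent k b) (x : Matrix (Fin 2) (Fin 2) k)
    (hx : ∀ i, (x * b i).trace = 0) : x = 0 := by
  have hspan : Submodule.span k (Set.range b) = ⊤ :=
    hb.span_eq_top_of_card_eq_finrank' (by
      rw [Module.finrank_matrix]
      simp)
  let L : Matrix (Fin 2) (Fin 2) k →ₗ[k] k :=
    (Matrix.traceLinearMap (Fin 2) k k).comp (LinearMap.mulLeft k x)
  have hL : L = 0 := by
    apply LinearMap.ext_on_range hspan
    intro i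
    simpa [L] using hx i
  have hall : ∀ m : Matrix (Fin 2) (Fin 2) k, (x * m).trace = 0 := by
    intro m
    have := LinearMap.congr_fun hL m
    simpa [L] using this
  ext i j
  have h1 := hall (Matrix.single j i 1)
  rw [Matrix.trace_fin_two] at h1
  fin_cases i <;> fin_cases j <;>
    simpa [Matrix.mul_apply, Fin.sum_univ_two, Matrix.single_apply] using h1

end Fermat.Agent.S48.H55
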