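import Fermat.Agent.S48.Defs
import Fermat.Agent.S48.H55_GroupBoundLin

/-!
# S48, leaf E (helper55): structure of a semisimple subgroup of `GL₂(k)` not spanning `M₂(k)`

* `abelian_of_not_span` : if no four elements of the semisimple group `G` are linearly
  independent, then `G` is commutative;
* `eq_or_eq_of_charpoly_eq` : two elements of a commutative semisimple group with the same trace
  and determinant are equal or conjugate to each other (`h = tr g - g`).
-/

set_option autoImplicit false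
set_option linter.style.haveILetI false

namespace Fermat.Agent.S48.H55

open Matrix

variable {k : Type} [Field k]

/-- If `1, g, h` are linearly dependent then `g` and `h` commute. -/
theorem comm_of_dep3 (g h : Matrix (Fin 2) (Fin 2) k) (c0 c1 c2 : k)
    (hc : ¬ (c0 = 0 ∧ c1 = 0 ∧ c2 = 0))
    (hrel : c0 • (1 : Matrix (Fin 2) (Fin 2) k) + c1 • g + c2 • h = 0) : g * h = h * g := by
  by_cases h2 : c2 = 0
  · by_cases h1 : c1 = 0
    · exfalso
      rw [h1, h2, zero_smul, zero_smul, add_zero, add_zero] at hrel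
      have h0 : c0 = 0 := by
        have := congrFun (congrFun hrel 0) 0
        simpa using this
      exact hc ⟨h0, h1, h2⟩
    · have hg : g = (-(c0 / c1)) • (1 : Matrix (Fin 2) (Fin 2) k) := by
        rw [h2, zero_smul, add_zero] at hrel
        have h3 : c1 • g = -(c0 • (1 : Matrix (Fin 2) (Fin 2) k)) := by
          rw [eq_neg_iff_add_eq_zero, add_comm]
          exact hrel
        have h4 : g = c1⁻¹ • (c1 • g) := by rw [smul_smul, inv_mul_cancel₀ h1, one_smul]
        rw [h4, h3, smul_neg, smul_smul, neg_smul, div_eq_inv_mul]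
      rw [hg]
      simp
  · have hh : h = (-(c0 / c2)) • (1 : Matrix (Fin 2) (Fin 2) k) + (-(c1 / c2)) • g := by
      have h3 : c2 • h = -(c0 • (1 : Matrix (Fin 2) (Fin 2) k) + c1 • g) := by
        rw [eq_neg_iff_add_eq_zero, add_comm]
        exact hrel
      have h4 : h = c2⁻¹ • (c2 • h) := by rw [smul_smul, inv_mul_cancel₀ h2, one_smul]
      rw [h4, h3, smul_neg, smul_add, smul_smul, smul_smul, neg_add, neg_smul, neg_smul,
        div_eq_inv_mul, div_eq_inv_mul]
    rw [hh]
    simp [mul_add, add_mul]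

/-- If `1, g, h, x` are linearly dependent and `g`, `h` do not commute, then `x` is a combination
of `1, g, h`. -/
theorem mem_span3_of_dep4 (g h x : Matrix (Fin 2) (Fin 2) k) (hgh : g * h ≠ h * g)
    (hdep : ¬ LinearIndependent k ![(1 : Matrix (Fin 2) (Fin 2) k), g, h, x]) :
    ∃ p q r : k, x = p • (1 : Matrix (Fin 2) (Fin 2) k) + q • g + r • h := by
  rw [Fintype.not_linearIndependent_iff] at hdep
  obtain ⟨c, hsum, hne⟩ := hdep
  rw [Fin.sum_univ_four] at hsum
  simp only [Matrix.cons_val_zero, Matrix.cons_val_one, Matrix.cons_val_two,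
    Matrix.cons_val_three, Matrix.head_cons, Matrix.tail_cons] at hsum
  have hsum' : c 0 • (1 : Matrix (Fin 2) (Fin 2) k) + c 1 • g + c 2 • h + c 3 • x = 0 := hsum
  by_cases h3 : c 3 = 0
  · exfalso
    rw [h3, zero_smul, add_zero] at hsum'
    apply hgh
    refine comm_of_dep3 g h (c 0) (c 1) (c 2) ?_ hsum'
    rintro ⟨h0, h1, h2⟩
    obtain ⟨i, hi⟩ := hne
    fin_cases i
    · exact hi h0
    · exact hi h1
    · exact hi h2
    · exact hi h3
  · refine ⟨-(c 0 / c 3), -(c 1 / c 3), -(c 2 / c 3), ?_⟩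
    have h4 : c 3 • x = -(c 0 • (1 : Matrix (Fin 2) (Fin 2) k) + c 1 • g + c 2 • h) := by
      rw [eq_neg_iff_add_eq_zero, add_comm]
      exact hsum'
    have h5 : x = (c 3)⁻¹ • (c 3 • x) := by rw [smul_smul, inv_mul_cancel₀ h3, one_smul]
    rw [h5, h4, smul_neg, smul_add, smul_add, smul_smul, smul_smul, smul_smul, neg_add, neg_add,
      neg_smul, neg_smul, neg_smul, div_eq_inv_mul, div_eq_inv_mul, div_eq_inv_mul]

/-- A group all of whose elements have a common eigenbasis is commutative. -/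
theorem comm_of_stable_line (G : Subgroup (GL (Fin 2) k)) (hss : IsSemisimple2 G)
    (v : Fin 2 → k) (hv0 : v ≠ 0)
    (hv : ∀ g ∈ G, ∃ c : k, (g : Matrix (Fin 2) (Fin 2) k).mulVec v = c • v)
    (g h : GL (Fin 2) k) (hg : g ∈ G) (hh : h ∈ G) :
    (g : Matrix (Fin 2) (Fin 2) k) * h = h * g := by
  obtain ⟨w, hvw, hw⟩ := hss v hv0 hv
  obtain ⟨a, ha⟩ := hv g hg
  obtain ⟨b, hb⟩ := hw g hg
  obtain ⟨a', ha'⟩ := hv h hh
  obtain ⟨b', hb'⟩ := hw h hh
  exact comm_of_common_eigenbasis _ _ v w hvw a b a' b' ha hb ha' hb'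

/-- If no four elements of the semisimple group `G` are linearly independent, then `G` is
commutative. -/
theorem abelian_of_not_span (G : Subgroup (GL (Fin 2) k)) (hss : IsSemisimple2 G)
    (hns : ∀ b : Fin 4 → GL (Fin 2) k, (∀ i, b i ∈ G) →
      ¬ LinearIndependent k (fun i => ((b i : GL (Fin 2) k) : Matrix (Fin 2) (Fin 2) k)))
    (g h : GL (Fin 2) k) (hg : g ∈ G) (hh : h ∈ G) :
    (g : Matrix (Fin 2) (Fin 2) k) * h = h * g := by
  by_contra hgh
  -- any `x ∈ G` is a combination of `1, g, h`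
  have hspan : ∀ x : GL (Fin 2) k, x ∈ G → ∃ p q r : k, (x : Matrix (Fin 2) (Fin 2) k) =
      p • (1 : Matrix (Fin 2) (Fin 2) k) + q • (g : Matrix (Fin 2) (Fin 2) k) +
        r • (h : Matrix (Fin 2) (Fin 2) k) := by
    intro x hx
    apply mem_span3_of_dep4 _ _ _ hgh
    have h1 := hns ![1, g, h, x] (by
      intro i
      fin_cases i
      · exact G.one_mem
      · exact hg
      · exact hh
      · exact hx)
    have h2 : (fun i => ((![1, g, h, x] i : GL (Fin 2) k) : Matrix (Fin 2) (Fin 2) k)) =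
        ![(1 : Matrix (Fin 2) (Fin 2) k), (g : Matrix (Fin 2) (Fin 2) k),
          (h : Matrix (Fin 2) (Fin 2) k), (x : Matrix (Fin 2) (Fin 2) k)] := by
      funext i
      fin_cases i <;> rfl
    rw [h2] at h1
    exact h1
  obtain ⟨α, β, γ, hprod⟩ := hspan (g * h) (G.mul_mem hg hh)
  rw [Units.val_mul] at hprod
  set gm : Matrix (Fin 2) (Fin 2) k := (g : Matrix (Fin 2) (Fin 2) k) with hgm
  set hm : Matrix (Fin 2) (Fin 2) k := (h : Matrix (Fin 2) (Fin 2) k) with hhm
  set u : Matrix (Fin 2) (Fin 2) k := gm - γ • (1 : Matrix (Fin 2) (Fin 2) k) with hu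
  set u' : Matrix (Fin 2) (Fin 2) k := hm - β • (1 : Matrix (Fin 2) (Fin 2) k) with hu'
  have huu' : u * u' = (α + β * γ) • (1 : Matrix (Fin 2) (Fin 2) k) := by
    rw [hu, hu', sub_mul, mul_sub, mul_sub, hprod]
    simp only [Matrix.smul_mul, Matrix.mul_smul, Matrix.one_mul, Matrix.mul_one, smul_smul]
    rw [add_smul]
    abel
  have hcomm_of : u * u' = u' * u → False := by
    intro hc
    apply hgh
    have h1 : gm * hm - hm * gm = u * u' - u' * u := by
      rw [hu, hu']
      simp only [sub_mul, mul_sub, Matrix.smul_mul, Matrix.mul_smul, Matrix.one_mul,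
        Matrix.mul_one, smul_smul]
      rw [mul_comm γ β]
      abel
    rw [hc, sub_self, sub_eq_zero] at h1
    exact h1
  by_cases hc : α + β * γ = 0
  · -- a common eigenvector
    rw [hc, zero_smul] at huu'
    have hu'0 : u' ≠ 0 := by
      intro h0
      apply hcomm_of
      rw [h0, mul_zero, zero_mul]
    have hu0 : u ≠ 0 := by
      intro h0
      apply hcomm_of
      rw [h0, mul_zero, zero_mul]
    obtain ⟨j, hj⟩ := exists_mulVec_single_ne_zero u' hu'0
    set v : Fin 2 → k := u'.mulVec (Pi.single j 1) with hv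
    have huv : u.mulVec v = 0 := by
      rw [hv, Matrix.mulVec_mulVec, huu', Matrix.zero_mulVec]
    have hgv : gm.mulVec v = γ • v := by
      have h1 : u.mulVec v = gm.mulVec v - γ • v := by
        rw [hu, Matrix.sub_mulVec, Matrix.smul_mulVec, Matrix.one_mulVec]
      rw [h1, sub_eq_zero] at huv
      exact huv
    have hhu' : hm * u' = u' * hm := by
      rw [hu']
      simp only [sub_mul, mul_sub, Matrix.smul_mul, Matrix.mul_smul, Matrix.one_mul,
        Matrix.mul_one]
    have huhv : u.mulVec (hm.mulVec v) = 0 := by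
      rw [hv, Matrix.mulVec_mulVec, Matrix.mulVec_mulVec, mul_assoc, hhu',
        ← mul_assoc, huu', Matrix.zero_mul, Matrix.zero_mulVec]
    obtain ⟨c', hc'⟩ := exists_smul_of_ker u hu0 v (hm.mulVec v) hj huv huhv
    have hstable : ∀ x ∈ G, ∃ c : k, (x : Matrix (Fin 2) (Fin 2) k).mulVec v = c • v := by
      intro x hx
      obtain ⟨p, q, r, hx'⟩ := hspan x hx
      refine ⟨p + q * γ + r * c', ?_⟩
      rw [hx', Matrix.add_mulVec, Matrix.add_mulVec, Matrix.smul_mulVec, Matrix.smul_mulVec,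
        Matrix.smul_mulVec, Matrix.one_mulVec, hgv, hc', smul_smul, smul_smul, add_smul,
        add_smul]
    exact hgh (comm_of_stable_line G hss v hj hstable g h hg hh)
  · -- `u` is invertible with inverse a multiple of `u'`
    apply hcomm_of
    have h1 : u * ((α + β * γ)⁻¹ • u') = 1 := by
      rw [Matrix.mul_smul, huu', smul_smul, inv_mul_cancel₀ hc, one_smul]
    have h2 := mul_eq_one_comm.mp h1
    rw [Matrix.smul_mul] at h2
    have h3 : u' * u = (α + β * γ) • ((α + β * γ)⁻¹ • (u' * u)) := by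
      rw [smul_smul, mul_inv_cancel₀ hc, one_smul]
    rw [h3, h2, huu']

/-- In a commutative semisimple group, two elements with the same trace and determinant are
equal or conjugate to each other. -/
theorem eq_or_eq_of_charpoly_eq (G : Subgroup (GL (Fin 2) k)) (hss : IsSemisimple2 G)
    (hab : ∀ g ∈ G, ∀ h ∈ G,
      (g : Matrix (Fin 2) (Fin 2) k) * (h : Matrix (Fin 2) (Fin 2) k) = h * g)
    (g h : GL (Fin 2) k) (hg : g ∈ G) (hh : h ∈ G)
    (htr : (h : Matrix (Fin 2) (Fin 2) k).trace = (g : Matrix (Fin 2) (Fin 2) k).trace)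
    (hdet : (h : Matrix (Fin 2) (Fin 2) k).det = (g : Matrix (Fin 2) (Fin 2) k).det) :
    (h : Matrix (Fin 2) (Fin 2) k) = g ∨
      (h : Matrix (Fin 2) (Fin 2) k) =
        (g : Matrix (Fin 2) (Fin 2) k).trace • (1 : Matrix (Fin 2) (Fin 2) k) - g := by
  set gm : Matrix (Fin 2) (Fin 2) k := (g : Matrix (Fin 2) (Fin 2) k) with hgm
  set hm : Matrix (Fin 2) (Fin 2) k := (h : Matrix (Fin 2) (Fin 2) k) with hhm
  by_contra hcon
  rw [not_or] at hcon
  obtain ⟨hne1, hne2⟩ := hcon
  set u : Matrix (Fin 2) (Fin 2) k := hm - gm with hu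
  set u' : Matrix (Fin 2) (Fin 2) k := hm + gm - gm.trace • (1 : Matrix (Fin 2) (Fin 2) k)
    with hu'
  have hu0 : u ≠ 0 := fun h0 => hne1 (sub_eq_zero.mp h0)
  have hu'0 : u' ≠ 0 := by
    intro h0
    apply hne2
    rw [hu', sub_eq_zero] at h0
    rw [← h0]
    abel
  have hgh : gm * hm = hm * gm := hab g hg h hh
  have huu' : u * u' = 0 := by
    have h1 := cayley_hamilton_two gm
    have h2 := cayley_hamilton_two hm
    rw [htr, hdet] at h2
    rw [hu, hu']
    simp only [sub_mul, mul_sub, mul_add, add_mul, Matrix.smul_mul, Matrix.mul_smul,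
      Matrix.one_mul, Matrix.mul_one]
    rw [h1, h2, hgh]
    abel
  obtain ⟨j, hj⟩ := exists_mulVec_single_ne_zero u' hu'0
  set v : Fin 2 → k := u'.mulVec (Pi.single j 1) with hv
  have huv : u.mulVec v = 0 := by
    rw [hv, Matrix.mulVec_mulVec, huu', Matrix.zero_mulVec]
  have hstable : ∀ x ∈ G, ∃ c : k, (x : Matrix (Fin 2) (Fin 2) k).mulVec v = c • v := by
    intro x hx
    have hxu : u * (x : Matrix (Fin 2) (Fin 2) k) = (x : Matrix (Fin 2) (Fin 2) k) * u := by
      rw [hu, sub_mul, mul_sub, hab h hh x hx, hab g hg x hx]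
    have h1 : u.mulVec ((x : Matrix (Fin 2) (Fin 2) k).mulVec v) = 0 := by
      rw [Matrix.mulVec_mulVec, hxu, ← Matrix.mulVec_mulVec, huv, Matrix.mulVec_zero]
    obtain ⟨c, hc⟩ := exists_smul_of_ker u hu0 v _ hj huv h1
    exact ⟨c, hc⟩
  obtain ⟨w, hvw, hw⟩ := hss v hj hstable
  obtain ⟨b, hb⟩ := hw g hg
  obtain ⟨b', hb'⟩ := hw h hh
  have huw : u.mulVec w = (b' - b) • w := by
    rw [hu, Matrix.sub_mulVec, hb, hb', sub_smul]
  have htru : u.trace = 0 := by
    rw [hu, Matrix.trace_sub, htr, sub_self]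
  have h1 := trace_of_eigenbasis u v w hvw 0 (b' - b) (by rw [huv, zero_smul]) huw
  rw [htru, zero_add] at h1
  rw [← h1, zero_smul] at huw
  exact hu0 (mat_eq_zero_of_pair u v w hvw huv huw)

end Fermat.Agent.S48.H55
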