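import Mathlib
import Fermat.Agent.Lib.InertiaConj

/-!
# S48, leaf Irr (helper55): Frobenius elements over the same prime

`frob_conj_mod_inertia` : two Frobenius elements at places of `ℚ̄` over the same prime are
conjugate modulo inertia (the argument of helper64 in `S56/TWS/H64_Prime.lean`, repeated here on
top of `Lib/InertiaConj` only, to keep the import closure of S48 small).

`frob_value_unique` : a homomorphism to a commutative group which is trivial on the inertia
groups over `p` takes the same value on all Frobenius elements over `p`.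
-/

set_option autoImplicit false
set_option linter.style.haveILetI false
set_option linter.unusedSectionVars false

open scoped Pointwise

namespace Fermat.Agent.S48.H55

open Fermat.Agent.Lib.FrobIntegers Fermat.Agent.Lib.FrobExists
  Fermat.Agent.Lib.InertiaBridge Fermat.Agent.Lib.InertiaConj

local notation "Γℚ" => (AlgebraicClosure ℚ ≃ₐ[ℚ] AlgebraicClosure ℚ)

attribute [local instance] qbar_isAlgebraic qbar_isAlgClosure qbar_isGalois zbar_isInvariant
  zbarTopologicalSpace zbar_discreteTopology zbar_continuousSMul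

/-- The Frobenius congruence on elements, from `IsFrobeniusAt`. -/
theorem val_frob_sub_pow_lt_one (A : ValuationSubring (AlgebraicClosure ℚ))
    (σ : Γℚ) (ℓ : ℕ) (h : A.IsFrobeniusAt σ ℓ)
    (a : AlgebraicClosure ℚ) (ha : a ∈ A) : A.valuation (σ a - a ^ ℓ) < 1 := by
  obtain ⟨hσ, hx⟩ := h
  have h1 := hx (IsLocalRing.residue A ⟨a, ha⟩)
  rw [← IsLocalRing.ResidueField.residue_smul, ← map_pow, ← sub_eq_zero, ← map_sub,
    IsLocalRing.residue_eq_zero_iff, ← ValuationSubring.coe_mem_nonunits_iff,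
    A.mem_nonunits_iff] at h1
  exact h1

/-- The Frobenius congruence on algebraic integers. -/
theorem frob_sub_pow_mem_primeUnder (ℓ : ℕ) (A : ValuationSubring (AlgebraicClosure ℚ)) (φ : Γℚ)
    (hφ : A.IsFrobeniusAt φ ℓ) (b : ZBar) : φ • b - b ^ ℓ ∈ primeUnder A := by
  rw [mem_primeUnder]
  have hb : (b : AlgebraicClosure ℚ) ∈ A :=
    (A.valuation_le_one_iff _).1 (valuation_le_one_of_isIntegral A _ b.2)
  exact val_frob_sub_pow_lt_one A φ ℓ hφ _ hb

/-- Two Frobenius elements at places over the same prime are conjugate modulo inertia. -/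
theorem frob_conj_mod_inertia (ℓ : ℕ) (hℓ : ℓ.Prime)
    (A P : ValuationSubring (AlgebraicClosure ℚ)) (hA : A.LiesOverPrime ℓ)
    (hP : P.LiesOverPrime ℓ) (φ φ' : Γℚ) (hφ : A.IsFrobeniusAt φ ℓ)
    (hφ' : P.IsFrobeniusAt φ' ℓ) :
    ∃ g : Γℚ, (g * φ * g⁻¹)⁻¹ * φ' ∈ P.inertiaSubgroupIn ℚ := by
  obtain ⟨g, hg⟩ := exists_smul_primeUnder ℓ hℓ A P hA hP
  refine ⟨g, ?_⟩
  have hφstab : φ • primeUnder A = primeUnder A :=
    (mem_decompositionSubgroup_iff ℓ hℓ A hA φ).1 hφ.mem_decompositionSubgroup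
  set ψ : Γℚ := g * φ * g⁻¹ with hψ
  have hψstab : ψ • primeUnder P = primeUnder P := by
    rw [hg, hψ, mul_smul, mul_smul, inv_smul_smul, hφstab]
  have hψinv : ψ⁻¹ • primeUnder P = primeUnder P := by
    conv_lhs => rw [← hψstab]
    rw [inv_smul_smul]
  rw [mem_inertiaSubgroupIn_iff ℓ hℓ P hP]
  intro b
  have h1 : φ' • b - b ^ ℓ ∈ primeUnder P := frob_sub_pow_mem_primeUnder ℓ P φ' hφ' b
  have h2 : ψ • b - b ^ ℓ ∈ primeUnder P := by
    have h3 : φ • (g⁻¹ • b) - (g⁻¹ • b) ^ ℓ ∈ primeUnder A :=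
      frob_sub_pow_mem_primeUnder ℓ A φ hφ _
    have h4 : g • (φ • (g⁻¹ • b) - (g⁻¹ • b) ^ ℓ) ∈ g • primeUnder A :=
      Ideal.smul_mem_pointwise_smul_iff.2 h3
    rw [← hg] at h4
    have h5 : g • (φ • (g⁻¹ • b) - (g⁻¹ • b) ^ ℓ) = ψ • b - b ^ ℓ := by
      rw [smul_sub, smul_pow', smul_inv_smul, hψ, mul_smul, mul_smul]
    rw [h5] at h4
    exact h4
  have h6 : φ' • b - ψ • b ∈ primeUnder P := by
    have := (primeUnder P).sub_mem h1 h2
    rwa [sub_sub_sub_cancel_right] at this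
  have h7 : ψ⁻¹ • (φ' • b - ψ • b) ∈ ψ⁻¹ • primeUnder P :=
    Ideal.smul_mem_pointwise_smul_iff.2 h6
  rw [hψinv, smul_sub, inv_smul_smul, ← mul_smul] at h7
  exact h7

/-- A homomorphism to a commutative group which is trivial on inertia over `p` takes the same
value on all Frobenius elements over `p`. -/
theorem frob_value_unique {M : Type} [CommGroup M] (ψ : Γℚ →* M) (p : ℕ) (hp : p.Prime)
    (hunr : ∀ A : ValuationSubring (AlgebraicClosure ℚ), A.LiesOverPrime p →
      ∀ σ ∈ A.inertiaSubgroupIn ℚ, ψ σ = 1)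
    (A P : ValuationSubring (AlgebraicClosure ℚ)) (hA : A.LiesOverPrime p)
    (hP : P.LiesOverPrime p) (φ φ' : Γℚ) (hφ : A.IsFrobeniusAt φ p)
    (hφ' : P.IsFrobeniusAt φ' p) : ψ φ' = ψ φ := by
  obtain ⟨g, hg⟩ := frob_conj_mod_inertia p hp A P hA hP φ φ' hφ hφ'
  have h1 := hunr P hP _ hg
  rw [map_mul, map_inv, inv_mul_eq_one, map_mul, map_mul, map_inv] at h1
  rw [← h1]
  exact mul_inv_cancel_comm _ _

end Fermat.Agent.S48.H55
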