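import Mathlib

/-!
# S48, leaf Irr (helper55): the analytic contradiction

* `sum_sq_norm_one_add` : for a finite subgroup `H` of `ℂˣ`, `∑_{z ∈ H} ‖1 + z‖² ≥ 2 #H`;
* `rankin_cheb_absurd` : an upper bound `∑ ‖a_p‖² p^{-s} ≤ log (1/(s-1)) + C` is incompatible
  with lower bounds `∑_{p ∈ P z} p^{-s} ≥ (3/4) (1/#H) log (1/(s-1)) - C_z` on pairwise disjoint
  sets `P z` on which `‖a_p‖² = ‖1 + z‖²`.
-/

set_option autoImplicit false

namespace Fermat.Agent.S48.H55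

open Finset

/-- The elements of a finite subgroup of `ℂˣ` have norm one. -/
theorem norm_coe_eq_one_of_finite (H : Subgroup ℂˣ) [Fintype H] (z : H) :
    ‖((z : ℂˣ) : ℂ)‖ = 1 := by
  have h1 : z ^ Fintype.card H = 1 := pow_card_eq_one
  have h2 : (((z : ℂˣ) : ℂ)) ^ Fintype.card H = 1 := by
    have h3 : ((((z ^ Fintype.card H : H) : ℂˣ) : ℂ)) = 1 := by rw [h1]; rfl
    rw [← h3]
    push_cast
    rfl
  exact Complex.norm_eq_one_of_pow_eq_one h2 Fintype.card_ne_zero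

theorem sq_norm_one_add (z : ℂ) (hz : ‖z‖ = 1) : ‖1 + z‖ ^ 2 = 2 + 2 * z.re := by
  rw [Complex.sq_norm, Complex.normSq_add, Complex.normSq_one, ← Complex.sq_norm, hz, one_mul,
    Complex.conj_re]
  ring

/-- `∑_{z ∈ H} ‖1 + z‖² ≥ 2 #H` for a finite subgroup `H` of `ℂˣ`. -/
theorem sum_sq_norm_one_add (H : Subgroup ℂˣ) [Fintype H] :
    2 * (Fintype.card H : ℝ) ≤ ∑ z : H, ‖1 + ((z : ℂˣ) : ℂ)‖ ^ 2 := by
  classical
  let f : H →* ℂ := (Units.coeHom ℂ).comp H.subtype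
  have hf : ∀ z : H, f z = ((z : ℂˣ) : ℂ) := fun z => rfl
  have hsum : 0 ≤ (∑ z : H, ((z : ℂˣ) : ℂ)).re := by
    have h1 := sum_hom_units f
    simp only [hf] at h1
    rw [h1]
    split_ifs
    · simp
    · simp
  have h2 : ∑ z : H, ‖1 + ((z : ℂˣ) : ℂ)‖ ^ 2 = ∑ z : H, (2 + 2 * (((z : ℂˣ) : ℂ)).re) :=
    Finset.sum_congr rfl fun z _ => sq_norm_one_add _ (norm_coe_eq_one_of_finite H z)
  rw [h2, Finset.sum_add_distrib, ← Finset.mul_sum, ← Complex.re_sum, Finset.sum_const,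
    Finset.card_univ, nsmul_eq_mul]
  nlinarith

/-- The analytic contradiction. -/
theorem rankin_cheb_absurd {H : Type} [Fintype H] [Nonempty H] (w : H → ℝ)
    (hw : 2 * (Fintype.card H : ℝ) ≤ ∑ z : H, w z) (hw0 : ∀ z, 0 ≤ w z)
    (b : ℕ → ℝ) (P : H → Set ℕ)
    (hP : ∀ z, ∀ p ∈ P z, b p = w z)
    (hdisj : ∀ z z' : H, ∀ p, p ∈ P z → p ∈ P z' → z = z')
    (hCheb : ∀ z, ∃ C : ℝ, ∀ s : ℝ, 1 < s → s ≤ 2 → ∃ T : Finset ℕ, (∀ p ∈ T, p ∈ P z) ∧
      (1 - 1 / 4) * ((1 : ℝ) / (Fintype.card H : ℝ)) * Real.log (1 / (s - 1)) - C ≤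
        ∑ p ∈ T, (p : ℝ) ^ (-s))
    (hRankin : ∃ C : ℝ, ∀ s : ℝ, 1 < s → s ≤ 2 → ∀ T : Finset ℕ, (∀ p ∈ T, ∃ z, p ∈ P z) →
      ∑ p ∈ T, b p * (p : ℝ) ^ (-s) ≤ Real.log (1 / (s - 1)) + C) : False := by
  classical
  choose C hC using hCheb
  obtain ⟨CR, hR⟩ := hRankin
  set C' : ℝ := ∑ z : H, w z * C z with hC'
  set B : ℝ := 2 * (C' + CR) with hB
  set M : ℝ := max B 0 + 1 with hM
  have hM0 : 0 < M := by positivity
  have hMB : B < M := lt_of_le_of_lt (le_max_left B 0) (lt_add_one _)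
  set s : ℝ := 1 + Real.exp (-M) with hs
  have hs1 : 1 < s := by
    have := Real.exp_pos (-M)
    linarith
  have hs2 : s ≤ 2 := by
    have : Real.exp (-M) ≤ 1 := Real.exp_le_one_iff.mpr (by linarith)
    linarith
  have hL : Real.log (1 / (s - 1)) = M := by
    rw [hs, add_sub_cancel_left, one_div, ← Real.exp_neg, neg_neg, Real.log_exp]
  choose T hT using fun z => hC z s hs1 hs2
  have hm : (0 : ℝ) < (Fintype.card H : ℝ) := by
    exact_mod_cast Fintype.card_pos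
  have hdis : ((Finset.univ : Finset H) : Set H).PairwiseDisjoint T := by
    intro z _ z' _ hzz'
    rw [Function.onFun, Finset.disjoint_left]
    intro p hp hp'
    exact hzz' (hdisj z z' p ((hT z).1 p hp) ((hT z').1 p hp'))
  have hup := hR s hs1 hs2 (Finset.univ.biUnion T) (by
    intro p hp
    rw [Finset.mem_biUnion] at hp
    obtain ⟨z, _, hz⟩ := hp
    exact ⟨z, (hT z).1 p hz⟩)
  rw [Finset.sum_biUnion hdis, hL] at hup
  have hlow : ∀ z : H, w z * ((1 - 1 / 4) * ((1 : ℝ) / (Fintype.card H : ℝ)) * M - C z) ≤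
      ∑ p ∈ T z, b p * (p : ℝ) ^ (-s) := by
    intro z
    have h1 : ∑ p ∈ T z, b p * (p : ℝ) ^ (-s) = w z * ∑ p ∈ T z, (p : ℝ) ^ (-s) := by
      rw [Finset.mul_sum]
      exact Finset.sum_congr rfl fun p hp => by rw [hP z p ((hT z).1 p hp)]
    rw [h1]
    have h2 := (hT z).2
    rw [hL] at h2
    exact mul_le_mul_of_nonneg_left h2 (hw0 z)
  have hlow' := Finset.sum_le_sum fun z (_ : z ∈ (Finset.univ : Finset H)) => hlow z
  have h3 : ∑ z : H, w z * ((1 - 1 / 4) * ((1 : ℝ) / (Fintype.card H : ℝ)) * M - C z)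
      = (1 - 1 / 4) * ((1 : ℝ) / (Fintype.card H : ℝ)) * M * (∑ z : H, w z) - C' := by
    rw [hC', Finset.mul_sum, ← Finset.sum_sub_distrib]
    exact Finset.sum_congr rfl fun z _ => by ring
  rw [h3] at hlow'
  have h4 : (1 - 1 / 4) * ((1 : ℝ) / (Fintype.card H : ℝ)) * M * (2 * (Fintype.card H : ℝ))
      ≤ (1 - 1 / 4) * ((1 : ℝ) / (Fintype.card H : ℝ)) * M * (∑ z : H, w z) := by
    apply mul_le_mul_of_nonneg_left hw
    positivity
  have h5 : (1 - 1 / 4) * ((1 : ℝ) / (Fintype.card H : ℝ)) * M * (2 * (Fintype.card H : ℝ))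
      = 3 / 2 * M := by
    field_simp
    ring
  rw [h5] at h4
  linarith

end Fermat.Agent.S48.H55
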