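import Fermat.Agent.S48.Defs
import Fermat.Agent.S48.H55_IrrSum
import Fermat.Agent.S48.H55_IrrLine
import Fermat.Agent.S48.H55_IrrFrob

/-!
# S48, leaf Irr (helper55): `Stmt_Rankin → Stmt_Cheb → Stmt_Irr`

If the attached representation `ρ` had a stable line `ℂ v`, with character `χ₁` on the line and
`χ₂ = det ρ / χ₁`, then `a_p = χ₁(Frob_p) + χ₂(Frob_p)` and `|a_p|² = |1 + ψ(Frob_p)|²` with
`ψ = χ₁ / χ₂`, a character with finite cyclic image `H`. Chebotarev (lower bound form, loss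
`η = 1/4`) for `ψ`, summed over `H`, gives
`∑ |a_p|² p^{-s} ≥ (3/4) (1/#H) (∑_{z ∈ H} |1 + z|²) log (1/(s-1)) - C ≥ (3/2) log (1/(s-1)) - C`,
against Rankin's `≤ log (1/(s-1)) + C`.
-/

set_option autoImplicit false
set_option linter.style.haveILetI false

open CongruenceSubgroup
open scoped MatrixGroups

namespace Fermat.Agent.S48.H55

local notation "Γℚ" => (AlgebraicClosure ℚ ≃ₐ[ℚ] AlgebraicClosure ℚ)

/-- Finite level passes to homomorphisms which are trivial where the given one is. -/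
theorem finiteLevel_of_imp {M M' : Type} [MulOneClass M] [MulOneClass M'] (ρ : Γℚ →* M)
    (θ : Γℚ →* M') (h : ∀ σ, ρ σ = 1 → θ σ = 1) (hρ : GaloisFactorsThroughFiniteLevel ρ) :
    GaloisFactorsThroughFiniteLevel θ := by
  obtain ⟨L, hL, hL'⟩ := hρ
  exact ⟨L, hL, fun σ hσ => h σ (hL' σ hσ)⟩

/-- The values of a character of finite level have norm one. -/
theorem norm_eq_one_of_finiteLevel (θ : Γℚ →* ℂˣ) (h : GaloisFactorsThroughFiniteLevel θ)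
    (σ : Γℚ) : ‖((θ σ : ℂˣ) : ℂ)‖ = 1 := by
  obtain ⟨n, hn, hpow⟩ := exists_pow_eq_one_of_finiteLevel θ h σ
  have h1 : ((θ σ : ℂˣ) : ℂ) ^ n = 1 := by
    rw [← Units.val_pow_eq_pow_val, hpow, Units.val_one]
  exact Complex.norm_eq_one_of_pow_eq_one h1 hn.ne'

/-- `‖c + d / c‖² = ‖1 + c * c * d⁻¹‖²` for `c`, `d` of norm one. -/
theorem sq_norm_add_div (c d : ℂ) (hc : ‖c‖ = 1) (hd : ‖d‖ = 1) :
    ‖c + d / c‖ ^ 2 = ‖1 + c * c * d⁻¹‖ ^ 2 := by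
  have hc0 : c ≠ 0 := by
    intro h
    rw [h, norm_zero] at hc
    exact zero_ne_one hc
  have hd0 : d ≠ 0 := by
    intro h
    rw [h, norm_zero] at hd
    exact zero_ne_one hd
  have h1 : c + d / c = d / c * (1 + c * c * d⁻¹) := by
    field_simp
    ring
  rw [h1, norm_mul, norm_div, hc, hd, div_one, one_mul]

/-- In a commutative group the conjugacy classes are singletons. -/
theorem card_isConj_eq_one {G : Type} [CommGroup G] (g : G) :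
    Nat.card {h : G // IsConj g h} = 1 := by
  haveI : Unique {h : G // IsConj g h} :=
    { default := ⟨g, IsConj.refl g⟩
      uniq := fun x => Subtype.ext (isConj_iff_eq.mp x.2).symm }
  exact Nat.card_unique

/-- **Irr** from **Rankin** and **Chebotarev**. -/
theorem stmt_Irr_of (hR : Stmt_Rankin) (hCh : Stmt_Cheb) : Stmt_Irr := by
  classical
  intro N _ ε f hf ρ hρ
  apply irr_of_no_line
  rintro ⟨v, hv0, hv⟩
  obtain ⟨hlevel, hfrob⟩ := hρ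
  choose χ hχ using hv
  -- `χ` is a character
  have hχone : ∀ σ : Γℚ, ρ σ = 1 → χ σ = 1 := by
    intro σ hσ
    have h1 := hχ σ
    rw [hσ, Units.val_one, Matrix.one_mulVec] at h1
    have h2 : (1 : ℂ) • v = χ σ • v := by rw [one_smul]; exact h1
    exact (smul_left_injective ℂ hv0 h2).symm
  have hχmul : ∀ σ τ : Γℚ, χ (σ * τ) = χ σ * χ τ := by
    intro σ τ
    have h1 := hχ (σ * τ)
    rw [map_mul, Units.val_mul, ← Matrix.mulVec_mulVec, hχ τ, Matrix.mulVec_smul, hχ σ,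
      smul_smul] at h1
    have h2 := smul_left_injective ℂ hv0 h1
    rw [← h2]
    ring
  have hχne : ∀ σ : Γℚ, χ σ ≠ 0 := by
    intro σ h0
    have h1 := hχmul σ σ⁻¹
    rw [mul_inv_cancel, hχone 1 (map_one ρ), h0, zero_mul] at h1
    exact one_ne_zero h1
  let χu : Γℚ →* ℂˣ := MonoidHom.mk' (fun σ => Units.mk0 (χ σ) (hχne σ)) (fun σ τ => by
    apply Units.ext
    simp only [Units.val_mk0, Units.val_mul]
    exact hχmul σ τ)
  have hχu : ∀ σ, ((χu σ : ℂˣ) : ℂ) = χ σ := fun σ => rfl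
  let dρ : Γℚ →* ℂˣ := Matrix.GeneralLinearGroup.det.comp ρ
  have hdρ : ∀ σ, ((dρ σ : ℂˣ) : ℂ) = ((ρ σ : GL (Fin 2) ℂ) : Matrix (Fin 2) (Fin 2) ℂ).det :=
    fun σ => rfl
  let ψ : Γℚ →* ℂˣ := χu * χu * dρ⁻¹
  have hψ : ∀ σ, ((ψ σ : ℂˣ) : ℂ) = χ σ * χ σ *
      (((ρ σ : GL (Fin 2) ℂ) : Matrix (Fin 2) (Fin 2) ℂ).det)⁻¹ := by
    intro σ
    show (((χu σ * χu σ * (dρ σ)⁻¹ : ℂˣ)) : ℂ) = _
    rw [Units.val_mul, Units.val_mul, Units.val_inv_eq_inv_val, hχu, hdρ]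
  have hχu1 : ∀ σ : Γℚ, ρ σ = 1 → χu σ = 1 := fun σ hσ =>
    Units.ext (by rw [hχu, hχone σ hσ, Units.val_one])
  have hdρ1 : ∀ σ : Γℚ, ρ σ = 1 → dρ σ = 1 := fun σ hσ => by
    show Matrix.GeneralLinearGroup.det (ρ σ) = 1
    rw [hσ, map_one]
  have hψ1 : ∀ σ : Γℚ, ρ σ = 1 → ψ σ = 1 := fun σ hσ => by
    show χu σ * χu σ * (dρ σ)⁻¹ = 1
    rw [hχu1 σ hσ, hdρ1 σ hσ]
    simp
  have hχlevel := finiteLevel_of_imp ρ χu hχu1 hlevel
  have hdlevel := finiteLevel_of_imp ρ dρ hdρ1 hlevel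
  have hψlevel := finiteLevel_of_imp ρ ψ hψ1 hlevel
  -- the group `H` and the surjection `r`
  haveI : Finite ψ.range := finite_range_of_finiteLevel ψ hψlevel
  letI : Fintype ψ.range := Fintype.ofFinite _
  let r : Γℚ →* ψ.range := ψ.rangeRestrict
  have hr : ∀ σ, ((r σ : ψ.range) : ℂˣ) = ψ σ := fun σ => rfl
  have hrlevel : GaloisFactorsThroughFiniteLevel r :=
    finiteLevel_of_imp ρ r (fun σ hσ => Subtype.ext (by rw [hr, hψ1 σ hσ]; rfl)) hlevel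
  have hrsurj : Function.Surjective r := ψ.rangeRestrict_surjective
  -- the key identity at Frobenius elements
  have hkey : ∀ (p : ℕ), p.Prime → ¬ p ∣ N → ∀ (A : ValuationSubring (AlgebraicClosure ℚ))
      (σ : Γℚ), A.LiesOverPrime p → A.IsFrobeniusAt σ p →
      ‖ModularFormClass.qCoeff f p‖ ^ 2 = ‖1 + ((ψ σ : ℂˣ) : ℂ)‖ ^ 2 := by
    intro p hp hpN A σ hA hσ
    have h1 := ((hfrob p hp hpN A hA).2 σ hσ).1
    have h2 := trace_eq_of_eigen _ v hv0 (χ σ) (hχne σ) (hχ σ)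
    rw [← h1, h2, hψ]
    apply sq_norm_add_div
    · rw [← hχu]
      exact norm_eq_one_of_finiteLevel χu hχlevel σ
    · rw [← hdρ]
      exact norm_eq_one_of_finiteLevel dρ hdlevel σ
  have hmemN : ∀ p : ℕ, p.Prime → p ∉ N.primeFactors → ¬ p ∣ N := by
    intro p hp hpS hpN
    exact hpS (Nat.mem_primeFactors.mpr ⟨hp, hpN, NeZero.ne N⟩)
  refine rankin_cheb_absurd (H := ψ.range) (fun z => ‖1 + ((z : ℂˣ) : ℂ)‖ ^ 2)
    (sum_sq_norm_one_add ψ.range) (fun z => by positivity)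
    (fun p => ‖ModularFormClass.qCoeff f p‖ ^ 2)
    (fun z => {p | p ∈ frobPrimes r z ∧ p ∉ N.primeFactors}) ?_ ?_ ?_ ?_
  · rintro z p ⟨⟨hp, A, σ, hA, hσ, hrz⟩, hpS⟩
    show ‖ModularFormClass.qCoeff f p‖ ^ 2 = ‖1 + ((z : ℂˣ) : ℂ)‖ ^ 2
    rw [hkey p hp (hmemN p hp hpS) A σ hA hσ, ← hrz, hr]
  · rintro z z' p ⟨⟨hp, A, σ, hA, hσ, hrz⟩, hpS⟩ ⟨⟨_, A', σ', hA', hσ', hrz'⟩, _⟩
    have hpN := hmemN p hp hpS
    have h1 := frob_value_unique ψ p hp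
      (fun B hB τ hτ => hψ1 τ ((hfrob p hp hpN B hB).1 τ hτ)) A A' hA hA' σ σ' hσ hσ'
    apply Subtype.ext
    rw [← hrz, ← hrz', hr, hr, h1]
  · intro z
    obtain ⟨C, hC⟩ := hCh ψ.range r hrlevel hrsurj N.primeFactors z (1 / 4) (by norm_num)
    refine ⟨C, fun s hs1 hs2 => ?_⟩
    obtain ⟨T, hT1, hT2⟩ := hC s hs1 hs2
    refine ⟨T, fun p hp => hT1 p hp, ?_⟩
    rw [card_isConj_eq_one, Nat.card_eq_fintype_card] at hT2
    simpa using hT2
  · obtain ⟨C, hC⟩ := hR N ε f hf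
    refine ⟨C, fun s hs1 hs2 T hT => hC s hs1 hs2 T ?_⟩
    intro p hp
    obtain ⟨z, ⟨hp1, _⟩, hpS⟩ := hT p hp
    exact ⟨hp1, hmemN p hp1 hpS⟩

end Fermat.Agent.S48.H55
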